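import Fermat.Agent.S55.G.BridgeVal

/-!
# S55/G-BridgeGal : Galois theory dictionary `Gal(L/K)` versus `fixG φK / fixG φ`.

`K`, `L` abstract number fields, `L/K` Galois of degree `p`, `φ : L →+* Qbar` an embedding,
`φK = φ ∘ algebraMap`, `U = fixG φK ⊇ U1 = fixG φ`.  `(l,g)` a place of `Qbar` inducing `v` on `K`.
`D = Dg l g`, `W = D ⊓ U`, `W1 = D ⊓ U1`, `F = Fix W` (henselisation of `K` at `v`), `F' = Fix W1`.
All imported files are black boxes.
-/

open IsDedekindDomain NumberField Module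

namespace Fermat.Agent.S55.G

open Fermat.Agent.S55.Places

noncomputable section

set_option linter.unusedSectionVars false

attribute [local instance] isAlgClosureQbar

variable {p : ℕ} [Fact p.Prime] {K L : Type} [Field K] [NumberField K] [Field L] [NumberField L]
  [Algebra K L]

theorem fixG_le (φ : L →+* Qbar) : fixG φ ≤ fixG (φ.comp (algebraMap K L)) :=
  fun _ hg x => hg (algebraMap K L x)

namespace BridgeGal

/-- in a group of prime order, the powers `g^i`, `i < p`, of a nontrivial element enumerate the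
group. -/
theorem prod_range_pow_eq {G M : Type*} [Group G] [Fintype G] [CommMonoid M]
    (hG : Nat.card G = p) {g : G} (hg : g ≠ 1) (f : G → M) :
    ∏ i ∈ Finset.range p, f (g ^ i) = ∏ x, f x := by
  classical
  have hp : p.Prime := Fact.out
  have hord : orderOf g = p := by
    have h1 : orderOf g ∣ p := hG ▸ orderOf_dvd_natCard g
    rcases (Nat.dvd_prime hp).mp h1 with h | h
    · exact absurd (orderOf_eq_one_iff.mp h) hg
    · exact h
  have hinj : Set.InjOn (fun i : ℕ => g ^ i) (Finset.range p : Set ℕ) := by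
    intro a ha b hb hab
    have ha' : a < orderOf g := by rw [hord]; exact Finset.mem_range.mp ha
    have hb' : b < orderOf g := by rw [hord]; exact Finset.mem_range.mp hb
    exact pow_injOn_Iio_orderOf ha' hb' hab
  have himg : (Finset.range p).image (fun i : ℕ => g ^ i) = Finset.univ := by
    apply Finset.eq_univ_of_card
    rw [Finset.card_image_of_injOn hinj, Finset.card_range, ← Nat.card_eq_fintype_card, hG]
  rw [← himg, Finset.prod_image hinj]

theorem prod_range_pow_eq' {G M : Type*} [Group G] [CommMonoid M]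
    (hG : Nat.card G = p) {g g' : G} (hg : g ≠ 1) (hg' : g' ≠ 1) (f : G → M) :
    ∏ i ∈ Finset.range p, f (g ^ i) = ∏ i ∈ Finset.range p, f (g' ^ i) := by
  have hp : p.Prime := Fact.out
  have : Finite G := Nat.finite_of_card_ne_zero (by rw [hG]; exact hp.ne_zero)
  have := Fintype.ofFinite G
  rw [prod_range_pow_eq hG hg, prod_range_pow_eq hG hg']

end BridgeGal

open BridgeGal

/-- every `σ ∈ Gal(L/K)` is induced by some `s ∈ U` (extend `φ ∘ σ ∘ φ⁻¹` to `Qbar`:
`IsAlgClosed.lift`/`AlgEquiv.liftNormal`/`IntermediateField.exists_algHom...`), and conversely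
(`L/K` normal). -/
theorem exists_lift (φ : L →+* Qbar) (σ : L ≃ₐ[K] L) :
    ∃ s ∈ fixG (φ.comp (algebraMap K L)), ∀ y : L, s (φ y) = φ (σ y) := by
  let _ : Algebra L Qbar := φ.toAlgebra
  have : IsScalarTower ℚ L Qbar := IsScalarTower.of_algebraMap_eq fun q => by
    show algebraMap ℚ Qbar q = φ (algebraMap ℚ L q)
    rw [eq_ratCast, eq_ratCast, map_ratCast]
  have : Normal ℚ Qbar := IsAlgClosure.normal ℚ Qbar
  have key : ∀ y : L, ((σ.restrictScalars ℚ).liftNormal Qbar) (φ y) = φ (σ y) := fun y =>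
    AlgEquiv.liftNormal_commutes (σ.restrictScalars ℚ) Qbar y
  refine ⟨(σ.restrictScalars ℚ).liftNormal Qbar, fun x => ?_, key⟩
  show ((σ.restrictScalars ℚ).liftNormal Qbar) (φ (algebraMap K L x)) = φ (algebraMap K L x)
  rw [key, σ.commutes]

theorem exists_restrict [IsGalois K L] (φ : L →+* Qbar) {s : GQ}
    (hs : s ∈ fixG (φ.comp (algebraMap K L))) : ∃ σ : L ≃ₐ[K] L, ∀ y : L, s (φ y) = φ (σ y) := by
  let _ : Algebra L Qbar := φ.toAlgebra
  let _ : Algebra K Qbar := (φ.comp (algebraMap K L)).toAlgebra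
  have : IsScalarTower K L Qbar := IsScalarTower.of_algebraMap_eq fun _ => rfl
  let χ : Qbar ≃ₐ[K] Qbar := { s.toRingEquiv with commutes' := fun x => hs x }
  refine ⟨χ.restrictNormal L, fun y => ?_⟩
  exact (AlgEquiv.restrictNormal_commutes χ L y).symm

theorem fixG_normal [IsGalois K L] (φ : L →+* Qbar) :
    ((fixG φ).subgroupOf (fixG (φ.comp (algebraMap K L)))).Normal := by
  constructor
  intro n hn u
  rw [Subgroup.mem_subgroupOf] at hn ⊢
  intro y
  obtain ⟨σ, hσ⟩ := exists_restrict φ (inv_mem u.2)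
  show (u : GQ) ((n : GQ) (((u⁻¹ : fixG (φ.comp (algebraMap K L))) : GQ) (φ y))) = φ y
  have h1 : ((u⁻¹ : fixG (φ.comp (algebraMap K L))) : GQ) (φ y) = φ (σ y) := hσ y
  rw [h1, hn (σ y), ← h1]
  show ((u : GQ) * ((u : GQ)⁻¹)) (φ y) = φ y
  rw [mul_inv_cancel]
  rfl

namespace BridgeGal

/-- the restriction `U → Gal(L/K)`, as a function. -/
def res [IsGalois K L] (φ : L →+* Qbar) (u : fixG (φ.comp (algebraMap K L))) : L ≃ₐ[K] L :=
  (exists_restrict φ u.2).choose

theorem res_spec [IsGalois K L] (φ : L →+* Qbar) (u : fixG (φ.comp (algebraMap K L))) (y : L) :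
    (u : GQ) (φ y) = φ (res φ u y) :=
  (exists_restrict φ u.2).choose_spec y

/-- the restriction `U → Gal(L/K)`, as a group homomorphism. -/
def resHom [IsGalois K L] (φ : L →+* Qbar) :
    fixG (φ.comp (algebraMap K L)) →* (L ≃ₐ[K] L) where
  toFun := res φ
  map_one' := by
    ext y
    apply φ.injective
    rw [← res_spec]
    rfl
  map_mul' a b := by
    ext y
    apply φ.injective
    rw [← res_spec, AlgEquiv.mul_apply, ← res_spec, ← res_spec]
    rfl

theorem resHom_spec [IsGalois K L] (φ : L →+* Qbar) (u : fixG (φ.comp (algebraMap K L)))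
    (y : L) : (u : GQ) (φ y) = φ (resHom φ u y) := res_spec φ u y

theorem resHom_surjective [IsGalois K L] (φ : L →+* Qbar) :
    Function.Surjective (resHom (K := K) φ) := by
  intro σ
  obtain ⟨s, hs, hsσ⟩ := exists_lift φ σ
  refine ⟨⟨s, hs⟩, ?_⟩
  ext y
  apply φ.injective
  rw [← resHom_spec]
  exact hsσ y

theorem resHom_ker [IsGalois K L] (φ : L →+* Qbar) :
    (resHom (K := K) φ).ker = (fixG φ).subgroupOf (fixG (φ.comp (algebraMap K L))) := by
  ext u
  rw [MonoidHom.mem_ker, Subgroup.mem_subgroupOf]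
  constructor
  · intro h y
    rw [resHom_spec, h]
    rfl
  · intro h
    ext y
    apply φ.injective
    rw [← resHom_spec]
    exact h y

end BridgeGal

theorem fixG_index [IsGalois K L] (φ : L →+* Qbar) :
    ((fixG φ).subgroupOf (fixG (φ.comp (algebraMap K L)))).index = finrank K L := by
  rw [← resHom_ker, Subgroup.index_ker, MonoidHom.range_eq_top.mpr (resHom_surjective φ),
    Nat.card_congr Subgroup.topEquiv.toEquiv, IsGalois.card_aut_eq_finrank]

/-- (D5) `t ∈ U \ U1` restricts to a generator `σ` of `Gal(L/K)` (prime order), and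
`N y = ∏_{τ} τ y = ∏_{i<p} σ^i y` (`Algebra.norm_eq_prod_automorphisms`). -/
theorem map_norm [IsGalois K L] (hdeg : finrank K L = p) (φ : L →+* Qbar) {t : GQ}
    (ht : t ∈ fixG (φ.comp (algebraMap K L))) (ht' : t ∉ fixG φ) (y : L) :
    φ (algebraMap K L (Algebra.norm K y)) = ∏ i ∈ Finset.range p, (t ^ i) (φ y) := by
  classical
  set σ : L ≃ₐ[K] L := resHom φ ⟨t, ht⟩ with hσ
  have hσ1 : σ ≠ 1 := by
    intro h
    apply ht'
    have : (⟨t, ht⟩ : fixG (φ.comp (algebraMap K L))) ∈ (resHom (K := K) φ).ker := h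
    rw [resHom_ker, Subgroup.mem_subgroupOf] at this
    exact this
  have hcard : Nat.card (L ≃ₐ[K] L) = p := by rw [IsGalois.card_aut_eq_finrank, hdeg]
  have hpow : ∀ i : ℕ, (t ^ i) (φ y) = φ ((σ ^ i) y) := by
    intro i
    have := resHom_spec φ ((⟨t, ht⟩ : fixG (φ.comp (algebraMap K L))) ^ i) y
    rw [map_pow] at this
    exact this
  rw [Algebra.norm_eq_prod_automorphisms, map_prod,
    ← prod_range_pow_eq hcard hσ1 (fun τ : L ≃ₐ[K] L => φ (τ y))]
  exact Finset.prod_congr rfl fun i _ => (hpow i).symm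

/-- the norm `∏ t^i c` does not depend on the choice of `t ∈ W \ W1`
(`W1` normal of index `p` in `W`, `c ∈ Fix W1`). -/
theorem prod_pow_eq_of_not_mem {W W1 : Subgroup GQ} (hle : W1 ≤ W) (hn : (W1.subgroupOf W).Normal)
    (hi : (W1.subgroupOf W).index = p) {t t' : GQ} (ht : t ∈ W) (ht1 : t ∉ W1) (ht' : t' ∈ W)
    (ht1' : t' ∉ W1) {c : Qbar} (hc : c ∈ Places.Fix W1) :
    ∏ i ∈ Finset.range p, (t ^ i) c = ∏ i ∈ Finset.range p, (t' ^ i) c := by
  let f : (W ⧸ W1.subgroupOf W) → Qbar := fun x => ((Quotient.out x : W) : GQ) c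
  have hf : ∀ w : W, f (w : W ⧸ W1.subgroupOf W) = (w : GQ) c := by
    intro w
    obtain ⟨h, hh⟩ := QuotientGroup.mk_out_eq_mul (W1.subgroupOf W) w
    show ((Quotient.out (w : W ⧸ W1.subgroupOf W) : W) : GQ) c = (w : GQ) c
    rw [hh]
    show (w : GQ) (((h : W) : GQ) c) = (w : GQ) c
    congr 1
    exact hc ⟨((h : W) : GQ), Subgroup.mem_subgroupOf.mp h.2⟩
  have hcard : Nat.card (W ⧸ W1.subgroupOf W) = p := hi
  have hne : ∀ s : GQ, ∀ hs : s ∈ W, s ∉ W1 →
      ((⟨s, hs⟩ : W) : W ⧸ W1.subgroupOf W) ≠ 1 := by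
    intro s hs hs1 h
    apply hs1
    have := (QuotientGroup.eq_one_iff (N := W1.subgroupOf W) (⟨s, hs⟩ : W)).mp h
    exact Subgroup.mem_subgroupOf.mp this
  have hrw : ∀ s : GQ, ∀ hs : s ∈ W, ∀ i : ℕ,
      (s ^ i) c = f (((⟨s, hs⟩ : W) : W ⧸ W1.subgroupOf W) ^ i) := by
    intro s hs i
    rw [← QuotientGroup.mk_pow, hf]
    rfl
  rw [Finset.prod_congr rfl fun i _ => hrw t ht i, Finset.prod_congr rfl fun i _ => hrw t' ht' i]
  exact prod_range_pow_eq' hcard (hne t ht ht1) (hne t' ht' ht1') f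

end

end Fermat.Agent.S55.G
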