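import Fermat.Agent.S55.G.BridgeGrp

/-!
# S55/G-BridgeModel : open subgroups `U1 ◁ U` of `GQ` come from abstract number fields.
-/

open IsDedekindDomain NumberField Module

namespace Fermat.Agent.S55.G

open Fermat.Agent.S55.Places

noncomputable section

set_option linter.unusedSectionVars false


variable {p : ℕ} [Fact p.Prime]

attribute [local instance] isAlgClosureQbar isGalois_Qbar

namespace BridgeModel

theorem isOpenIn_top_of_isOpen {U : Subgroup GQ} (hU : Lall.IsOpen U) : IsOpenIn ⊤ U := by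
  obtain ⟨E, hE, h⟩ := Lall_isOpen_iff.1 hU
  exact ⟨le_top, E, hE, inf_le_right.trans h⟩

theorem mem_of_fixes_Fix {U : Subgroup GQ} (hU : Lall.IsOpen U) {g : GQ}
    (hg : ∀ x ∈ Places.Fix U, g x = x) : g ∈ U :=
  (isOpenIn_top_of_isOpen hU).mem_of_fixes (Subgroup.mem_top g) hg

theorem finiteDimensional_Fix {U : Subgroup GQ} (hU : Lall.IsOpen U) :
    FiniteDimensional ℚ (Places.Fix U) := by
  obtain ⟨E, hE, h⟩ := Lall_isOpen_iff.1 hU
  have h1 : Places.Fix U ≤ E := by
    have h2 : IntermediateField.fixedField U ≤ IntermediateField.fixedField E.fixingSubgroup :=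
      Fix_anti h
    rwa [InfiniteGalois.fixedField_fixingSubgroup] at h2
  exact FiniteDimensional.of_injective (IntermediateField.inclusion h1).toLinearMap
    (IntermediateField.inclusion h1).injective

theorem isOpen_of_isOpenIn {U U1 : Subgroup GQ} (hU : Lall.IsOpen U) (hU1 : IsOpenIn U U1) :
    Lall.IsOpen U1 := by
  obtain ⟨E, hE, h⟩ := Lall_isOpen_iff.1 hU
  obtain ⟨-, E', hE', h'⟩ := hU1
  refine Lall_isOpen_iff.2 ⟨E ⊔ E', IntermediateField.finiteDimensional_sup E E', ?_⟩
  rw [IntermediateField.fixingSubgroup_sup]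
  exact fun g hg => h' ⟨h hg.1, hg.2⟩

theorem map_mem_Fix_of_normal {U U1 : Subgroup GQ} (hle : U1 ≤ U) (hn : (U1.subgroupOf U).Normal)
    {g : GQ} (hg : g ∈ U) {x : Qbar} (hx : x ∈ Places.Fix U1) : g x ∈ Places.Fix U1 := by
  rw [IntermediateField.mem_fixedField_iff] at hx ⊢
  intro u hu
  have h1 : g⁻¹ * u * g ∈ U1 := by
    have h2 := hn.conj_mem ⟨u, hle hu⟩ (Subgroup.mem_subgroupOf.2 hu) ⟨g⁻¹, inv_mem hg⟩
    rw [Subgroup.mem_subgroupOf] at h2
    simpa using h2
  have h3 := hx _ h1
  have h4 : g ((g⁻¹ * u * g) x) = u (g x) := by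
    simp only [AlgEquiv.mul_apply]
    exact AlgEquiv.apply_symm_apply g _
  rw [← h4, h3]

theorem normal_extendScalars {U U1 : Subgroup GQ} (hle : U1 ≤ U) (hn : (U1.subgroupOf U).Normal) :
    Normal (Places.Fix U) (IntermediateField.extendScalars (Fix_anti hle)) := by
  have : Normal (Places.Fix U) Qbar := Normal.tower_top_of_normal ℚ (Places.Fix U) Qbar
  rw [IntermediateField.normal_iff_forall_map_le]
  rintro σ _ ⟨x, hx, rfl⟩
  have hx' : x ∈ Places.Fix U1 := hx
  have hroot : Polynomial.aeval (σ x) (minpoly (Places.Fix U) x) = 0 := by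
    rw [Polynomial.aeval_algHom_apply, minpoly.aeval, map_zero]
  obtain ⟨g, hg, hgx⟩ := exists_mem_map_eq_of_isRoot U x (σ x) hroot
  show σ x ∈ Places.Fix U1
  rw [← hgx]
  exact map_mem_Fix_of_normal hle hn hg hx'

end BridgeModel

open BridgeModel in
/-- a pair of open subgroups `U1 ◁ U` of index `p` comes from a Galois extension of abstract number
fields (take `K = ↥(Fix U)`, `L = ↥(Fix U1)`, `φ` the inclusion; `IsOpenIn.mem_of_fixes`,
`IsOpenIn.relfinrank_eq`). -/
theorem exists_model (U U1 : Subgroup GQ) (hU : Lall.IsOpen U) (hU1 : IsOpenIn U U1)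
    (hn : (U1.subgroupOf U).Normal) (hi : (U1.subgroupOf U).index = p)
    (hμ : U ≤ (ExtCitation.cycloChar p).ker) :
    ∃ (K L : Type) (_ : Field K) (_ : NumberField K) (_ : Field L) (_ : NumberField L)
      (_ : Algebra K L) (_ : IsGalois K L) (φ : L →+* Qbar),
      finrank K L = p ∧ fixG φ = U1 ∧ fixG (φ.comp (algebraMap K L)) = U ∧
      ∃ ζ : K, IsPrimitiveRoot ζ p := by
  have hle : U1 ≤ U := hU1.1
  have hU1o : Lall.IsOpen U1 := isOpen_of_isOpenIn hU hU1
  have hfdK : FiniteDimensional ℚ (Places.Fix U) := finiteDimensional_Fix hU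
  have hfdL : FiniteDimensional ℚ (Places.Fix U1) := finiteDimensional_Fix hU1o
  have hnfK : NumberField (Places.Fix U) := { to_charZero := inferInstance, to_finiteDimensional := hfdK }
  let L' : IntermediateField (Places.Fix U) Qbar := IntermediateField.extendScalars (Fix_anti hle)
  have hnfL : NumberField L' := { to_charZero := inferInstance, to_finiteDimensional := hfdL }
  have hnorm : Normal (Places.Fix U) L' := normal_extendScalars hle hn
  have hgal : IsGalois (Places.Fix U) L' := isGalois_iff.2 ⟨inferInstance, hnorm⟩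
  refine ⟨Places.Fix U, L', inferInstance, hnfK, inferInstance, hnfL, inferInstance, hgal,
    algebraMap L' Qbar, ?_, ?_, ?_, ?_⟩
  · rw [← hi, ← hU1.relfinrank_eq, IntermediateField.relfinrank_eq_finrank_of_le (Fix_anti hle)]
  · ext g
    constructor
    · intro hg
      refine mem_of_fixes_Fix hU1o fun x hx => ?_
      exact hg (⟨x, hx⟩ : L')
    · intro hg x
      have hx : (x : Qbar) ∈ Places.Fix U1 := x.2
      rw [IntermediateField.mem_fixedField_iff] at hx
      exact hx g hg
  · ext g
    constructor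
    · intro hg
      refine mem_of_fixes_Fix hU fun x hx => ?_
      exact hg (⟨x, hx⟩ : Places.Fix U)
    · intro hg x
      have hx : (x : Qbar) ∈ Places.Fix U := x.2
      rw [IntermediateField.mem_fixedField_iff] at hx
      exact hx g hg
  · have hz : IsPrimitiveRoot ((zeta p : Qbarˣ) : Qbar) p :=
      IsPrimitiveRoot.coe_units_iff.2 (zeta_spec p)
    have hmem : ((zeta p : Qbarˣ) : Qbar) ∈ Places.Fix U := by
      rw [IntermediateField.mem_fixedField_iff]
      intro g hg
      have h1 : ExtCitation.cycloChar p g = 1 := hμ hg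
      rw [cycloChar_spec p g (zeta p) (zeta_spec p).pow_eq_one, h1]
      have : Fact (1 < p) := ⟨(Fact.out : p.Prime).one_lt⟩
      simp [ZMod.val_one]
    refine ⟨⟨_, hmem⟩, ?_⟩
    exact IsPrimitiveRoot.of_map_of_injective (f := algebraMap (Places.Fix U) Qbar) hz
      (algebraMap (Places.Fix U) Qbar).injective

end

end Fermat.Agent.S55.G
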