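import Fermat.Agent.S55.G.Defs

open IsDedekindDomain NumberField Module

namespace Fermat.Agent.S55.G

noncomputable section

set_option linter.unusedSectionVars false
set_option linter.style.haveILetI false

/-! # S55/G-PlacesAbove : places of `L` above places of `K` (`L/K` finite, resp. Galois of degree `p`).
Mathlib: `Ideal.LiesOver`, `Ideal.primesOver`, `Ideal.under`, `IsGaloisGroup`/`Ideal.exists_smul_eq_of_isGalois`-type
transitivity (`Mathlib/NumberTheory/RamificationInertia/Galois.lean`: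
`Ideal.ncard_primesOver_mul_ramificationIdxIn_mul_inertiaDegIn`), `galRestrict`,
`IsDedekindDomain.HeightOneSpectrum.valuation_liesOver`
(`Mathlib/NumberTheory/RamificationInertia/Valuation.lean`). -/

/-! ### transport of valuations along ring automorphisms -/

theorem pa_mem_pow_comap {R : Type*} [CommRing R] (e : R ≃+* R) (I : Ideal R) (n : ℕ) (x : R) :
    x ∈ (I.comap (e : R →+* R)) ^ n ↔ e x ∈ I ^ n := by
  have h : ∀ J : Ideal R, J.comap (e : R →+* R) = J.map (e.symm : R →+* R) := by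
    intro J
    exact (Ideal.map_comap_of_equiv (I := J) e.symm).symm
  rw [h, ← Ideal.map_pow, ← h]
  rfl

theorem pa_intValuation_comap {R : Type*} [CommRing R] [IsDedekindDomain R] (e : R ≃+* R)
    (w w' : HeightOneSpectrum R) (h : w'.asIdeal = w.asIdeal.comap (e : R →+* R)) (x : R) :
    w'.intValuation x = w.intValuation (e x) := by
  rcases eq_or_ne x 0 with rfl | hx
  · simp
  have hex : e x ≠ 0 := by simpa using hx
  have key : ∀ n : ℕ, w'.intValuation x ≤ WithZero.exp (-(n : ℤ)) ↔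
      w.intValuation (e x) ≤ WithZero.exp (-(n : ℤ)) := by
    intro n
    rw [HeightOneSpectrum.intValuation_le_pow_iff_mem, HeightOneSpectrum.intValuation_le_pow_iff_mem,
      h, pa_mem_pow_comap]
  have h1 := w'.intValuation_eq_exp_neg_multiplicity hx
  have h2 := w.intValuation_eq_exp_neg_multiplicity hex
  apply le_antisymm
  · rw [h2]
    exact (key _).mpr h2.le
  · rw [h1]
    exact (key _).mp h1.le

variable (p : ℕ) [Fact p.Prime] (K : Type) [Field K] [NumberField K]
variable (L : Type) [Field L] [NumberField L] [Algebra K L]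

/-- the ring automorphism of `𝓞 L` induced by `σ`. -/
def paEquiv (σ : L ≃ₐ[K] L) : 𝓞 L ≃+* 𝓞 L := MulSemiringAction.toRingEquiv (L ≃ₐ[K] L) (𝓞 L) σ

theorem paEquiv_coe (σ : L ≃ₐ[K] L) (x : 𝓞 L) : ((paEquiv K L σ x : 𝓞 L) : L) = σ x := rfl

theorem pa_valuation_comap (σ : L ≃ₐ[K] L) (w w' : Pl L)
    (h : w'.asIdeal = w.asIdeal.comap (paEquiv K L σ : 𝓞 L →+* 𝓞 L)) (x : L) :
    w'.valuation L x = w.valuation L (σ x) := by
  obtain ⟨a, b, hb, rfl⟩ := IsFractionRing.div_surjective (A := 𝓞 L) x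
  rw [map_div₀, map_div₀ σ, map_div₀, HeightOneSpectrum.valuation_of_algebraMap,
    HeightOneSpectrum.valuation_of_algebraMap, pa_intValuation_comap (paEquiv K L σ) w w' h,
    pa_intValuation_comap (paEquiv K L σ) w w' h, ← HeightOneSpectrum.valuation_of_algebraMap (K := L),
    ← HeightOneSpectrum.valuation_of_algebraMap (K := L)]
  rfl

theorem exists_under (w : Pl L) : ∃ v : Pl K, w.asIdeal.LiesOver v.asIdeal :=
  ⟨w.under (𝓞 K), ⟨rfl⟩⟩

theorem exists_above (v : Pl K) : ∃ w : Pl L, w.asIdeal.LiesOver v.asIdeal := by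
  have : v.asIdeal.IsMaximal := v.isMaximal
  obtain ⟨Q, hQ, hQv⟩ := Ideal.exists_maximal_ideal_liesOver_of_isIntegral (S := 𝓞 L) v.asIdeal
  exact ⟨⟨Q, hQ.isPrime, Ideal.ne_bot_of_liesOver_of_ne_bot v.ne_bot Q⟩, hQv⟩

theorem under_unique (w : Pl L) (v v' : Pl K) (h : w.asIdeal.LiesOver v.asIdeal)
    (h' : w.asIdeal.LiesOver v'.asIdeal) : v = v' :=
  HeightOneSpectrum.ext (h.over.trans h'.over.symm)

theorem pa_above_singleton_image (v : Pl K) :
    HeightOneSpectrum.asIdeal '' (above K L {v}) = v.asIdeal.primesOver (𝓞 L) := by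
  ext Q
  constructor
  · rintro ⟨w, ⟨v', rfl, hw⟩, rfl⟩
    exact ⟨w.isPrime, hw⟩
  · rintro ⟨hQ, hQv⟩
    exact ⟨⟨Q, hQ, Ideal.ne_bot_of_liesOver_of_ne_bot v.ne_bot Q⟩, ⟨v, rfl, hQv⟩, rfl⟩

theorem pa_asIdeal_injective : Function.Injective (HeightOneSpectrum.asIdeal : Pl L → Ideal (𝓞 L)) :=
  fun _ _ h => HeightOneSpectrum.ext h

theorem pa_above_singleton_finite (v : Pl K) : (above K L {v}).Finite := by
  have : v.asIdeal.IsMaximal := v.isMaximal
  have h := IsDedekindDomain.primesOver_finite v.asIdeal (𝓞 L)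
  rw [← pa_above_singleton_image] at h
  exact h.of_finite_image (pa_asIdeal_injective L).injOn

theorem pa_above_eq_biUnion (S : Set (Pl K)) : above K L S = ⋃ v ∈ S, above K L {v} := by
  ext w
  simp [above]

theorem above_finite (S : Set (Pl K)) (hS : S.Finite) : (above K L S).Finite := by
  rw [pa_above_eq_biUnion]
  exact hS.biUnion fun v _ => pa_above_singleton_finite K L v

/-- the place `σ⁻¹ w`. -/
def paComap (σ : L ≃ₐ[K] L) (w : Pl L) : Pl L where
  asIdeal := w.asIdeal.comap (paEquiv K L σ : 𝓞 L →+* 𝓞 L)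
  isPrime := Ideal.comap_isPrime _ _
  ne_bot := by
    intro h
    apply w.ne_bot
    have := Ideal.map_comap_of_surjective (paEquiv K L σ : 𝓞 L →+* 𝓞 L)
      (paEquiv K L σ).surjective w.asIdeal
    rw [h, Ideal.map_bot] at this
    exact this.symm

/-- Galois action on places: `w' = σ⁻¹ w`. -/
theorem exists_place_smul (σ : L ≃ₐ[K] L) (w : Pl L) :
    ∃ w' : Pl L, (∀ x : L, w'.valuation L x = w.valuation L (σ x)) ∧
      ∀ v : Pl K, w.asIdeal.LiesOver v.asIdeal → w'.asIdeal.LiesOver v.asIdeal := by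
  refine ⟨paComap K L σ w, pa_valuation_comap K L σ w _ rfl, fun v hv => ⟨?_⟩⟩
  rw [hv.over]
  ext x
  simp only [Ideal.under_def, Ideal.mem_comap, paComap]
  have : (paEquiv K L σ : 𝓞 L →+* 𝓞 L) (algebraMap (𝓞 K) (𝓞 L) x) = algebraMap (𝓞 K) (𝓞 L) x := by
    apply RingOfIntegers.ext
    show σ (algebraMap (𝓞 L) L (algebraMap (𝓞 K) (𝓞 L) x)) = _
    rw [← IsScalarTower.algebraMap_apply, IsScalarTower.algebraMap_apply (𝓞 K) K L, σ.commutes,
      ← IsScalarTower.algebraMap_apply, IsScalarTower.algebraMap_apply (𝓞 K) (𝓞 L) L]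
  rw [this]

/-- transitivity of the Galois action on the places above `v`. -/
theorem exists_place_conj [IsGalois K L] (v : Pl K) (w w' : Pl L)
    (hw : w.asIdeal.LiesOver v.asIdeal) (hw' : w'.asIdeal.LiesOver v.asIdeal) :
    ∃ σ : L ≃ₐ[K] L, ∀ x : L, w'.valuation L x = w.valuation L (σ x) := by
  have := w.isPrime
  have := w'.isPrime
  obtain ⟨g, hg⟩ := Algebra.IsInvariant.exists_smul_of_under_eq (𝓞 K) (𝓞 L) (L ≃ₐ[K] L)
    w.asIdeal w'.asIdeal (hw.over.symm.trans hw'.over)
  refine ⟨g⁻¹, pa_valuation_comap K L g⁻¹ w w' ?_⟩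
  rw [hg, Ideal.pointwise_smul_eq_comap]
  rfl

theorem pa_ncard_above_singleton (v : Pl K) :
    (above K L {v}).ncard = (v.asIdeal.primesOver (𝓞 L)).ncard := by
  rw [← pa_above_singleton_image, Set.ncard_image_of_injective _ (pa_asIdeal_injective L)]

theorem pa_nonsplit_iff (v : Pl K) : Nonsplit K L v ↔ (above K L {v}).ncard = 1 := by
  constructor
  · intro h
    obtain ⟨w, hw⟩ := exists_above K L v
    rw [Set.ncard_eq_one]
    refine ⟨w, Set.eq_singleton_iff_unique_mem.mpr ⟨⟨v, rfl, hw⟩, ?_⟩⟩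
    rintro w' ⟨v', rfl, hw'⟩
    exact h w' w hw' hw
  · intro h w w' hw hw'
    obtain ⟨a, ha⟩ := Set.ncard_eq_one.mp h
    have h1 : w ∈ above K L {v} := ⟨v, rfl, hw⟩
    have h2 : w' ∈ above K L {v} := ⟨v, rfl, hw'⟩
    rw [ha] at h1 h2
    exact h1.trans h2.symm

/-- the number of places above `v` divides `p`: it is `1` (`Nonsplit`) or `p`. -/
theorem ncard_above_singleton [IsGalois K L] (hdeg : finrank K L = p) (v : Pl K) :
    (Nonsplit K L v ∧ (above K L {v}).ncard = 1) ∨
    (¬ Nonsplit K L v ∧ (above K L {v}).ncard = p) := by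
  have := v.isPrime
  have h := Ideal.ncard_primesOver_mul_ramificationIdxIn_mul_inertiaDegIn v.asIdeal (𝓞 L)
    (L ≃ₐ[K] L)
  rw [IsGalois.card_aut_eq_finrank, hdeg, ← pa_ncard_above_singleton] at h
  have hdvd : (above K L {v}).ncard ∣ p := Dvd.intro _ h
  rcases (Nat.dvd_prime (Fact.out : p.Prime)).mp hdvd with h1 | h1
  · exact Or.inl ⟨(pa_nonsplit_iff K L v).mpr h1, h1⟩
  · refine Or.inr ⟨fun hn => ?_, h1⟩
    have := (pa_nonsplit_iff K L v).mp hn
    rw [h1] at this
    exact (Fact.out : p.Prime).one_lt.ne' this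

theorem pa_above_insert (S : Set (Pl K)) (v : Pl K) :
    above K L (insert v S) = above K L {v} ∪ above K L S := by
  ext w
  simp [above]

theorem pa_above_disjoint (S : Set (Pl K)) (v : Pl K) (hv : v ∉ S) :
    Disjoint (above K L {v}) (above K L S) := by
  rw [Set.disjoint_left]
  rintro w ⟨v', rfl, hw⟩ ⟨v'', hv'', hw'⟩
  exact hv (under_unique K L w _ _ hw hw' ▸ hv'')

/-- sum over `v ∈ S` (the sets `above {v}` are disjoint by `under_unique`). -/
theorem ncard_above [IsGalois K L] (hdeg : finrank K L = p) (S : Set (Pl K)) (hS : S.Finite) :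
    (above K L S).ncard + (p - 1) * {v ∈ S | Nonsplit K L v}.ncard = p * S.ncard := by
  have hp1 : 1 ≤ p := (Fact.out : p.Prime).one_lt.le
  induction S, hS using Set.Finite.induction_on with
  | empty => simp [above]
  | @insert v S hv hS ih =>
    rw [pa_above_insert, Set.ncard_union_eq (pa_above_disjoint K L S v hv)
      (pa_above_singleton_finite K L v) (above_finite K L S hS), Set.ncard_insert_of_notMem hv hS]
    rcases ncard_above_singleton p K L hdeg v with ⟨h1, h2⟩ | ⟨h1, h2⟩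
    · have e : {v' ∈ insert v S | Nonsplit K L v'} = insert v {v' ∈ S | Nonsplit K L v'} := by
        ext v'
        simp only [Set.mem_ofPred_eq, Set.mem_insert_iff]
        constructor
        · rintro ⟨rfl | h, h'⟩
          · exact Or.inl rfl
          · exact Or.inr ⟨h, h'⟩
        · rintro (rfl | ⟨h, h'⟩)
          · exact ⟨Or.inl rfl, h1⟩
          · exact ⟨Or.inr h, h'⟩
      rw [e, Set.ncard_insert_of_notMem (fun h => hv h.1) (hS.subset fun _ h => h.1), h2]
      obtain ⟨m, rfl⟩ : ∃ m, p = m + 1 := ⟨p - 1, by omega⟩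
      simp only [Nat.add_sub_cancel] at ih ⊢
      nlinarith
    · have e : {v' ∈ insert v S | Nonsplit K L v'} = {v' ∈ S | Nonsplit K L v'} := by
        ext v'
        simp only [Set.mem_ofPred_eq, Set.mem_insert_iff]
        constructor
        · rintro ⟨rfl | h, h'⟩
          · exact absurd h' h1
          · exact ⟨h, h'⟩
        · rintro ⟨h, h'⟩
          exact ⟨Or.inr h, h'⟩
      rw [e, h2]
      nlinarith

variable {p K L}

/-- local `p`-th powers stay local `p`-th powers upstairs: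
`|t-1|_w = |t-1|_v^e < |p|_v^(2e) = |p|_w^2` (`valuation_liesOver`). -/
theorem mapKP_mem_PP (v : Pl K) (w : Pl L) (hw : w.asIdeal.LiesOver v.asIdeal) (ξ : KP p K)
    (hξ : ξ ∈ PP p K v) : mapKP p K L ξ ∈ PP p L w := by
  obtain ⟨x, rfl⟩ := cls_surjective p ξ
  rw [cls_mem_PP] at hξ
  obtain ⟨y, hy⟩ := hξ
  rw [mapKP_cls, cls_mem_PP]
  refine ⟨Units.map (algebraMap K L : K →* L) y, ?_⟩
  have he : v.asIdeal.ramificationIdx' w.asIdeal ≠ 0 :=
    Ideal.IsDedekindDomain.ramificationIdx'_ne_zero_of_liesOver w.asIdeal v.ne_bot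
  have h1 := HeightOneSpectrum.valuation_liesOver L v w ((x : K) * (y : K) ^ p - 1)
  have h2 := HeightOneSpectrum.valuation_liesOver L v w (p : K)
  have e1 : ((Units.map (algebraMap K L : K →* L) x : Lˣ) : L) *
      ((Units.map (algebraMap K L : K →* L) y : Lˣ) : L) ^ p - 1 =
      algebraMap K L ((x : K) * (y : K) ^ p - 1) := by
    simp
  rw [e1, ← h1]
  have e2 : (p : L) = algebraMap K L (p : K) := by simp
  rw [e2, ← h2, pow_right_comm]
  exact pow_lt_pow_left₀ hy zero_le he

end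

end Fermat.Agent.S55.G
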