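import Fermat.Agent.S55.G.BridgeGal
import Fermat.Agent.S55.G.PlacesAbove

/-!
# S55/G-BridgeSplit : (D4) nonsplit places.

`K`, `L` abstract number fields, `L/K` Galois of degree `p`, `φ : L →+* Qbar` an embedding,
`φK = φ ∘ algebraMap`, `U = fixG φK ⊇ U1 = fixG φ`.  `(l,g)` a place of `Qbar` inducing `v` on `K`.
`D = Dg l g`, `W = D ⊓ U`, `W1 = D ⊓ U1`, `F = Fix W` (henselisation of `K` at `v`), `F' = Fix W1`.
All imported files are black boxes.
-/

open IsDedekindDomain NumberField Module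

namespace Fermat.Agent.S55.G

open Fermat.Agent.S55.Places

noncomputable section

set_option linter.unusedSectionVars false


variable {p : ℕ} [Fact p.Prime] {K L : Type} [Field K] [NumberField K] [Field L] [NumberField L]
  [Algebra K L]

/-- two places with the same valuation are equal. -/
theorem bs_place_ext {w w' : Pl L} (h : ∀ x : L, w'.valuation L x = w.valuation L x) : w' = w := by
  apply HeightOneSpectrum.ext
  ext r
  rw [← HeightOneSpectrum.valuation_lt_one_iff_mem (K := L), ← HeightOneSpectrum.valuation_lt_one_iff_mem (K := L), h]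

/-- the stabiliser of a place in the Galois group. -/
def bsStab (K : Type) {L : Type} [Field K] [NumberField K] [Field L] [NumberField L] [Algebra K L]
    (w : Pl L) : Subgroup (L ≃ₐ[K] L) where
  carrier := {τ | ∀ x : L, w.valuation L (τ x) = w.valuation L x}
  mul_mem' := by
    intro a b ha hb x
    rw [AlgEquiv.mul_apply, ha, hb]
  one_mem' := fun _ => rfl
  inv_mem' := by
    intro a ha x
    have := ha (a⁻¹ x)
    rw [← this]
    congr 1
    exact AlgEquiv.apply_symm_apply a x

/-- (D4) `v` is nonsplit iff the decomposition group is not contained in `U1`.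
`→`: `σ ≠ 1`, lift `s ∈ U` (`exists_lift`).  The places `g • A_l` and `s g • A_l` induce on `L` the places
`w` and `σ w` (`exists_place_smul`), both above `v`, so they are equal; `IsAt.samePlace` for `L` gives
`s g = u d g` with `u ∈ U1`, `d ∈ D`: `d = u⁻¹ s ∈ D ⊓ U`, `d ∉ U1`.
`←`: `t ∈ D ⊓ U`, `t ∉ U1` restricts to a generator `σ` of `Gal(L/K)` fixing `w`
(`nrmg_map_of_mem_Dg`, `IsAt.unique`); by transitivity (`exists_place_conj`) every place above `v`
is `σ^i w = w`. -/
theorem nonsplit_iff [IsGalois K L] (hdeg : finrank K L = p) {φ : L →+* Qbar} {v : Pl K} {w : Pl L}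
    (hw : w.asIdeal.LiesOver v.asIdeal) {l : Nat.Primes} {g : GQ} (h : IsAt φ w l g) :
    Nonsplit K L v ↔ ¬ (Dg l g ⊓ fixG (φ.comp (algebraMap K L)) ≤ fixG φ) := by
  have hcard : Nat.card (L ≃ₐ[K] L) = p := by rw [IsGalois.card_aut_eq_finrank, hdeg]
  obtain ⟨c, hc0, hc1, hc⟩ := h
  constructor
  · intro hns hle
    have hnt : Nontrivial (L ≃ₐ[K] L) := by
      rw [← Finite.one_lt_card_iff_nontrivial, hcard]
      exact (Fact.out : p.Prime).one_lt
    obtain ⟨σ, hσ⟩ := exists_ne (1 : L ≃ₐ[K] L)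
    obtain ⟨s, hsU, hs⟩ := exists_lift φ σ
    obtain ⟨w', hw'val, hw'over⟩ := exists_place_smul K L σ⁻¹ w
    have hww' : w' = w := hns w' w (hw'over v hw) hw
    have hsinv : ∀ y : L, s⁻¹ (φ y) = φ (σ⁻¹ y) := by
      intro y
      rw [AlgEquiv.aut_inv, AlgEquiv.symm_apply_eq, hs]
      congr 1
      exact (AlgEquiv.apply_symm_apply σ y).symm
    have hat' : IsAt φ w l (s * g) := by
      refine ⟨c, hc0, hc1, fun x hx => ?_⟩
      have h1 : nrmg l (s * g) (φ x) = nrmg l g (φ (σ⁻¹ x)) := by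
        unfold nrmg
        rw [mul_inv_rev, AlgEquiv.mul_apply, hsinv]
      have hx' : σ⁻¹ x ≠ 0 := by
        intro h0
        exact hx ((map_eq_zero_iff _ (AlgEquiv.injective _)).1 h0)
      rw [h1, hc _ hx', ← hw'val, hww']
    obtain ⟨-, u, hu, d, hd, hsg⟩ := IsAt.samePlace φ (⟨c, hc0, hc1, hc⟩ : IsAt φ w l g) hat'
    have hsud : s = u * d := mul_right_cancel hsg
    have hdU : d ∈ fixG (φ.comp (algebraMap K L)) := by
      have : d = u⁻¹ * s := by rw [hsud]; group
      rw [this]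
      exact mul_mem (inv_mem (fixG_le φ hu)) hsU
    have hd1 : d ∈ fixG φ := hle ⟨hd, hdU⟩
    have hs1 : s ∈ fixG φ := hsud ▸ mul_mem hu hd1
    apply hσ
    ext y
    apply φ.injective
    rw [← hs, hs1 y]
    rfl
  · intro hnle
    obtain ⟨t, ⟨htD, htU⟩, ht1⟩ := SetLike.not_le_iff_exists.1 hnle
    obtain ⟨σ, hσ⟩ := exists_restrict φ htU
    have hσ1 : σ ≠ 1 := by
      rintro rfl
      exact ht1 fun y => hσ y
    obtain ⟨w', hw'val, -⟩ := exists_place_smul K L σ w
    have hat' : IsAt φ w' l g := by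
      refine ⟨c, hc0, hc1, fun x hx => ?_⟩
      have hx' : σ x ≠ 0 := by
        intro h0
        exact hx ((map_eq_zero_iff _ (AlgEquiv.injective _)).1 h0)
      rw [hw'val, ← hc _ hx', ← hσ, nrmg_map_of_mem_Dg l g htD]
    have hww' : w = w' := IsAt.unique φ (⟨c, hc0, hc1, hc⟩ : IsAt φ w l g) hat'
    have hσS : σ ∈ bsStab K w := fun x => by
      rw [← hw'val, ← hww']
    have htop : bsStab K w = ⊤ := by
      rw [eq_top_iff, ← zpowers_eq_top_of_prime_card hcard hσ1, Subgroup.zpowers_le]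
      exact hσS
    have key : ∀ w₁ : Pl L, w₁.asIdeal.LiesOver v.asIdeal → w₁ = w := by
      intro w₁ hw₁
      obtain ⟨τ, hτ⟩ := exists_place_conj K L v w w₁ hw hw₁
      have hτS : τ ∈ bsStab K w := htop ▸ Subgroup.mem_top τ
      exact bs_place_ext fun x => by rw [hτ, hτS x]
    intro w₁ w₂ hw₁ hw₂
    rw [key w₁ hw₁, key w₂ hw₂]


end

end Fermat.Agent.S55.G
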