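import Fermat.Agent.S55.G.BridgeTools

/-!
# S55/G-BridgeVal : places of an abstract number field `K` with an embedding `ι : K →+* Qbar`
versus places `g • padicPlace l` of `Qbar`.

Transport of `Places/Primes.lean` (`IsBelow`, `exists_place_of_heightOne`, `exists_heightOne_of_place`,
`IsBelow.exists_nrm_eq`, `isBelow_iff_of_isBelow`, `IsBelow.prime_unique`, `IsBelow.unique`; black boxes)
along the isomorphism `e : K ≃ rangeNF ι`.  For `v : Pl K` the prime `v' = v.map e` of `𝓞 (rangeNF ι)`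
satisfies `v'.valuation (e x) = v.valuation x` (e.g. via `HeightOneSpectrum.intValuation_le_pow_iff_mem`
and `Ideal.map_pow`, then fractions).
-/

open IsDedekindDomain NumberField Module

namespace Fermat.Agent.S55.G

open Fermat.Agent.S55.Places

noncomputable section

set_option linter.unusedSectionVars false


variable (l : Nat.Primes) (g : GQ)

/-! ### places of an abstract number field -/

variable {K : Type} [Field K] [NumberField K] (ι : K →+* Qbar)

namespace BridgeVal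

/-- ideal-theoretic form of `IsAt`. -/
def IsBel (ι : K →+* Qbar) (v : Pl K) (l : Nat.Primes) (g : GQ) : Prop :=
  ∀ x : 𝓞 K, x ∈ v.asIdeal ↔ nrmg l g (ι (x : K)) < 1

theorem nrmg_def (x : Qbar) :
    nrmg l g x = @nrm (l : ℕ) ⟨l.2⟩ (g⁻¹ x) := rfl

theorem nrmg_le_one_of_integer (x : 𝓞 K) : nrmg l g (ι (x : K)) ≤ 1 := by
  have : Fact (l : ℕ).Prime := ⟨l.2⟩
  rw [nrmg_def]
  apply nrm_le_one_of_isIntegral
  have h1 : IsIntegral ℤ (x : K) := x.isIntegral_coe
  have h2 : IsIntegral ℤ (ι (x : K)) := map_isIntegral_int ι h1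
  exact map_isIntegral_int (g⁻¹ : GQ).toRingEquiv.toRingHom h2

theorem nrmg_zpow (x : Qbar) (n : ℤ) : nrmg l g (x ^ n) = nrmg l g x ^ n := by
  have : Fact (l : ℕ).Prime := ⟨l.2⟩
  rw [nrmg_def, nrmg_def, map_zpow₀, nrm_zpow]

theorem nrmg_pos_iff {x : Qbar} : 0 < nrmg l g x ↔ x ≠ 0 := by
  have : Fact (l : ℕ).Prime := ⟨l.2⟩
  rw [nrmg_def, nrm_pos_iff]
  simp

theorem nrmg_mul' (x y : Qbar) : nrmg l g (x * y) = nrmg l g x * nrmg l g y := by
  have : Fact (l : ℕ).Prime := ⟨l.2⟩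
  rw [nrmg_def, nrmg_def, nrmg_def, map_mul, nrm_mul]

variable {l g ι}

/-- comparison of the valuations -/
theorem IsBel.isAt {v : Pl K} (h : IsBel ι v l g) : IsAt ι v l g := by
  obtain ⟨π, hπ'⟩ := v.valuation_exists_uniformizer' K
  have hπ : v.valuation K (π : K) = WithZero.exp (-1 : ℤ) := hπ'
  have hπ0 : (π : K) ≠ 0 := by
    intro h0
    rw [h0, map_zero] at hπ
    exact WithZero.exp_ne_zero hπ.symm
  have hιπ0 : ι (π : K) ≠ 0 := by simpa using hπ0
  have hone : ∀ d : 𝓞 K, d ∉ v.asIdeal → nrmg l g (ι (d : K)) = 1 := by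
    intro d hd
    rw [h d, not_lt] at hd
    exact le_antisymm (nrmg_le_one_of_integer l g ι d) hd
  -- units
  have hunit : ∀ u : K, v.valuation K u = 1 → nrmg l g (ι u) = 1 := by
    intro u hu
    obtain ⟨n, d, hnd⟩ := v.exists_primeCompl_mul_eq_of_integer u hu.le
    have hd : (d : 𝓞 K) ∉ v.asIdeal := d.2
    have hn : n ∉ v.asIdeal := by
      rw [← v.valuation_eq_one_iff_notMem (K := K), ← hnd, map_mul, hu, one_mul,
        v.valuation_eq_one_iff_notMem]
      exact hd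
    have h1 := hone _ hd
    have h2 := hone _ hn
    have h3 : ι u * ι (((d : 𝓞 K) : K)) = ι (n : K) := by
      rw [← map_mul]; exact congrArg ι hnd
    rw [← h3, nrmg_mul', h1, mul_one] at h2
    exact h2
  refine ⟨nrmg l g (ι (π : K)), ?_, ?_, ?_⟩
  · rw [nrmg_pos_iff]
    exact hιπ0
  · rw [← h π, ← v.valuation_lt_one_iff_mem (K := K), hπ, ← WithZero.exp_zero,
      WithZero.exp_lt_exp]
    norm_num
  · intro x hx
    have hvx : v.valuation K x ≠ 0 := by rwa [Ne, map_eq_zero]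
    set n : ℤ := - WithZero.log (v.valuation K x) with hn
    have hu : v.valuation K (x * ((π : K)) ^ (-n)) = 1 := by
      rw [map_mul, map_zpow₀, hπ, ← WithZero.exp_zsmul, ← WithZero.exp_log hvx,
        ← WithZero.exp_add, WithZero.exp_eq_one]
      simp only [hn, smul_eq_mul]
      ring
    have h1 := hunit _ hu
    rw [map_mul, map_zpow₀, nrmg_mul', nrmg_zpow, zpow_neg] at h1
    have hc : nrmg l g (ι (π : K)) ^ n ≠ 0 := by
      apply zpow_ne_zero
      exact ((nrmg_pos_iff l g).2 hιπ0).ne'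
    field_simp at h1
    exact h1

theorem isBel_of_isAt {v : Pl K} (h : IsAt ι v l g) : IsBel ι v l g := by
  obtain ⟨c, hc0, hc1, hc⟩ := h
  intro x
  by_cases hx : (x : K) = 0
  · have hx' : x = 0 := by
      apply RingOfIntegers.coe_injective
      exact hx.trans (map_zero _).symm
    have h0 : nrmg l g 0 = 0 := by
      by_contra hne
      have := (nrmg_pos_iff l g (x := 0)).1 (lt_of_le_of_ne (nrmg_nonneg l g 0) (Ne.symm hne))
      exact this rfl
    rw [hx, map_zero, h0, hx']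
    simp
  · have hvx : v.valuation K (x : K) ≠ 0 := by rwa [Ne, map_eq_zero]
    rw [hc _ hx, ← v.valuation_lt_one_iff_mem (K := K),
      zpow_lt_one_iff_right_of_lt_one₀ hc0 hc1, neg_pos,
      ← WithZero.log_one, WithZero.log_lt_log hvx one_ne_zero]

theorem isAt_iff {v : Pl K} : IsAt ι v l g ↔ IsBel ι v l g := ⟨isBel_of_isAt, IsBel.isAt⟩

variable (ι)

/-- the isomorphism `K ≃ rangeNF ι`. -/
def eqv : K ≃+* rangeNF ι :=
  RingEquiv.ofBijective (ι.codRestrict (rangeNF ι) (fun x => ⟨x, rfl⟩))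
    ⟨fun x y hxy => ι.injective (congrArg Subtype.val hxy), by
      rintro ⟨_, x, rfl⟩
      exact ⟨x, rfl⟩⟩

theorem coe_eqv (x : K) : ((eqv ι x : rangeNF ι) : Qbar) = ι x := rfl

theorem numberField_rangeNF : NumberField (rangeNF ι) :=
  { to_charZero := inferInstance
    to_finiteDimensional := finiteDimensional_rangeNF ι }

attribute [local instance] numberField_rangeNF

/-- transport of primes -/
def tr : Pl K ≃ HeightOneSpectrum (𝓞 (rangeNF ι)) :=
  HeightOneSpectrum.equivOfRingEquiv (RingOfIntegers.mapRingEquiv (eqv ι))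

theorem mem_tr (v : Pl K) (y : 𝓞 (rangeNF ι)) :
    y ∈ (tr ι v).asIdeal ↔ (RingOfIntegers.mapRingEquiv (eqv ι)).symm y ∈ v.asIdeal := Iff.rfl

theorem isBel_iff (v : Pl K) (l : Nat.Primes) (g : GQ) :
    IsBel ι v l g ↔ @IsBelow (rangeNF ι) _ (tr ι v) (l : ℕ) ⟨l.2⟩ g := by
  have : Fact (l : ℕ).Prime := ⟨l.2⟩
  constructor
  · intro h y
    rw [mem_tr, h, nrmg_def]
    have : ι (((RingOfIntegers.mapRingEquiv (eqv ι)).symm y : 𝓞 K) : K) = ((y : rangeNF ι) : Qbar) := by
      rw [← coe_eqv, RingOfIntegers.mapRingEquiv_symm_apply, RingEquiv.apply_symm_apply]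
    rw [this]
  · intro h x
    have := h (RingOfIntegers.mapRingEquiv (eqv ι) x)
    rw [mem_tr, RingEquiv.symm_apply_apply] at this
    rw [this, nrmg_def]
    rfl

end BridgeVal

open BridgeVal

attribute [local instance] numberField_rangeNF

/-- transport of `Places.exists_place_of_heightOne` + `IsBelow.exists_nrm_eq` along
`K ≃ rangeNF ι` (the prime `v' = v.map e` of `𝓞 (rangeNF ι)` satisfies
`v'.valuation (e x) = v.valuation x`: use `HeightOneSpectrum.intValuation_le_pow_iff_mem`). -/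
theorem exists_isAt (v : Pl K) : ∃ (l : Nat.Primes) (g : GQ), IsAt ι v l g := by
  obtain ⟨l, hl, g, h⟩ := exists_place_of_heightOne (rangeNF ι) (tr ι v)
  exact ⟨⟨l, hl.out⟩, g, isAt_iff.2 ((isBel_iff ι v ⟨l, hl.out⟩ g).2 h)⟩

theorem exists_isAt' (l : Nat.Primes) (g : GQ) : ∃ v : Pl K, IsAt ι v l g := by
  have : Fact (l : ℕ).Prime := ⟨l.2⟩
  obtain ⟨v', h⟩ := exists_heightOne_of_place (rangeNF ι) (l : ℕ) g
  refine ⟨(tr ι).symm v', isAt_iff.2 ((isBel_iff ι _ l g).2 ?_)⟩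
  rw [Equiv.apply_symm_apply]
  exact h

theorem IsAt.unique {v v' : Pl K} {l : Nat.Primes} {g : GQ} (h : IsAt ι v l g)
    (h' : IsAt ι v' l g) : v = v' := by
  apply HeightOneSpectrum.ext
  ext x
  rw [isBel_of_isAt h x, isBel_of_isAt h' x]

theorem IsAt.samePlace {v : Pl K} {l l' : Nat.Primes} {g g' : GQ} (h : IsAt ι v l g)
    (h' : IsAt ι v l' g') : SamePlace (fixG ι) (l, g) (l', g') := by
  have : Fact (l : ℕ).Prime := ⟨l.2⟩
  have : Fact (l' : ℕ).Prime := ⟨l'.2⟩
  have h1 := (isBel_iff ι v l g).1 (isBel_of_isAt h)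
  have h2 := (isBel_iff ι v l' g').1 (isBel_of_isAt h')
  have hll : l = l' := Subtype.ext (IsBelow.prime_unique h1 h2)
  subst hll
  obtain ⟨u, hu, d, hd, rfl⟩ := (isBelow_iff_of_isBelow h1 g').1 h2
  refine ⟨rfl, u, ?_, g * d * g⁻¹, ?_, ?_⟩
  · rw [← fixingSubgroup_rangeNF]; exact hu
  · exact ⟨d, hd, rfl⟩
  · simp only; group

theorem IsAt.of_samePlace {v : Pl K} {l l' : Nat.Primes} {g g' : GQ} (h : IsAt ι v l g)
    (h' : SamePlace (fixG ι) (l, g) (l', g')) : IsAt ι v l' g' := by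
  obtain ⟨hll, u, hu, d, hd, hg'⟩ := h'
  simp only at hll hd hg'
  subst hll
  have : Fact (l : ℕ).Prime := ⟨l.2⟩
  have h1 := (isBel_iff ι v l g).1 (isBel_of_isAt h)
  obtain ⟨d0, hd0, rfl⟩ := hd
  refine isAt_iff.2 ((isBel_iff ι v l g').2 ((isBelow_iff_of_isBelow h1 g').2 ⟨u, ?_, d0, hd0, ?_⟩))
  · rw [fixingSubgroup_rangeNF]; exact hu
  · rw [hg']
    simp only [MulEquiv.coe_toMonoidHom, MulAut.conj_apply]
    group

variable {ι}

/-- comparison of inequalities -/
theorem IsAt.lt_iff {v : Pl K} {l : Nat.Primes} {g : GQ} (h : IsAt ι v l g) (x y : K) :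
    v.valuation K x < v.valuation K y ↔ nrmg l g (ι x) < nrmg l g (ι y) := by
  obtain ⟨c, hc0, hc1, hc⟩ := h
  have h0 : nrmg l g 0 = 0 := (nrmg_eq_zero_iff l g).2 rfl
  by_cases hy : y = 0
  · subst hy
    rw [map_zero, map_zero, h0]
    constructor
    · intro h; exact absurd h (not_lt.2 zero_le)
    · intro h; exact absurd h (not_lt.2 (nrmg_nonneg l g _))
  have hvy : v.valuation K y ≠ 0 := by rwa [Ne, map_eq_zero]
  by_cases hx : x = 0
  · subst hx
    rw [map_zero, map_zero, h0, BridgeVal.nrmg_pos_iff]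
    constructor
    · intro _; simpa using hy
    · intro _; exact zero_lt_iff.2 hvy
  have hvx : v.valuation K x ≠ 0 := by rwa [Ne, map_eq_zero]
  rw [hc x hx, hc y hy, zpow_lt_zpow_iff_right_of_lt_one₀ hc0 hc1, neg_lt_neg_iff,
    WithZero.log_lt_log hvx hvy]

/-- `t ∈ Uc p K v ↔ |ι t - 1| < |p|^2`. -/
theorem IsAt.mem_Uc_iff {p : ℕ} [Fact p.Prime] {v : Pl K} {l : Nat.Primes} {g : GQ}
    (h : IsAt ι v l g) (t : Kˣ) :
    t ∈ Uc p K v ↔ nrmg l g (ι (t : K) - 1) < nrmg l g (p : Qbar) ^ 2 := by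
  rw [mem_Uc, ← map_pow, h.lt_iff, map_sub, map_one, map_pow, map_natCast, pow_two, pow_two,
    BridgeVal.nrmg_mul']

/-- restriction to a subfield -/
theorem IsAt.comp {L : Type} [Field L] [NumberField L] [Algebra K L] {φ : L →+* Qbar} {w : Pl L}
    {v : Pl K} (hw : w.asIdeal.LiesOver v.asIdeal) {l : Nat.Primes} {g : GQ} (h : IsAt φ w l g) :
    IsAt (φ.comp (algebraMap K L)) v l g := by
  refine isAt_iff.2 fun x => ?_
  rw [hw.over, Ideal.mem_comap, isBel_of_isAt h]
  rfl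

end

end Fermat.Agent.S55.G
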