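import Fermat.Agent.S55.G.BridgeAbs
import Fermat.Agent.S55.G.BridgeModel

/-!
# S55/G-BridgeSI : the second inequality in the `Fix`-language.

Proof.  `exists_model`: `K, L, φ`.  For `i ∈ I` let `v i : Pl K` with `IsAt φK (v i) i.1 i.2` (`exists_isAt'`); `i ↦ v i` is
injective on `I` (`IsAt.samePlace` + `hI`).  `S0 = v '' I`.  For `i ∈ I` choose `y i, y' i ∈ K^×` with `x i/φK (y i)`,
`x' i/φK (y' i)` `p`-th powers in `Fix (D_i ⊓ U)` (`exists_near` + `exists_pow_eq`).  `weak_approx`: `ξ, ξ' ∈ KP p K` with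
`ξ - cls (y i) ∈ PP (v i)`, `ξ' - cls (y' i) ∈ PP (v i)`.  `second_inequality_SI` (with `localNormHyp_of_fix hL`): the quotient
`KP/(Z ⊔ X)`, `Z = ⨅_{v ∉ S0} Nrm v`, `X = ⨅_{v ∈ S0} Nrm v` has dimension `≤ 1`, so there is `(m,m') ≠ (0,0)` in `𝔽_p^2` with
`m ξ + m' ξ' = -ζ + χ`, `ζ ∈ Z`, `χ ∈ X`.  Let `ζ = cls b₀`, `b = φK b₀`.  (1) for `(l,g)` nonsplit, not equivalent to
any `i ∈ I`: its place `v` (`exists_isAt'`) is not in `S0` (`IsAt.samePlace`), `cls b₀ ∈ Nrm v`, `cls_mem_Nrm_iff`.  (2) for `i ∈ I`: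
`cls (b₀ (y i)^m (y' i)^m') ∈ Nrm (v i)` (as `PP ≤ Nrm`), so `φK (...)` is a local norm; multiply by the `p`-th powers
`(x i/φK (y i))^m`, `(x' i/φK (y' i))^m'` (`IsNormFrom.of_pow`, `IsNormFrom.mul`, `inf_normal_index`).
-/

open IsDedekindDomain NumberField Module

namespace Fermat.Agent.S55.G

open Fermat.Agent.S55.Places

noncomputable section

set_option linter.unusedSectionVars false


variable {p : ℕ} [Fact p.Prime]

namespace SI

/-- linear dependence modulo a subspace of codimension `≤ 1`. -/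
theorem exists_dep {F V : Type*} [Field F] [AddCommGroup V] [Module F V] (P : Submodule F V)
    [FiniteDimensional F (V ⧸ P)] (h : finrank F (V ⧸ P) ≤ 1) (ξ ξ' : V) :
    ∃ c c' : F, ¬ (c = 0 ∧ c' = 0) ∧ c • ξ + c' • ξ' ∈ P := by
  obtain ⟨e, he⟩ := finrank_le_one_iff.1 h
  obtain ⟨a, ha⟩ := he (P.mkQ ξ)
  obtain ⟨a', ha'⟩ := he (P.mkQ ξ')
  by_cases h0 : a = 0 ∧ a' = 0
  · refine ⟨1, 0, by simp, ?_⟩
    rw [one_smul, zero_smul, add_zero, ← Submodule.Quotient.mk_eq_zero, ← Submodule.mkQ_apply,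
      ← ha, h0.1, zero_smul]
  · refine ⟨a', -a, fun h => h0 ⟨by simpa using h.2, h.1⟩, ?_⟩
    rw [← Submodule.Quotient.mk_eq_zero, ← Submodule.mkQ_apply, map_add, map_smul, map_smul,
      ← ha, ← ha', smul_smul, smul_smul]
    rw [neg_mul, neg_smul, mul_comm a' a, add_neg_cancel]

variable {K L : Type} [Field K] [NumberField K] [Field L] [NumberField L] [Algebra K L]

theorem map_mem_Fix (ι : K →+* Qbar) (D : Subgroup GQ) (y : K) :
    ι y ∈ Places.Fix (D ⊓ fixG ι) := by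
  rw [mem_Fix_iff]
  intro t ht
  exact ht.2 y

/-- an element of the henselisation is a global element times a `p`-th power. -/
theorem exists_approx (ι : K →+* Qbar) (l : Nat.Primes) (g : GQ) {x : Qbar}
    (hx : x ∈ Places.Fix (Dg l g ⊓ fixG ι)) (h0 : x ≠ 0) :
    ∃ (y : Kˣ) (α : Qbar), α ∈ Places.Fix (Dg l g ⊓ fixG ι) ∧ α ≠ 0 ∧
      x = ι (y : K) * α ^ p := by
  have hp : p.Prime := Fact.out
  have hε : 0 < nrmg l g (p : Qbar) ^ 2 := by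
    have h1 : nrmg l g (p : Qbar) ≠ 0 := by
      rw [Ne, nrmg_eq_zero_iff]
      exact_mod_cast hp.ne_zero
    exact pow_pos (lt_of_le_of_ne (nrmg_nonneg l g _) h1.symm) 2
  obtain ⟨y, hy0, hy⟩ := exists_near l g ι hx h0 hε
  have hιy := map_mem_Fix ι (Dg l g) y
  have hιy0 : ι y ≠ 0 := (map_ne_zero ι).2 hy0
  obtain ⟨α, hα, hαp⟩ := exists_pow_eq l g hp (W := Dg l g ⊓ fixG ι) inf_le_left
    (div_mem hx hιy) hy
  refine ⟨Units.mk0 y hy0, α, hα, ?_, ?_⟩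
  · rintro rfl
    rw [zero_pow hp.ne_zero] at hαp
    exact div_ne_zero h0 hιy0 hαp.symm
  · rw [hαp, Units.val_mk0]
    field_simp

/-- weak approximation along an injective family of places. -/
theorem exists_weak (I : Finset (Nat.Primes × GQ)) (v : Nat.Primes × GQ → Pl K)
    (hv : Set.InjOn v (I : Set (Nat.Primes × GQ))) (Y : Nat.Primes × GQ → Kˣ) :
    ∃ ξ : KP p K, ∀ i ∈ I, ξ - cls p (Y i) ∈ PP p K (v i) := by
  classical
  obtain ⟨ξ, hξ⟩ := weak_approx p K (v '' (I : Set (Nat.Primes × GQ))) (I.finite_toSet.image v)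
    (fun w => cls p (Y (Function.invFunOn v (I : Set (Nat.Primes × GQ)) w)))
  refine ⟨ξ, fun i hi => ?_⟩
  have h1 := hξ (v i) ⟨i, hi, rfl⟩
  rwa [hv.leftInvOn_invFunOn hi] at h1

theorem SI_abs (hL : LocalNormIndexFix p) (hodd : p ≠ 2) (hζ : ∃ ζ : K, IsPrimitiveRoot ζ p)
    [IsGalois K L] (hdeg : finrank K L = p) (φ : L →+* Qbar)
    (I : Finset (Nat.Primes × GQ))
    (hI : ∀ i ∈ I, ∀ j ∈ I, SamePlace (fixG (φ.comp (algebraMap K L))) i j → i = j)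
    (hIns : ∀ i ∈ I, ¬ (Dg i.1 i.2 ⊓ fixG (φ.comp (algebraMap K L)) ≤ fixG φ))
    (x x' : Nat.Primes × GQ → Qbar)
    (hx : ∀ i ∈ I, x i ∈ Places.Fix (Dg i.1 i.2 ⊓ fixG (φ.comp (algebraMap K L))) ∧ x i ≠ 0)
    (hx' : ∀ i ∈ I, x' i ∈ Places.Fix (Dg i.1 i.2 ⊓ fixG (φ.comp (algebraMap K L))) ∧ x' i ≠ 0) :
    ∃ m m' : ℕ, ¬ (p ∣ m ∧ p ∣ m') ∧ ∃ b ∈ Places.Fix (fixG (φ.comp (algebraMap K L))), b ≠ 0 ∧
      (∀ (l : Nat.Primes) (g : GQ), ¬ (Dg l g ⊓ fixG (φ.comp (algebraMap K L)) ≤ fixG φ) →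
        (∀ i ∈ I, ¬ SamePlace (fixG (φ.comp (algebraMap K L))) i (l, g)) →
        IsNormFrom p (Dg l g ⊓ fixG (φ.comp (algebraMap K L))) (Dg l g ⊓ fixG φ) b) ∧
      ∀ i ∈ I, IsNormFrom p (Dg i.1 i.2 ⊓ fixG (φ.comp (algebraMap K L))) (Dg i.1 i.2 ⊓ fixG φ)
        (b * x i ^ m * x' i ^ m') := by
  classical
  set φK : K →+* Qbar := φ.comp (algebraMap K L) with hφK
  have hp : p.Prime := Fact.out
  have : NeZero p := ⟨hp.ne_zero⟩
  -- the places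
  choose v hv using fun i : Nat.Primes × GQ => exists_isAt' φK i.1 i.2
  have hinj : Set.InjOn v (I : Set (Nat.Primes × GQ)) := by
    intro i hi j hj hij
    have h1 := hv j
    rw [← hij] at h1
    exact hI i hi j hj (IsAt.samePlace φK (hv i) h1)
  -- global approximations
  have hY : ∀ i : Nat.Primes × GQ, ∃ (y : Kˣ) (α : Qbar), i ∈ I →
      α ∈ Places.Fix (Dg i.1 i.2 ⊓ fixG φK) ∧ α ≠ 0 ∧ x i = φK (y : K) * α ^ p := by
    intro i
    by_cases hi : i ∈ I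
    · obtain ⟨y, α, h⟩ := exists_approx (p := p) φK i.1 i.2 (hx i hi).1 (hx i hi).2
      exact ⟨y, α, fun _ => h⟩
    · exact ⟨1, 1, fun h => absurd h hi⟩
  have hY' : ∀ i : Nat.Primes × GQ, ∃ (y : Kˣ) (α : Qbar), i ∈ I →
      α ∈ Places.Fix (Dg i.1 i.2 ⊓ fixG φK) ∧ α ≠ 0 ∧ x' i = φK (y : K) * α ^ p := by
    intro i
    by_cases hi : i ∈ I
    · obtain ⟨y, α, h⟩ := exists_approx (p := p) φK i.1 i.2 (hx' i hi).1 (hx' i hi).2
      exact ⟨y, α, fun _ => h⟩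
    · exact ⟨1, 1, fun h => absurd h hi⟩
  choose Y α hYα using hY
  choose Y' α' hYα' using hY'
  obtain ⟨ξ, hξ⟩ := exists_weak (p := p) I v hinj Y
  obtain ⟨ξ', hξ'⟩ := exists_weak (p := p) I v hinj Y'
  -- the second inequality
  set S0 : Set (Pl K) := v '' (I : Set (Nat.Primes × GQ)) with hS0
  obtain ⟨hfd, hrk⟩ := second_inequality_SI p K L (localNormHyp_of_fix hL) hodd hζ hdeg S0
    (I.finite_toSet.image v)
  obtain ⟨c, c', hcc, hmem⟩ := exists_dep _ hrk ξ ξ'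
  obtain ⟨ζ', hζ', χ, hχ, hsum⟩ := Submodule.mem_sup.1 hmem
  obtain ⟨b₀, hb₀⟩ := cls_surjective p (-ζ')
  have hb₀Z : cls p b₀ ∈ ⨅ w ∈ S0ᶜ, Nrm p K L w := by
    rw [hb₀]; exact Submodule.neg_mem _ hζ'
  have hc : ((c.val : ℕ) : ZMod p) = c := ZMod.natCast_zmod_val c
  have hc' : ((c'.val : ℕ) : ZMod p) = c' := ZMod.natCast_zmod_val c'
  refine ⟨c.val, c'.val, ?_, φK (b₀ : K), ?_, (map_ne_zero φK).2 b₀.ne_zero, ?_, ?_⟩
  · rintro ⟨h1, h2⟩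
    apply hcc
    rw [← hc, ← hc']
    exact ⟨(ZMod.natCast_eq_zero_iff _ _).2 h1, (ZMod.natCast_eq_zero_iff _ _).2 h2⟩
  · rw [mem_Fix_iff]
    intro t ht
    exact ht (b₀ : K)
  · intro l g hns hnot
    obtain ⟨w, hw⟩ := exists_isAt' φK l g
    have hwS : w ∈ S0ᶜ := by
      rintro ⟨i, hi, rfl⟩
      exact hnot i hi (IsAt.samePlace φK (hv i) hw)
    exact (cls_mem_Nrm_iff hdeg hw hns b₀).1 (mem_biInf.1 hb₀Z w hwS)
  · intro i hi
    obtain ⟨hα, hα0, hxi⟩ := hYα i hi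
    obtain ⟨hα', hα0', hxi'⟩ := hYα' i hi
    have hns := hIns i hi
    have hle : fixG φ ≤ fixG φK := fixG_le φ
    obtain ⟨hnor, hidx⟩ := inf_normal_index (p := p) (D := Dg i.1 i.2) hle (fixG_normal φ)
      ((fixG_index φ).trans hdeg) hns
    have hle' : Dg i.1 i.2 ⊓ fixG φ ≤ Dg i.1 i.2 ⊓ fixG φK := inf_le_inf le_rfl hle
    have hne' : ¬ (Dg i.1 i.2 ⊓ fixG φK ≤ Dg i.1 i.2 ⊓ fixG φ) := fun h =>
      hns (h.trans inf_le_right)
    -- the global part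
    have h1 : cls p (b₀ * Y i ^ c.val * Y' i ^ c'.val) ∈ Nrm p K L (v i) := by
      have e : cls p (b₀ * Y i ^ c.val * Y' i ^ c'.val) =
          χ - c • (ξ - cls p (Y i)) - c' • (ξ' - cls p (Y' i)) := by
        have hχ' : χ = c • ξ + c' • ξ' - ζ' := by rw [← hsum]; abel
        rw [cls_mul, cls_mul, ← zmod_smul_cls, ← zmod_smul_cls, hc, hc', hb₀, hχ', smul_sub,
          smul_sub]
        abel
      rw [e]
      refine Submodule.sub_mem _ (Submodule.sub_mem _ ?_ ?_) ?_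
      · exact mem_biInf.1 hχ (v i) ⟨i, hi, rfl⟩
      · exact Submodule.smul_mem _ _ (PP_le_Nrm p K L (v i) (hξ i hi))
      · exact Submodule.smul_mem _ _ (PP_le_Nrm p K L (v i) (hξ' i hi))
    have h2 := (cls_mem_Nrm_iff hdeg (hv i) hns _).1 h1
    have h3 : IsNormFrom p (Dg i.1 i.2 ⊓ fixG φK) (Dg i.1 i.2 ⊓ fixG φ)
        ((α i ^ c.val * α' i ^ c'.val) ^ p) :=
      IsNormFrom.of_pow hle' hne' (mul_mem (pow_mem hα _) (pow_mem hα' _))
        (mul_ne_zero (pow_ne_zero _ hα0) (pow_ne_zero _ hα0'))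
    have h4 := IsNormFrom.mul hle' hnor hidx h2 h3
    have e2 : φK (b₀ : K) * x i ^ c.val * x' i ^ c'.val =
        φ (algebraMap K L ((b₀ * Y i ^ c.val * Y' i ^ c'.val : Kˣ) : K)) *
          (α i ^ c.val * α' i ^ c'.val) ^ p := by
      rw [hxi, hxi']
      have : φ (algebraMap K L ((b₀ * Y i ^ c.val * Y' i ^ c'.val : Kˣ) : K)) =
          φK (b₀ : K) * φK (Y i : K) ^ c.val * φK (Y' i : K) ^ c'.val := by
        rw [← RingHom.comp_apply, ← hφK]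
        simp only [Units.val_mul, Units.val_pow_eq_pow_val, map_mul, map_pow]
      rw [this]
      ring
    rw [e2]
    exact h4

end SI

/-- **(SI)** second inequality: modulo the global elements which are local norms at all nonsplit
places outside `I`, any two elements of `∏_{i ∈ I} F_i^×/N F_i'^×` are linearly dependent. -/
theorem SI_Fix (hL : LocalNormIndexFix p) (hodd : p ≠ 2) (U U1 : Subgroup GQ)
    (hU : Lall.IsOpen U) (hU1 : IsOpenIn U U1) (hn : (U1.subgroupOf U).Normal)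
    (hi : (U1.subgroupOf U).index = p) (hμ : U ≤ (ExtCitation.cycloChar p).ker)
    (I : Finset (Nat.Primes × GQ)) (hI : ∀ i ∈ I, ∀ j ∈ I, SamePlace U i j → i = j)
    (hIns : ∀ i ∈ I, ¬ (Dg i.1 i.2 ⊓ U ≤ U1))
    (x x' : Nat.Primes × GQ → Qbar)
    (hx : ∀ i ∈ I, x i ∈ Places.Fix (Dg i.1 i.2 ⊓ U) ∧ x i ≠ 0)
    (hx' : ∀ i ∈ I, x' i ∈ Places.Fix (Dg i.1 i.2 ⊓ U) ∧ x' i ≠ 0) :
    ∃ m m' : ℕ, ¬ (p ∣ m ∧ p ∣ m') ∧ ∃ b ∈ Places.Fix U, b ≠ 0 ∧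
      (∀ (l : Nat.Primes) (g : GQ), ¬ (Dg l g ⊓ U ≤ U1) → (∀ i ∈ I, ¬ SamePlace U i (l, g)) →
        IsNormFrom p (Dg l g ⊓ U) (Dg l g ⊓ U1) b) ∧
      ∀ i ∈ I, IsNormFrom p (Dg i.1 i.2 ⊓ U) (Dg i.1 i.2 ⊓ U1) (b * x i ^ m * x' i ^ m') := by
  obtain ⟨K, L, _, _, _, _, _, _, φ, hdeg, rfl, rfl, hζ⟩ := exists_model U U1 hU hU1 hn hi hμ
  exact SI.SI_abs hL hodd hζ hdeg φ I hI hIns x x' hx hx'

end

end Fermat.Agent.S55.G
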