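import Fermat.Agent.S55.G.Defs
import Fermat.Agent.S55.Places.Defs
import Fermat.Agent.S55.Arith.Defs

/-!
# S55 / [G] bridge : definitions

Dictionary between the abstract language of [G] (number fields `K`, `L` as types,
`HeightOneSpectrum (𝓞 K)`, subspaces of `K^×/p`) and the `Fix`-language of the rest of the project
(subgroups of `GQ = Gal(Qbar/ℚ)`, decomposition groups, henselisations `Fix (D ⊓ U)`).
-/

open IsDedekindDomain NumberField Module

namespace Fermat.Agent.S55.G

open Fermat.Agent.S55.Places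

noncomputable section

set_option linter.unusedSectionVars false

/-- the decomposition group of the place `g • padicPlace l` : `g D_l g⁻¹`. -/
def Dg (l : Nat.Primes) (g : GQ) : Subgroup GQ :=
  haveI : Fact (l : ℕ).Prime := ⟨l.2⟩
  (Dq (l : ℕ)).map (MulAut.conj g).toMonoidHom

/-- the absolute value of the place `g • padicPlace l`. -/
def nrmg (l : Nat.Primes) (g : GQ) (x : Qbar) : ℝ :=
  haveI : Fact (l : ℕ).Prime := ⟨l.2⟩
  nrm (l : ℕ) (g⁻¹ x)

/-- `b` is a norm from `Fix W1` to `Fix W`, where `W1` is normal of index `p` in `W`: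
`b = ∏_{i<p} t^i c` with `c ∈ Fix W1`, `t ∈ W \ W1` (a generator of `W/W1`). -/
def IsNormFrom (p : ℕ) (W W1 : Subgroup GQ) (b : Qbar) : Prop :=
  ∃ t ∈ W, t ∉ W1 ∧ ∃ c ∈ Places.Fix W1, c ≠ 0 ∧ ∏ i ∈ Finset.range p, (t ^ i) c = b

/-- the subgroup of `GQ` fixing the image of an embedding. -/
def fixG {K : Type} [Field K] (ι : K →+* Qbar) : Subgroup GQ where
  carrier := {g | ∀ x : K, g (ι x) = ι x}
  mul_mem' := by
    intro a b ha hb x
    rw [AlgEquiv.mul_apply, hb x, ha x]
  one_mem' := fun _ => rfl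
  inv_mem' := by
    intro a ha x
    rw [AlgEquiv.aut_inv, AlgEquiv.symm_apply_eq, ha x]

/-- the place `v` of the abstract number field `K` is induced, via the embedding `ι`, by the place
`g • padicPlace l` of `Qbar`. -/
def IsAt {K : Type} [Field K] [NumberField K] (ι : K →+* Qbar) (v : Pl K) (l : Nat.Primes)
    (g : GQ) : Prop :=
  ∃ c : ℝ, 0 < c ∧ c < 1 ∧ ∀ x : K, x ≠ 0 →
    nrmg l g (ι x) = c ^ (- WithZero.log (v.valuation K x))

/-- two pairs `(l,g)`, `(l',g')` define the same place of `Fix U`. -/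
def SamePlace (U : Subgroup GQ) (i j : Nat.Primes × GQ) : Prop :=
  i.1 = j.1 ∧ ∃ u ∈ U, ∃ d ∈ Dg i.1 i.2, j.2 = u * d * i.2

/-- THE INPUT FROM [L] + [P] (blueprint part 3, L1): the local norm index is not `1`. -/
def LocalNormIndexFix (p : ℕ) [Fact p.Prime] : Prop :=
  ∀ (l : Nat.Primes) (W W1 : Subgroup GQ), IsOpenIn (Dg l 1) W → IsOpenIn W W1 →
    (W1.subgroupOf W).Normal → (W1.subgroupOf W).index = p → W ≤ (ExtCitation.cycloChar p).ker →
    ∃ b ∈ Places.Fix W, b ≠ 0 ∧ ¬ IsNormFrom p W W1 b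

end

end Fermat.Agent.S55.G
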