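import Fermat.Agent.S55.G.BridgeAbs
import Fermat.Agent.S55.G.BridgeModel

/-!
# S55/G-BridgeHNT : the Hasse norm theorem in the `Fix`-language.

Proof: `exists_model` gives `K, L, φ` with `fixG φ = U1`, `fixG φK = U`; `b ∈ Fix U = rangeNF φK` (`Fix_fixG`), so
`b = φK b₀`; `HNT_abs` gives `y` with `N y = b₀`; pick `t ∈ U \ U1` (index `p ≠ 1`), `map_norm`:
`b = ∏ t^i (φ y)`, `φ y ∈ Fix U1`.
-/

open IsDedekindDomain NumberField Module

namespace Fermat.Agent.S55.G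

open Fermat.Agent.S55.Places

noncomputable section

set_option linter.unusedSectionVars false


variable {p : ℕ} [Fact p.Prime]

/-! ### the `Fix`-language -/

/-- **(HNT)** Hasse norm theorem. -/
theorem HNT_Fix (hL : LocalNormIndexFix p) (hodd : p ≠ 2) (U U1 : Subgroup GQ)
    (hU : Lall.IsOpen U) (hU1 : IsOpenIn U U1) (hn : (U1.subgroupOf U).Normal)
    (hi : (U1.subgroupOf U).index = p) (hμ : U ≤ (ExtCitation.cycloChar p).ker)
    (b : Qbar) (hb : b ∈ Places.Fix U) (hb0 : b ≠ 0)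
    (hloc : ∀ (l : Nat.Primes) (g : GQ), ¬ (Dg l g ⊓ U ≤ U1) →
      IsNormFrom p (Dg l g ⊓ U) (Dg l g ⊓ U1) b) :
    IsNormFrom p U U1 b := by
  obtain ⟨K, L, _, _, _, _, _, _, φ, hdeg, hφ, hφK, hζ⟩ := exists_model U U1 hU hU1 hn hi hμ
  have hb' : b ∈ rangeNF (φ.comp (algebraMap K L)) := by
    rw [← Fix_fixG, hφK]
    exact hb
  obtain ⟨b₀, hb₀⟩ := (mem_rangeNF _).1 hb'
  have hb₀0 : b₀ ≠ 0 := by
    rintro rfl
    apply hb0
    rw [← hb₀, map_zero]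
  obtain ⟨y, hy⟩ := HNT_abs hL hodd hζ hdeg φ (Units.mk0 b₀ hb₀0) (by
    intro l g hs
    rw [hφK, hφ] at hs ⊢
    have h1 := hloc l g hs
    rw [← hb₀] at h1
    exact h1)
  obtain ⟨t, htU, htU1⟩ : ∃ t ∈ U, t ∉ U1 := by
    by_contra hcon
    push Not at hcon
    have h1 : U1.subgroupOf U = ⊤ := Subgroup.subgroupOf_eq_top.2 hcon
    rw [h1, Subgroup.index_top] at hi
    exact (Fact.out : p.Prime).one_lt.ne hi
  refine ⟨t, htU, htU1, φ (y : L), ?_, ?_, ?_⟩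
  · rw [← hφ, Fix_fixG]
    exact ⟨(y : L), rfl⟩
  · exact (map_ne_zero φ).2 y.ne_zero
  · rw [← map_norm hdeg φ (hφK ▸ htU) (hφ ▸ htU1) (y : L), ← hb₀]
    have h2 : Algebra.norm K (y : L) = b₀ := congrArg Units.val hy
    rw [h2]
    rfl


end

end Fermat.Agent.S55.G
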