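import Fermat.Agent.S55.G.Defs
import Fermat.Agent.S55.Places.QIndex

open IsDedekindDomain NumberField Module

namespace Fermat.Agent.S55.G

noncomputable section

set_option linter.unusedSectionVars false
set_option linter.style.haveILetI false

/-! # S55/G-Units : `dim U_S/p = r₂ + #S` (Dirichlet + induction on `S`).
`K ∋ ζ_p`, `p` odd, so `K` has no real place: `[K:ℚ] = 2 r₂`, `NumberField.Units.rank K = r₂ - 1`.
Note `EE p K S = img (S.unit K) ≅ U_S/U_S^p` since `U_S ∩ K^×p = U_S^p`.
* `S = ∅`: `U_∅ = (𝓞 K)ˣ ≅ torsion × ℤ^rank` (`NumberField.Units.exist_unique_eq_mul_prod`,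
 `basisModTorsion`), torsion cyclic of order divisible by `p`: `dim = rank + 1 = r₂`.
* step `S → S ∪ {v}`, `v ∉ S`: `ord_v (U_{S ∪ v}) = dℤ` with `d > 0` (class group finite: `v^h = (x)`).
 Take `π ∈ U_{S∪v}` with `ord_v π = d`.  `U_{S∪v} = U_S × π^ℤ`, so `EE (S∪v) = EE S + span {cls π}` and
 `cls π ∉ EE S` (if `π = u y^p`, `u ∈ U_S`, then `y ∈ U_{S∪v}` and `d = p ord_v y ∈ p d ℤ`: impossible).
This task may be split by its owner (base case / induction step).

Implementation: everything is a count with the quotient `Q(A) = [A : A^p]/#A[p]` of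
`S55/Places/QIndex.lean`, which is multiplicative in short exact sequences. -/

open Fermat.Agent.S55.Places (IsQ isQ_of_finite isQ_int)

namespace UnitsAux

/-- `Q(ℤ^r) = p^r`. -/
theorem isQ_pi {p : ℕ} (hp : p ≠ 0) (r : ℕ) : IsQ p (Multiplicative (Fin r → ℤ)) (p ^ r) := by
  induction r with
  | zero =>
    haveI : Finite (Multiplicative (Fin 0 → ℤ)) :=
      Finite.of_equiv (Fin 0 → ℤ) Multiplicative.ofAdd
    simpa using (isQ_of_finite (p := p) (A := Multiplicative (Fin 0 → ℤ)))
  | succ r ih =>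
    let i : Multiplicative ℤ →* Multiplicative (Fin (r + 1) → ℤ) :=
      AddMonoidHom.toMultiplicative (AddMonoidHom.single (fun _ : Fin (r + 1) => ℤ) 0)
    let π : Multiplicative (Fin (r + 1) → ℤ) →* Multiplicative (Fin r → ℤ) :=
      AddMonoidHom.toMultiplicative (LinearMap.funLeft ℤ ℤ (Fin.succ : Fin r → Fin (r + 1))).toAddMonoidHom
    have hi : Function.Injective i := by
      intro a b hab
      have : Pi.single (M := fun _ : Fin (r + 1) => ℤ) 0 (Multiplicative.toAdd a) =
          Pi.single (M := fun _ : Fin (r + 1) => ℤ) 0 (Multiplicative.toAdd b) := hab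
      exact Multiplicative.toAdd.injective (Pi.single_injective 0 this)
    have hπ : Function.Surjective π := by
      intro g
      refine ⟨Multiplicative.ofAdd (Fin.cons 0 (Multiplicative.toAdd g)), ?_⟩
      apply Multiplicative.toAdd.injective
      funext j
      change (Fin.cons 0 (Multiplicative.toAdd g) : Fin (r + 1) → ℤ) j.succ = _
      simp
    have hex : i.range = π.ker := by
      ext f
      constructor
      · rintro ⟨a, rfl⟩
        rw [MonoidHom.mem_ker]
        apply Multiplicative.toAdd.injective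
        funext j
        change (Pi.single (M := fun _ : Fin (r + 1) => ℤ) 0 (Multiplicative.toAdd a)) j.succ = 0
        exact Pi.single_eq_of_ne (Fin.succ_ne_zero j) _
      · intro hf
        rw [MonoidHom.mem_ker] at hf
        refine ⟨Multiplicative.ofAdd (Multiplicative.toAdd f 0), ?_⟩
        apply Multiplicative.toAdd.injective
        funext j
        change (Pi.single (M := fun _ : Fin (r + 1) => ℤ) 0 (Multiplicative.toAdd f 0)) j = _
        refine Fin.cases ?_ (fun j => ?_) j
        · simp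
        · rw [Pi.single_eq_of_ne (Fin.succ_ne_zero j)]
          have := congrFun (congrArg Multiplicative.toAdd hf) j
          exact this.symm
    have := IsQ.of_exact i π hi hπ hex (isQ_int hp) ih
    rwa [← pow_succ'] at this

/-- a nontrivial subgroup of `ℤ` has `Q = p`. -/
theorem isQ_subgroup_int {p : ℕ} (hp : p ≠ 0) (R : Subgroup (Multiplicative ℤ)) (hR : R ≠ ⊥) :
    IsQ p R p := by
  obtain ⟨⟨g, hg⟩, hg1'⟩ := Subgroup.ne_bot_iff_exists_ne_one.mp hR
  have hg1 : g ≠ 1 := fun h => hg1' (Subtype.ext h)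
  haveI : Infinite R := by
    refine Infinite.of_injective (fun n : ℤ => (⟨g ^ n, R.zpow_mem hg n⟩ : R)) ?_
    intro n m hnm
    have h1 : g ^ n = g ^ m := congrArg Subtype.val hnm
    have h2 : n • Multiplicative.toAdd g = m • Multiplicative.toAdd g := by
      simpa using congrArg Multiplicative.toAdd h1
    have h3 : Multiplicative.toAdd g ≠ 0 := fun h => hg1 (Multiplicative.toAdd.injective h)
    simpa [h3] using h2
  exact IsQ.of_mulEquiv (intCyclicMulEquiv (G := R)) (isQ_int hp)

end UnitsAux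

variable (p : ℕ) [Fact p.Prime] (K : Type) [Field K] [NumberField K]

namespace UnitsAux

/-- `(𝓞 K)ˣ / torsion ≃ ℤ ^ rank`, additive form. -/
def modTorsionAddEquiv : Additive ((𝓞 K)ˣ ⧸ NumberField.Units.torsion K) ≃+
    (Fin (NumberField.Units.rank K) → ℤ) :=
  letI i2 : AddCommGroup (Additive ((𝓞 K)ˣ ⧸ NumberField.Units.torsion K)) := inferInstance
  letI : Module ℤ (Additive ((𝓞 K)ˣ ⧸ NumberField.Units.torsion K)) :=
    @AddCommGroup.toIntModule _ i2
  (NumberField.Units.basisModTorsion K).equivFun.toAddEquiv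

/-- `(𝓞 K)ˣ / torsion ≃ ℤ ^ rank`. -/
def modTorsionEquiv : Multiplicative (Fin (NumberField.Units.rank K) → ℤ) ≃*
    ((𝓞 K)ˣ ⧸ NumberField.Units.torsion K) :=
  AddEquiv.toMultiplicativeLeft (modTorsionAddEquiv K).symm

/-- Dirichlet: `Q((𝓞 K)ˣ) = p ^ rank`. -/
theorem isQ_units : IsQ p (𝓞 K)ˣ (p ^ NumberField.Units.rank K) := by
  have hp : p ≠ 0 := (Fact.out : p.Prime).ne_zero
  have h2 : IsQ p ((𝓞 K)ˣ ⧸ NumberField.Units.torsion K) (p ^ NumberField.Units.rank K) :=
    IsQ.of_mulEquiv (modTorsionEquiv K) (isQ_pi hp _)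
  have h1 : IsQ p (NumberField.Units.torsion K) 1 := isQ_of_finite
  simpa using IsQ.of_subgroup (NumberField.Units.torsion K) h1 h2

/-- `(𝓞 K)ˣ ≃ U_∅`. -/
def unitsEquiv : (𝓞 K)ˣ ≃* ((∅ : Set (Pl K)).unit K) :=
  ((Units.mapEquiv
    ((Algebra.botEquivOfInjective (IsFractionRing.injective (𝓞 K) K)).symm.trans
      (Subalgebra.equivOfEq _ _ (IsDedekindDomain.integer_empty (𝓞 K) K).symm)).toMulEquiv).trans
    (Set.unitEquivUnitsInteger (∅ : Set (Pl K)) K).symm)

theorem isQ_empty : IsQ p ((∅ : Set (Pl K)).unit K) (p ^ NumberField.Units.rank K) :=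
  IsQ.of_mulEquiv (unitsEquiv K) (isQ_units p K)

/-- `ord_v : K^× → ℤ` (multiplicative notation). -/
def ordHom (v : Pl K) : Kˣ →* Multiplicative ℤ :=
  (WithZero.unitsWithZeroEquiv (α := Multiplicative ℤ)).toMonoidHom.comp
    (Units.map (v.valuation K).toMonoidWithZeroHom.toMonoidHom)

theorem ordHom_eq_one_iff (v : Pl K) (x : Kˣ) : ordHom K v x = 1 ↔ v.valuation K (x : K) = 1 := by
  unfold ordHom
  rw [MonoidHom.comp_apply]
  change WithZero.unitsWithZeroEquiv _ = 1 ↔ _
  rw [MulEquiv.map_eq_one_iff, Units.ext_iff]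
  rfl

/-- some power of `v` is principal: an element which is a unit outside `v`, not a unit at `v`. -/
theorem exists_pow_generator (v : Pl K) :
    ∃ x : Kˣ, v.valuation K (x : K) ≠ 1 ∧ ∀ v' : Pl K, v' ≠ v → v'.valuation K (x : K) = 1 := by
  classical
  have hv0 : v.asIdeal ∈ nonZeroDivisors (Ideal (𝓞 K)) := mem_nonZeroDivisors_of_ne_zero v.ne_bot
  set h := Fintype.card (ClassGroup (𝓞 K)) with hh
  have hpos : 0 < h := Fintype.card_pos
  have h1 : ClassGroup.mk0 (⟨v.asIdeal, hv0⟩ : nonZeroDivisors (Ideal (𝓞 K))) ^ h = 1 :=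
    pow_card_eq_one
  rw [← map_pow] at h1
  have h2 : (v.asIdeal ^ h).IsPrincipal := by
    exact (ClassGroup.mk0_eq_one_iff (pow_mem hv0 h)).mp h1
  obtain ⟨a, ha⟩ := h2.principal
  have ha0 : a ≠ 0 := by
    rintro rfl
    rw [Submodule.span_zero_singleton] at ha
    exact v.ne_bot (pow_eq_zero_iff hpos.ne' |>.mp ha)
  have hamem : a ∈ v.asIdeal ^ h := by rw [ha]; exact Submodule.mem_span_singleton_self a
  have haK : (algebraMap (𝓞 K) K a) ≠ 0 := by
    simpa using ha0
  refine ⟨Units.mk0 _ haK, ?_, ?_⟩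
  · rw [Units.val_mk0]
    exact ne_of_lt ((v.valuation_lt_one_iff_mem (K := K) a).mpr (Ideal.pow_le_self hpos.ne' hamem))
  · intro v' hv'
    rw [Units.val_mk0, HeightOneSpectrum.valuation_eq_one_iff_notMem]
    intro hmem
    apply hv'
    have hle : v.asIdeal ^ h ≤ v'.asIdeal := by
      rw [ha, Ideal.submodule_span_eq, Ideal.span_singleton_le_iff_mem]
      exact hmem
    have hle' : v.asIdeal ≤ v'.asIdeal := v'.isPrime.le_of_pow_le hle
    exact HeightOneSpectrum.ext (v.isMaximal.eq_of_le v'.isPrime.ne_top hle').symm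

theorem unit_le_insert (S : Set (Pl K)) (v : Pl K) : S.unit K ≤ (insert v S : Set (Pl K)).unit K :=
  fun _ hx v' hv' => hx v' (fun h => hv' (Set.mem_insert_of_mem v h))

/-- the induction step: adding a place multiplies `Q` by `p`. -/
theorem isQ_insert (S : Set (Pl K)) (v : Pl K) (hv : v ∉ S) {m : ℕ} (h : IsQ p (S.unit K) m) :
    IsQ p ((insert v S : Set (Pl K)).unit K) (m * p) := by
  have hp : p ≠ 0 := (Fact.out : p.Prime).ne_zero
  set A : Subgroup Kˣ := (insert v S : Set (Pl K)).unit K with hA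
  let i : S.unit K →* A := Subgroup.inclusion (unit_le_insert K S v)
  let π₀ : A →* Multiplicative ℤ := (ordHom K v).comp A.subtype
  have hR : π₀.range ≠ ⊥ := by
    obtain ⟨x, hx1, hx2⟩ := exists_pow_generator K v
    have hxA : x ∈ A := fun v' hv' => hx2 v' (fun h => hv' (h ▸ Set.mem_insert v S))
    intro hbot
    have : π₀ ⟨x, hxA⟩ ∈ π₀.range := ⟨_, rfl⟩
    rw [hbot, Subgroup.mem_bot] at this
    exact hx1 ((ordHom_eq_one_iff K v x).mp this)
  have hex : i.range = π₀.rangeRestrict.ker := by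
    ext ⟨x, hx⟩
    rw [MonoidHom.ker_rangeRestrict, MonoidHom.mem_ker]
    change _ ↔ ordHom K v x = 1
    rw [ordHom_eq_one_iff]
    constructor
    · rintro ⟨⟨y, hy⟩, hyx⟩
      have : y = x := congrArg Subtype.val hyx
      subst this
      exact hy v hv
    · intro hx1
      refine ⟨⟨x, fun v' hv' => ?_⟩, rfl⟩
      by_cases hvv : v' = v
      · rw [hvv]; exact hx1
      · exact hx v' (fun h => (Set.mem_insert_iff.mp h).elim hvv hv')
  exact IsQ.of_exact i π₀.rangeRestrict (Subgroup.inclusion_injective _)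
    π₀.rangeRestrict_surjective hex h (isQ_subgroup_int hp _ hR)

theorem isQ_unit (S : Set (Pl K)) (hS : S.Finite) :
    IsQ p (S.unit K) (p ^ (NumberField.Units.rank K + S.ncard)) := by
  induction S, hS using Set.Finite.induction_on with
  | empty => simpa using isQ_empty p K
  | @insert v S hv hS ih =>
    have := isQ_insert p K S v hv ih
    rwa [← pow_succ, add_assoc, ← Set.ncard_insert_of_notMem hv hS] at this

theorem val_eq_one_of_pow (v : Pl K) (y : K) (h : v.valuation K (y ^ p) = 1) :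
    v.valuation K y = 1 := by
  rw [map_pow] at h
  have hn : p ≠ 0 := (Fact.out : p.Prime).ne_zero
  rcases lt_trichotomy (v.valuation K y) 1 with h1 | h1 | h1
  · exact absurd h (ne_of_lt (pow_lt_one₀ zero_le h1 hn))
  · exact h1
  · exact absurd h (ne_of_gt (one_lt_pow₀ h1 hn))

/-- `#U_S[p] = p`. -/
theorem card_ker (hζ : ∃ ζ : K, IsPrimitiveRoot ζ p) (S : Set (Pl K)) :
    Nat.card (powMonoidHom p : S.unit K →* S.unit K).ker = p := by
  haveI : NeZero p := ⟨(Fact.out : p.Prime).ne_zero⟩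
  obtain ⟨ζ, hζ⟩ := hζ
  rw [Fermat.Agent.S55.Places.qIndex_card_ker (S.unit K).subtype (S.unit K).subtype_injective,
    Subgroup.range_subtype]
  have h1 : (powMonoidHom p : Kˣ →* Kˣ).ker = rootsOfUnity p K := by
    ext x
    rw [MonoidHom.mem_ker, mem_rootsOfUnity, powMonoidHom_apply]
  have h2 : rootsOfUnity p K ≤ S.unit K := by
    intro x hx v _
    rw [mem_rootsOfUnity] at hx
    apply val_eq_one_of_pow p K v
    rw [← Units.val_pow_eq_pow_val, hx, Units.val_one, map_one]
  rw [h1, inf_eq_right.mpr h2]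
  exact hζ.card_rootsOfUnity

/-- `#EE = [U_S : U_S^p]`. -/
theorem card_EE (S : Set (Pl K)) :
    Nat.card (EE p K S) = (powMonoidHom p : S.unit K →* S.unit K).range.index := by
  set H : Subgroup Kˣ := S.unit K with hH
  set P : Subgroup Kˣ := (powMonoidHom p : Kˣ →* Kˣ).range with hP
  have h1 : Nat.card (EE p K S) = Nat.card (H.map (QuotientGroup.mk' P)) := by
    refine Nat.card_congr (Equiv.subtypeEquiv Additive.toMul (fun ξ => ?_))
    unfold EE
    rw [mem_img, Subgroup.mem_map]
    rfl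
  rw [h1, ← Subgroup.relIndex_ker, QuotientGroup.ker_mk',
    Fermat.Agent.S55.Places.qIndex_index_range H.subtype H.subtype_injective,
    Subgroup.range_subtype, ← Subgroup.inf_relIndex_right]
  congr 1
  ext x
  constructor
  · rintro ⟨⟨y, rfl⟩, hx⟩
    refine ⟨y, fun v hv => ?_, rfl⟩
    apply val_eq_one_of_pow p K v
    have := hx v hv
    rwa [powMonoidHom_apply, Units.val_pow_eq_pow_val] at this
  · rintro ⟨y, hy, rfl⟩
    exact ⟨⟨y, rfl⟩, H.pow_mem hy p⟩

end UnitsAux

open UnitsAux in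
theorem finrank_EE (hodd : p ≠ 2) (hζ : ∃ ζ : K, IsPrimitiveRoot ζ p)
    (S : Set (Pl K)) (hS : S.Finite) :
    FiniteDimensional (ZMod p) (EE p K S) ∧
    2 * finrank (ZMod p) (EE p K S) = finrank ℚ K + 2 * S.ncard := by
  have hp : p.Prime := Fact.out
  obtain ⟨_, hQ2, hQ3⟩ := isQ_unit p K S hS
  have hcard : Nat.card (EE p K S) = p ^ (1 + (NumberField.Units.rank K + S.ncard)) := by
    rw [card_EE, hQ3, card_ker p K hζ S]; ring
  haveI : Finite (EE p K S) := Nat.finite_of_card_ne_zero (by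
    rw [hcard]; exact pow_ne_zero _ hp.ne_zero)
  haveI : FiniteDimensional (ZMod p) (EE p K S) := Module.Finite.of_finite
  refine ⟨inferInstance, ?_⟩
  have h1 : Nat.card (EE p K S) = p ^ finrank (ZMod p) (EE p K S) := by
    rw [Module.natCard_eq_pow_finrank (K := ZMod p), Nat.card_zmod]
  have h2 : finrank (ZMod p) (EE p K S) = 1 + (NumberField.Units.rank K + S.ncard) :=
    Nat.pow_right_injective hp.two_le (h1.symm.trans hcard)
  obtain ⟨ζ, hζ'⟩ := hζ
  have h3 : NumberField.InfinitePlace.nrRealPlaces K = 0 :=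
    NumberField.InfinitePlace.IsPrimitiveRoot.nrRealPlaces_eq_zero_of_two_lt
      (lt_of_le_of_ne hp.two_le (Ne.symm hodd)) hζ'
  have h4 := NumberField.InfinitePlace.card_add_two_mul_card_eq_rank K
  have h5 := NumberField.InfinitePlace.card_eq_nrRealPlaces_add_nrComplexPlaces K
  have h6 : 0 < Fintype.card (NumberField.InfinitePlace K) := Fintype.card_pos
  rw [h2, NumberField.Units.rank]
  omega

end

end Fermat.Agent.S55.G
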