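import Fermat.Agent.S55.G.Defs

open IsDedekindDomain NumberField Module

namespace Fermat.Agent.S55.G

noncomputable section

set_option linter.unusedSectionVars false
set_option linter.style.haveILetI false

/-! # S55/G-ValOrd : the valuation modulo `p`.
`OO p K v = img (Uv K v)` is the set of classes `cls x` with `p ∣ ord_v x` (if `ord_v x = p k` take a
uniformiser `π` (`HeightOneSpectrum.valuation_exists_uniformizer`), `x π^(-pk) ∈ Uv`).
Useful: `HeightOneSpectrum.valuationOfNeZero : Kˣ →* Multiplicative ℤ`. -/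

variable (p : ℕ) [Fact p.Prime] (K : Type) [Field K] [NumberField K]

/-- a uniformiser generates `K^×/p` modulo `OO v`: for `y ∈ K^×`, `v y = exp (-k)`, so
`y x^(-k) ∈ Uv`. -/
theorem span_sup_OO_eq_top (v : Pl K) (x : Kˣ)
    (hx : v.valuation K (x : K) = WithZero.exp (-1 : ℤ)) :
    Submodule.span (ZMod p) {cls p x} ⊔ OO p K v = ⊤ := by
  rw [eq_top_iff]
  intro ξ _
  obtain ⟨y, rfl⟩ := cls_surjective p ξ
  have hy0 : v.valuation K (y : K) ≠ 0 := (Valuation.ne_zero_iff _).2 y.ne_zero
  set k : ℤ := WithZero.log (v.valuation K (y : K)) with hk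
  have hyk : v.valuation K (y : K) = WithZero.exp k := (WithZero.exp_log hy0).symm
  have hU : y * x ^ k ∈ Uv K v := by
    rw [mem_Uv]
    push_cast
    rw [map_mul, map_zpow₀, hx, hyk, ← WithZero.exp_zsmul, ← WithZero.exp_add]
    simp
  rw [Submodule.mem_sup]
  refine ⟨-(k • cls p x), ?_, cls p (y * x ^ k), (mem_img p).2 ⟨_, hU, rfl⟩, ?_⟩
  · exact neg_mem (zsmul_mem (Submodule.mem_span_singleton_self _) k)
  · rw [cls_mul, cls_zpow]; abel

/-- `K^×/p / OO v` is a line (`cls π ∉ OO v` because `p ∤ 1`). -/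
theorem finrank_quot_OO (v : Pl K) :
    FiniteDimensional (ZMod p) (KP p K ⧸ OO p K v) ∧ finrank (ZMod p) (KP p K ⧸ OO p K v) = 1 := by
  obtain ⟨π, hπ⟩ := v.valuation_exists_uniformizer K
  have hπ0 : π ≠ 0 := by
    rintro rfl
    rw [map_zero] at hπ
    exact WithZero.exp_ne_zero hπ.symm
  set x : Kˣ := Units.mk0 π hπ0 with hxdef
  have hx : v.valuation K (x : K) = WithZero.exp (-1 : ℤ) := hπ
  have hnot : cls p x ∉ OO p K v := by
    intro hmem
    obtain ⟨y, hy⟩ := (cls_mem_img p).1 hmem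
    rw [mem_Uv] at hy
    have hy0 : v.valuation K (y : K) ≠ 0 := (Valuation.ne_zero_iff _).2 y.ne_zero
    have hyk : v.valuation K (y : K) = WithZero.exp (WithZero.log (v.valuation K (y : K))) :=
      (WithZero.exp_log hy0).symm
    push_cast at hy
    rw [map_mul, map_pow, hx, hyk, ← WithZero.exp_nsmul, ← WithZero.exp_add, ← WithZero.exp_zero,
      WithZero.exp_inj] at hy
    have hp : (p : ℤ) ∣ 1 := ⟨WithZero.log (v.valuation K (y : K)), by
      rw [nsmul_eq_mul] at hy; linarith⟩
    have h2 := (Fact.out : p.Prime).two_le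
    have := Int.le_of_dvd one_pos hp
    omega
  have h1 : finrank (ZMod p) (KP p K ⧸ OO p K v) = 1 := by
    apply finrank_eq_one ((OO p K v).mkQ (cls p x))
    · intro h0
      exact hnot ((Submodule.Quotient.mk_eq_zero _).1 h0)
    · intro w
      obtain ⟨ξ, rfl⟩ := (OO p K v).mkQ_surjective w
      have hξ : ξ ∈ Submodule.span (ZMod p) {cls p x} ⊔ OO p K v := by
        rw [span_sup_OO_eq_top p K v x hx]; trivial
      obtain ⟨u, hu, o, ho, rfl⟩ := Submodule.mem_sup.1 hξ
      obtain ⟨c, rfl⟩ := Submodule.mem_span_singleton.1 hu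
      refine ⟨c, ?_⟩
      rw [map_add, map_smul]
      have : (OO p K v).mkQ o = 0 := (Submodule.Quotient.mk_eq_zero _).2 ho
      rw [this, add_zero]
  exact ⟨Module.finite_of_finrank_pos (by omega), h1⟩

/-- every element of `K^×` is a unit at almost all places. -/
theorem finite_support (x : Kˣ) : {v : Pl K | v.valuation K (x : K) ≠ 1}.Finite := by
  apply ((HeightOneSpectrum.Support.finite (𝓞 K) (x : K)).union
    (HeightOneSpectrum.Support.finite (𝓞 K) ((x : K)⁻¹))).subset
  intro v hv
  rcases lt_or_gt_of_ne hv with h | h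
  · right
    change 1 < v.valuation K ((x : K)⁻¹)
    rw [map_inv₀]
    exact (one_lt_inv₀ (zero_lt_iff.2 ((Valuation.ne_zero_iff _).2 x.ne_zero))).2 h
  · left
    exact h

end

end Fermat.Agent.S55.G
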