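import Fermat.Agent.S55.G.BridgeDefs
import Fermat.Agent.S55.Places.Primes
import Fermat.Agent.S55.Places.PthPower

/-!
# S55/G-BridgeTools : the local toolkit of [P], restated for the place `g • padicPlace l` and for an
abstract number field `K` with an embedding `ι : K →+* Qbar`.

Everything follows from `Places/{Norm,Galois,Value,PthPower}.lean` (use their statements as black
boxes) by conjugating with `g` and by replacing `K` with the number field `rangeNF ι ⊆ Qbar`.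
Basic facts: `x ∈ Fix (Dg l g ⊓ U) ↔ g⁻¹ x ∈ Fix (Dq l ⊓ g⁻¹ U g)` (`Fix_conj`),
`fixG (g⁻¹ ∘ ι) = g⁻¹ (fixG ι) g`, `nrmg l g x = nrm l (g⁻¹ x)` (by definition).
-/

open IsDedekindDomain NumberField Module

namespace Fermat.Agent.S55.G

open Fermat.Agent.S55.Places

noncomputable section

set_option linter.unusedSectionVars false


/-- the image of an embedding, as an intermediate field. -/
def rangeNF {K : Type} [Field K] (ι : K →+* Qbar) : NF :=
  ι.fieldRange.toIntermediateField (fun r => ⟨(r : K), by simp⟩)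

theorem mem_rangeNF {K : Type} [Field K] (ι : K →+* Qbar) {x : Qbar} :
    x ∈ rangeNF ι ↔ ∃ y : K, ι y = x := Iff.rfl

theorem finiteDimensional_rangeNF {K : Type} [Field K] [NumberField K] (ι : K →+* Qbar) :
    FiniteDimensional ℚ (rangeNF ι) := by
  let f : K →ₐ[ℚ] Qbar := ι.toRatAlgHom
  have h : rangeNF ι = f.fieldRange := by
    ext x
    rw [mem_rangeNF, AlgHom.mem_fieldRange]
    rfl
  rw [h]
  exact LinearMap.finiteDimensional_range f.toLinearMap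

theorem fixingSubgroup_rangeNF {K : Type} [Field K] (ι : K →+* Qbar) :
    (rangeNF ι).fixingSubgroup = fixG ι := by
  ext g
  rw [IntermediateField.mem_fixingSubgroup_iff]
  constructor
  · intro h x
    exact h _ ((mem_rangeNF ι).2 ⟨x, rfl⟩)
  · rintro h x ⟨y, rfl⟩
    exact h y

theorem Fix_fixG {K : Type} [Field K] [NumberField K] (ι : K →+* Qbar) :
    Places.Fix (fixG ι) = rangeNF ι := by
  have := isGalois_Qbar
  rw [← fixingSubgroup_rangeNF]
  exact InfiniteGalois.fixedField_fixingSubgroup _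

theorem isOpen_fixG {K : Type} [Field K] [NumberField K] (ι : K →+* Qbar) :
    Lall.IsOpen (fixG ι) :=
  Lall_isOpen_iff.2 ⟨rangeNF ι, finiteDimensional_rangeNF ι, (fixingSubgroup_rangeNF ι).le⟩

/-! ### the absolute value `nrmg l g` -/

variable (l : Nat.Primes) (g : GQ)

theorem nrmg_def (x : Qbar) :
    nrmg l g x = @nrm (l : ℕ) ⟨l.2⟩ (g⁻¹ x) := rfl

theorem nrmg_mul (x y : Qbar) : nrmg l g (x * y) = nrmg l g x * nrmg l g y := by
  have : Fact (l : ℕ).Prime := ⟨l.2⟩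
  rw [nrmg_def, nrmg_def, nrmg_def, map_mul, nrm_mul]
theorem nrmg_one : nrmg l g 1 = 1 := by
  have : Fact (l : ℕ).Prime := ⟨l.2⟩
  rw [nrmg_def, map_one]
  simp [nrm]
theorem nrmg_eq_zero_iff {x : Qbar} : nrmg l g x = 0 ↔ x = 0 := by
  have : Fact (l : ℕ).Prime := ⟨l.2⟩
  rw [nrmg_def, nrm_eq_zero_iff, map_eq_zero_iff _ (g⁻¹ : GQ).injective]
theorem nrmg_nonneg (x : Qbar) : 0 ≤ nrmg l g x := by
  have : Fact (l : ℕ).Prime := ⟨l.2⟩
  rw [nrmg_def]; exact nrm_nonneg _ _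
theorem nrmg_add_le_max (x y : Qbar) : nrmg l g (x + y) ≤ max (nrmg l g x) (nrmg l g y) := by
  have : Fact (l : ℕ).Prime := ⟨l.2⟩
  rw [nrmg_def, nrmg_def, nrmg_def, map_add]; exact nrm_add_le_max _ _ _
theorem nrmg_natCast_le_one (n : ℕ) : nrmg l g (n : Qbar) ≤ 1 := by
  have : Fact (l : ℕ).Prime := ⟨l.2⟩
  rw [nrmg_def, map_natCast]; exact nrm_natCast_le_one _ _

theorem mem_Dg_iff {t : GQ} : t ∈ Dg l g ↔ g⁻¹ * t * g ∈ @Dq (l : ℕ) ⟨l.2⟩ := by
  have : Fact (l : ℕ).Prime := ⟨l.2⟩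
  unfold Dg
  rw [Subgroup.mem_map]
  constructor
  · rintro ⟨d, hd, rfl⟩
    simpa [MulAut.conj_apply, mul_assoc] using hd
  · intro h
    exact ⟨_, h, by simp [MulAut.conj_apply, mul_assoc]⟩

/-- (C3) the decomposition group acts by isometries -/
theorem nrmg_map_of_mem_Dg {t : GQ} (ht : t ∈ Dg l g) (x : Qbar) :
    nrmg l g (t x) = nrmg l g x := by
  have : Fact (l : ℕ).Prime := ⟨l.2⟩
  have h := nrm_map_of_mem_Dq (l : ℕ) ((mem_Dg_iff l g).1 ht) (g⁻¹ x)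
  rw [nrmg_def, nrmg_def, ← h]
  congr 1
  simp [AlgEquiv.mul_apply]

/-- if `|x_i - 1| < ε ≤ 1` for all `i` then `|∏ x_i - 1| < ε`. -/
theorem nrmg_prod_sub_one_lt {ι : Type*} (s : Finset ι) (f : ι → Qbar) {ε : ℝ} (hε : 0 < ε)
    (hε1 : ε ≤ 1) (h : ∀ i ∈ s, nrmg l g (f i - 1) < ε) : nrmg l g (∏ i ∈ s, f i - 1) < ε := by
  classical
  induction s using Finset.induction_on with
  | empty =>
    rw [Finset.prod_empty, sub_self, (nrmg_eq_zero_iff l g).2 rfl]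
    exact hε
  | insert a s ha ih =>
    have h1 := ih (fun i hi => h i (Finset.mem_insert_of_mem hi))
    have h2 := h a (Finset.mem_insert_self a s)
    rw [Finset.prod_insert ha]
    set P := ∏ i ∈ s, f i with hP
    have hP1 : nrmg l g P ≤ 1 := by
      have e : P = (P - 1) + 1 := by ring
      rw [e]
      refine (nrmg_add_le_max l g _ _).trans (max_le (h1.le.trans hε1) ?_)
      rw [nrmg_one]
    have e : f a * P - 1 = (f a - 1) * P + (P - 1) := by ring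
    rw [e]
    refine (nrmg_add_le_max l g _ _).trans_lt (max_lt ?_ h1)
    rw [nrmg_mul]
    calc nrmg l g (f a - 1) * nrmg l g P ≤ nrmg l g (f a - 1) * 1 :=
          mul_le_mul_of_nonneg_left hP1 (nrmg_nonneg l g _)
      _ = nrmg l g (f a - 1) := mul_one _
      _ < ε := h2

/-- (C1) density of `K` in its henselisation (P3, `exists_near_of_mem_Fix'`). -/
theorem exists_near {K : Type} [Field K] [NumberField K] (ι : K →+* Qbar) {x : Qbar}
    (hx : x ∈ Places.Fix (Dg l g ⊓ fixG ι)) (h0 : x ≠ 0) {ε : ℝ} (hε : 0 < ε) :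
    ∃ y : K, y ≠ 0 ∧ nrmg l g (x / ι y - 1) < ε := by
  have : Fact (l : ℕ).Prime := ⟨l.2⟩
  let ι' : K →+* Qbar := ((g⁻¹ : GQ) : Qbar →+* Qbar).comp ι
  have hfd : FiniteDimensional ℚ (rangeNF ι') := finiteDimensional_rangeNF ι'
  have hx' : g⁻¹ x ∈ Places.Fix (Dq (l : ℕ) ⊓ (rangeNF ι').fixingSubgroup) := by
    rw [fixingSubgroup_rangeNF, mem_Fix_iff]
    rintro h ⟨hD, hF⟩
    have hmem : g * h * g⁻¹ ∈ Dg l g ⊓ fixG ι := by
      refine ⟨(mem_Dg_iff l g).2 (by simpa [mul_assoc] using hD), fun y => ?_⟩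
      have := hF y
      have h3 : h (g⁻¹ (ι y)) = g⁻¹ (ι y) := this
      rw [AlgEquiv.mul_apply, AlgEquiv.mul_apply, h3]
      simp
    have h4 := mem_Fix_iff.1 hx _ hmem
    rw [AlgEquiv.mul_apply, AlgEquiv.mul_apply] at h4
    have h5 := congrArg (g⁻¹ : GQ) h4
    simpa using h5
  have h0' : g⁻¹ x ≠ 0 := by
    rw [Ne, map_eq_zero_iff _ (g⁻¹ : GQ).injective]; exact h0
  obtain ⟨y', ⟨y, rfl⟩, hy0, hlt, -⟩ := exists_near_of_mem_Fix' (l : ℕ) (rangeNF ι') hx' h0' hε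
  refine ⟨y, ?_, ?_⟩
  · rintro rfl
    exact hy0 (map_zero _)
  · rw [nrmg_def, map_sub, map_div₀, map_one]
    exact hlt

/-- (C2) `p`-th roots near `1` (P6, `exists_pow_eq_mem_Fix`); the hypothesis `|u-1| < |p|^2` implies
`|u-1|^(p-1) < |p|^p`. -/
theorem exists_pow_eq {p : ℕ} (hp : p.Prime) {W : Subgroup GQ} (hW : W ≤ Dg l g) {u : Qbar}
    (huW : u ∈ Places.Fix W) (hu : nrmg l g (u - 1) < nrmg l g (p : Qbar) ^ 2) :
    ∃ α ∈ Places.Fix W, α ^ p = u := by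
  have : Fact (l : ℕ).Prime := ⟨l.2⟩
  let W' : Subgroup GQ := W.map (MulAut.conj g⁻¹).toMonoidHom
  have hW' : W' ≤ Dq (l : ℕ) := by
    rintro _ ⟨w, hw, rfl⟩
    have := (mem_Dg_iff l g).1 (hW hw)
    simpa [MulAut.conj_apply] using this
  have hu' : g⁻¹ u ∈ Places.Fix W' := by
    rw [Fix_conj, inv_inv]
    simpa using huW
  rw [nrmg_def, nrmg_def, map_sub, map_one, map_natCast] at hu
  have hb1 : nrm (l : ℕ) (p : Qbar) ≤ 1 := nrm_natCast_le_one _ _
  have hb0 : 0 ≤ nrm (l : ℕ) (p : Qbar) := nrm_nonneg _ _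
  have hp2 := hp.two_le
  have hlt : nrm (l : ℕ) (g⁻¹ u - 1) ^ (p - 1) < nrm (l : ℕ) (p : Qbar) ^ p := by
    calc nrm (l : ℕ) (g⁻¹ u - 1) ^ (p - 1) < (nrm (l : ℕ) (p : Qbar) ^ 2) ^ (p - 1) :=
          pow_lt_pow_left₀ hu (nrm_nonneg _ _) (by omega)
      _ = nrm (l : ℕ) (p : Qbar) ^ (2 * (p - 1)) := (pow_mul _ _ _).symm
      _ ≤ nrm (l : ℕ) (p : Qbar) ^ p := pow_le_pow_of_le_one hb0 hb1 (by omega)
  obtain ⟨α, hα, hαp, -⟩ := exists_pow_eq_mem_Fix hp hW' hu' hlt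
  refine ⟨g α, ?_, ?_⟩
  · rw [Fix_conj, inv_inv] at hα
    exact hα
  · rw [← map_pow, hαp]
    simp


end

end Fermat.Agent.S55.G
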