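import Fermat.Agent.S55.G.Defs

open IsDedekindDomain NumberField Module
open scoped nonZeroDivisors Classical

namespace Fermat.Agent.S55.G

noncomputable section

set_option linter.unusedSectionVars false
set_option linter.style.haveILetI false

/-! # S55/G-Good : good sets of places exist (finiteness of the class group).
For every class `c ∈ ClassGroup (𝓞 K)` choose a nonzero integral ideal `I_c` in it
(`ClassGroup.mk0_surjective`).  `S := S₀ ∪ {v ∣ p} ∪ {v : v ∣ I_c for some c}` is finite.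
For `v ∉ S` let `c = [v]⁻¹`: `v * I_c = (x)` is principal, `ord_v x = 1` (as `v ∤ I_c`) and
`ord_{v'} x = 0` for `v' ∉ S`, `v' ≠ v`. -/

variable (p : ℕ) [Fact p.Prime] (K : Type) [Field K] [NumberField K]

/-- the valuation of a generator of `v * I`. -/
theorem Good.val_of_span_eq (v v' : Pl K) (I : Ideal (𝓞 K)) (hI : I ≠ 0) (x0 : 𝓞 K)
    (hx : v.asIdeal * I = Ideal.span {x0}) (hv' : ¬ v'.asIdeal ∣ I) :
    v'.valuation K (algebraMap (𝓞 K) K x0) = if v' = v then WithZero.exp (-1 : ℤ) else 1 := by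
  have hx0 : x0 ≠ 0 := by
    rintro rfl
    have : v.asIdeal * I = 0 := by rw [hx]; simp
    rcases mul_eq_zero.1 this with h | h
    · exact v.ne_bot h
    · exact hI h
  rw [HeightOneSpectrum.valuation_of_algebraMap, HeightOneSpectrum.intValuation_if_neg _ hx0, ← hx,
    ← Associates.mk_mul_mk, Associates.count_mul (Associates.mk_ne_zero.2 v.ne_bot)
      (Associates.mk_ne_zero.2 hI) v'.associates_irreducible]
  have h0 : (Associates.mk v'.asIdeal).count (Associates.mk I).factors = 0 := by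
    by_contra h4
    exact hv' ((Associates.count_ne_zero_iff_dvd hI v'.irreducible).1 h4)
  rw [h0, add_zero]
  split_ifs with h
  · subst h
    rw [Associates.count_self v'.associates_irreducible]
    rfl
  · rw [Associates.count_eq_zero_of_ne v'.associates_irreducible v.associates_irreducible]
    · simp
    · intro h1
      rw [Associates.mk_eq_mk_iff_associated, associated_iff_eq] at h1
      exact h (HeightOneSpectrum.ext h1)

theorem exists_good (S₀ : Set (Pl K)) (hS₀ : S₀.Finite) :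
    ∃ S : Set (Pl K), S₀ ⊆ S ∧ S.Finite ∧ IsGood p K S := by
  classical
  choose I hI using (ClassGroup.mk0_surjective (R := 𝓞 K))
  have hI0 : ∀ c, ((I c : Ideal (𝓞 K))) ≠ 0 := fun c => nonZeroDivisors.coe_ne_zero (I c)
  have hp0 : (p : 𝓞 K) ≠ 0 := Nat.cast_ne_zero.2 (Fact.out : p.Prime).ne_zero
  have hP : Ideal.span {(p : 𝓞 K)} ≠ 0 := by
    simpa [Ideal.zero_eq_bot, Ideal.span_singleton_eq_bot] using hp0
  refine ⟨S₀ ∪ {v : Pl K | v.asIdeal ∣ Ideal.span {(p : 𝓞 K)}} ∪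
      ⋃ c : ClassGroup (𝓞 K), {v : Pl K | v.asIdeal ∣ (I c : Ideal (𝓞 K))},
    fun v hv => Or.inl (Or.inl hv),
    (hS₀.union (Ideal.finite_factors hP)).union
      (Set.finite_iUnion (fun c => Ideal.finite_factors (hI0 c))), ?_, ?_⟩
  · intro v hv
    exact Or.inl (Or.inr (Ideal.dvd_span_singleton.2 hv))
  · intro v hv
    have hvI : ∀ (w : Pl K), w ∉ (S₀ ∪ {v : Pl K | v.asIdeal ∣ Ideal.span {(p : 𝓞 K)}} ∪
      ⋃ c : ClassGroup (𝓞 K), {v : Pl K | v.asIdeal ∣ (I c : Ideal (𝓞 K))}) →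
        ∀ c, ¬ w.asIdeal ∣ (I c : Ideal (𝓞 K)) := by
      intro w hw c hd
      exact hw (Or.inr (Set.mem_iUnion.2 ⟨c, hd⟩))
    have hvm : v.asIdeal ∈ (Ideal (𝓞 K))⁰ := mem_nonZeroDivisors_of_ne_zero v.ne_bot
    set c : ClassGroup (𝓞 K) := (ClassGroup.mk0 ⟨v.asIdeal, hvm⟩)⁻¹ with hc
    have hJm : v.asIdeal * (I c : Ideal (𝓞 K)) ∈ (Ideal (𝓞 K))⁰ :=
      mem_nonZeroDivisors_of_ne_zero (mul_ne_zero v.ne_bot (hI0 c))
    have hJ : (⟨v.asIdeal * (I c : Ideal (𝓞 K)), hJm⟩ : (Ideal (𝓞 K))⁰) =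
        ⟨v.asIdeal, hvm⟩ * I c := Subtype.ext rfl
    have hprod : ClassGroup.mk0 (⟨v.asIdeal * (I c : Ideal (𝓞 K)), hJm⟩ : (Ideal (𝓞 K))⁰) = 1 := by
      rw [hJ, map_mul, hI c, hc, mul_inv_cancel]
    have hprin : (v.asIdeal * (I c : Ideal (𝓞 K))).IsPrincipal :=
      (ClassGroup.mk0_eq_one_iff hJm).1 hprod
    obtain ⟨x0, hx0⟩ := hprin
    have hx0' : v.asIdeal * (I c : Ideal (𝓞 K)) = Ideal.span {x0} := hx0
    have hne : algebraMap (𝓞 K) K x0 ≠ 0 := by
      intro h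
      have h1 := Good.val_of_span_eq K v v (I c) (hI0 c) x0 hx0' (hvI v hv c)
      rw [h, map_zero, if_pos rfl] at h1
      exact WithZero.exp_ne_zero h1.symm
    refine ⟨Units.mk0 _ hne, ?_, fun v' hv' hvv' => ?_⟩
    · rw [Units.val_mk0, Good.val_of_span_eq K v v (I c) (hI0 c) x0 hx0' (hvI v hv c), if_pos rfl]
    · rw [Units.val_mk0, Good.val_of_span_eq K v v' (I c) (hI0 c) x0 hx0' (hvI v' hv' c),
        if_neg hvv']

theorem IsGood.mono {S S' : Set (Pl K)} (h : IsGood p K S) (hSS' : S ⊆ S') : IsGood p K S' :=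
  ⟨fun v hv => hSS' (h.1 v hv), fun v hv => by
    obtain ⟨x, hx, hx'⟩ := h.2 v (fun hv' => hv (hSS' hv'))
    exact ⟨x, hx, fun v' hv' hne => hx' v' (fun h' => hv' (hSS' h')) hne⟩⟩

end

end Fermat.Agent.S55.G
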