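import Fermat.Agent.S55.G.BridgeHyp

/-!
# S55/G-BridgeAbs : Hasse norm theorem, abstract fields + embedding.
-/

open IsDedekindDomain NumberField Module

namespace Fermat.Agent.S55.G

open Fermat.Agent.S55.Places

noncomputable section

set_option linter.unusedSectionVars false


variable {p : ℕ} [Fact p.Prime]

/-! ### abstract forms -/

section abs

variable {K L : Type} [Field K] [NumberField K] [Field L] [NumberField L] [Algebra K L]

theorem HNT_abs (hL : LocalNormIndexFix p) (hodd : p ≠ 2) (hζ : ∃ ζ : K, IsPrimitiveRoot ζ p)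
    [IsGalois K L] (hdeg : finrank K L = p) (φ : L →+* Qbar) (b : Kˣ)
    (hloc : ∀ (l : Nat.Primes) (g : GQ), ¬ (Dg l g ⊓ fixG (φ.comp (algebraMap K L)) ≤ fixG φ) →
      IsNormFrom p (Dg l g ⊓ fixG (φ.comp (algebraMap K L))) (Dg l g ⊓ fixG φ)
        (φ (algebraMap K L (b : K)))) :
    ∃ y : Lˣ, normU K L y = b := by
  have hloc' := localNormHyp_of_fix hL
  have hb : cls p b ∈ NN p K L := by
    rw [← hasse_norm p K L hloc' hodd hζ hdeg, Submodule.mem_iInf]
    intro v
    obtain ⟨l, g, hat⟩ := exists_isAt (φ.comp (algebraMap K L)) v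
    by_cases hs : Dg l g ⊓ fixG (φ.comp (algebraMap K L)) ≤ fixG φ
    · rw [Nrm_eq_top_of_split hodd hζ hdeg hat hs]; trivial
    · exact (cls_mem_Nrm_iff hdeg hat hs b).2 (hloc l g hs)
  obtain ⟨_, ⟨y, rfl⟩, hy⟩ := (mem_img p).1 hb
  obtain ⟨z, hz⟩ := (cls_eq_iff p _ _).1 hy
  refine ⟨y * (Units.map (algebraMap K L : K →* L) z)⁻¹, ?_⟩
  have hNz : normU K L (Units.map (algebraMap K L : K →* L) z) = z ^ p := by
    ext
    simp [normU, Algebra.norm_algebraMap, hdeg]
  rw [map_mul, map_inv, hNz, hz]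
  simp

end abs


end

end Fermat.Agent.S55.G
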