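import Fermat.Agent.S55.G.BridgeGal

/-!
# S55/G-BridgeGrp : small group-theoretic and embedding lemmas for the bridge.
-/

open IsDedekindDomain NumberField Module

namespace Fermat.Agent.S55.G

open Fermat.Agent.S55.Places

noncomputable section

set_option linter.unusedSectionVars false


variable {p : ℕ} [Fact p.Prime]

/-! ### group theory -/

/-- `W/W1 ↪ U/U1` (order `p`), nontrivial. -/
theorem inf_normal_index {U U1 D : Subgroup GQ} (hle : U1 ≤ U) (hn : (U1.subgroupOf U).Normal)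
    (hi : (U1.subgroupOf U).index = p) (hns : ¬ (D ⊓ U ≤ U1)) :
    ((D ⊓ U1).subgroupOf (D ⊓ U)).Normal ∧ ((D ⊓ U1).subgroupOf (D ⊓ U)).index = p := by
  constructor
  · refine ⟨fun x hx w => ?_⟩
    rw [Subgroup.mem_subgroupOf] at hx ⊢
    have hxU : (x : GQ) ∈ U := x.2.2
    have hwU : (w : GQ) ∈ U := w.2.2
    have h1 := hn.conj_mem ⟨(x : GQ), hxU⟩ (Subgroup.mem_subgroupOf.2 hx.2) ⟨(w : GQ), hwU⟩
    rw [Subgroup.mem_subgroupOf] at h1
    refine ⟨?_, h1⟩
    simp only [Subgroup.coe_mul, Subgroup.coe_inv]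
    exact D.mul_mem (D.mul_mem w.2.1 hx.1) (D.inv_mem w.2.1)
  · have e1 : D ⊓ U1 = U1 ⊓ (D ⊓ U) := by
      apply le_antisymm
      · exact fun x hx => ⟨hx.2, hx.1, hle hx.2⟩
      · exact fun x hx => ⟨hx.2.1, hx.1⟩
    change (D ⊓ U1).relIndex (D ⊓ U) = p
    rw [e1, Subgroup.inf_relIndex_right]
    have h2 : (U1.subgroupOf U).relIndex ((D ⊓ U).subgroupOf U) ∣ (U1.subgroupOf U).index :=
      Subgroup.relIndex_dvd_index_of_normal _ _
    rw [Subgroup.relIndex_subgroupOf inf_le_right, hi] at h2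
    rcases (Nat.dvd_prime (Fact.out : p.Prime)).1 h2 with h3 | h3
    · exact absurd (Subgroup.relIndex_eq_one.1 h3) hns
    · exact h3

/-- multiplicativity of norms -/
theorem IsNormFrom.mul {W W1 : Subgroup GQ} (hle : W1 ≤ W) (hn : (W1.subgroupOf W).Normal)
    (hi : (W1.subgroupOf W).index = p) {b b' : Qbar} (h : IsNormFrom p W W1 b)
    (h' : IsNormFrom p W W1 b') : IsNormFrom p W W1 (b * b') := by
  obtain ⟨t, ht, ht1, c, hc, hc0, hb⟩ := h
  obtain ⟨t', ht', ht1', c', hc', hc0', hb'⟩ := h'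
  refine ⟨t, ht, ht1, c * c', mul_mem hc hc', mul_ne_zero hc0 hc0', ?_⟩
  rw [← hb, ← hb', prod_pow_eq_of_not_mem hle hn hi ht' ht1' ht ht1 hc', ← Finset.prod_mul_distrib]
  exact Finset.prod_congr rfl fun i _ => map_mul _ _ _

/-- `p`-th powers of elements of `Fix W` are norms -/
theorem IsNormFrom.of_pow {W W1 : Subgroup GQ} (hle : W1 ≤ W) (hne : ¬ W ≤ W1) {β : Qbar}
    (hβ : β ∈ Places.Fix W) (h0 : β ≠ 0) : IsNormFrom p W W1 (β ^ p) := by
  obtain ⟨t, ht, ht1⟩ := SetLike.not_le_iff_exists.1 hne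
  refine ⟨t, ht, ht1, β, Fix_anti hle hβ, h0, ?_⟩
  rw [Finset.prod_congr rfl fun i _ =>
    (IntermediateField.mem_fixedField_iff W β).1 hβ (t ^ i) (W.pow_mem ht i)]
  simp

/-- conjugation -/
theorem IsNormFrom.conj {W W1 : Subgroup GQ} {b : Qbar} (h : IsNormFrom p W W1 b) (g : GQ) :
    IsNormFrom p (W.map (MulAut.conj g).toMonoidHom) (W1.map (MulAut.conj g).toMonoidHom) (g b) := by
  obtain ⟨t, ht, ht1, c, hc, hc0, hb⟩ := h
  refine ⟨MulAut.conj g t, Subgroup.mem_map_of_mem _ ht, ?_, g c, ?_, ?_, ?_⟩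
  · intro hmem
    exact ht1 ((Subgroup.mem_map_iff_mem (MulAut.conj g).injective).1 hmem)
  · rw [Fix_conj]
    have : g⁻¹ (g c) = c := by
      rw [← AlgEquiv.mul_apply, inv_mul_cancel, AlgEquiv.one_apply]
    rwa [this]
  · simpa using hc0
  · rw [← hb, map_prod]
    refine Finset.prod_congr rfl fun i _ => ?_
    rw [← map_pow, MulAut.conj_apply, AlgEquiv.mul_apply, AlgEquiv.mul_apply,
      ← AlgEquiv.mul_apply g⁻¹, inv_mul_cancel, AlgEquiv.one_apply]

/-! ### embeddings -/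

theorem exists_embedding (L : Type) [Field L] [NumberField L] : Nonempty (L →+* Qbar) :=
  ⟨((IsAlgClosed.lift : L →ₐ[ℚ] Qbar) : L →+* Qbar)⟩

theorem IsAt.conj {L : Type} [Field L] [NumberField L] {φ : L →+* Qbar} {w : Pl L}
    {l : Nat.Primes} {g : GQ} (h : IsAt φ w l g) :
    IsAt (((g⁻¹ : GQ) : Qbar →+* Qbar).comp φ) w l 1 := by
  obtain ⟨c, hc0, hc1, hc⟩ := h
  refine ⟨c, hc0, hc1, fun x hx => ?_⟩
  rw [← hc x hx]
  simp only [nrmg, inv_one, AlgEquiv.one_apply, RingHom.comp_apply, RingHom.coe_coe]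

theorem fixG_le_ker_cycloChar {K : Type} [Field K] (ι : K →+* Qbar)
    (hζ : ∃ ζ : K, IsPrimitiveRoot ζ p) : fixG ι ≤ (ExtCitation.cycloChar p).ker := by
  obtain ⟨ζ, hζ⟩ := hζ
  intro g hg
  rw [MonoidHom.mem_ker]
  have hp1 : 1 < p := (Fact.out : p.Prime).one_lt
  have : NeZero p := ⟨(Fact.out : p.Prime).ne_zero⟩
  have : Fact (1 < p) := ⟨hp1⟩
  have hz : IsPrimitiveRoot (ι ζ) p := hζ.map_of_injective ι.injective
  have hu : IsUnit (ι ζ) := hz.isUnit (Fact.out : p.Prime).ne_zero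
  obtain ⟨t, ht⟩ := hu
  have htp : t ^ p = 1 := by
    apply Units.ext
    rw [Units.val_pow_eq_pow_val, ht, hz.pow_eq_one, Units.val_one]
  have h1 := Fermat.Agent.S55.cycloChar_spec p g t htp
  rw [ht, hg ζ] at h1
  have h2 : ((ExtCitation.cycloChar p g : (ZMod p)ˣ) : ZMod p).val = 1 := by
    refine hz.pow_inj (ZMod.val_lt _) hp1 ?_
    rw [← h1, pow_one]
  apply Units.ext
  rw [Units.val_one, ← ZMod.natCast_zmod_val ((ExtCitation.cycloChar p g : (ZMod p)ˣ) : ZMod p), h2,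
    Nat.cast_one]

theorem isOpenIn_inf_fixG {K : Type} [Field K] [NumberField K] (ι : K →+* Qbar) (H : Subgroup GQ) :
    IsOpenIn H (H ⊓ fixG ι) := by
  have := finiteDimensional_rangeNF ι
  rw [← fixingSubgroup_rangeNF]
  exact isOpenIn_inf_fixingSubgroup H (rangeNF ι)


end

end Fermat.Agent.S55.G
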