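import Fermat.Agent.S55.G.BridgeLoc
import Fermat.Agent.S55.G.BridgeGrp

/-!
# S55/G-BridgeHyp : `LocalNormHyp p` (the only hypothesis of the abstract part of [G]) follows from the
local norm index in the `Fix`-language.

Proof.  `K, L, v` given, `v` nonsplit, suppose `Nrm p K L v = ⊤`.  `w` above `v` (`exists_above`), `φ₀ : L → Qbar`
(`exists_embedding`), `(l,g)` with `IsAt φ₀ w l g` (`exists_isAt`), `φ := g⁻¹ ∘ φ₀`: `IsAt φ w l 1` (`IsAt.conj`),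
`IsAt φK v l 1` (`IsAt.comp`).  `W = Dg l 1 ⊓ fixG φK`, `W1 = Dg l 1 ⊓ fixG φ`; `¬ W ≤ fixG φ` (`nonsplit_iff`);
`W1` normal of index `p` in `W` (`inf_normal_index`, `fixG_normal`, `fixG_index`), open (`isOpenIn_inf_fixG`,
`IsOpenIn.inf_left`...), `W ≤ ker cycloChar` (`fixG_le_ker_cycloChar`).  `hL` gives `b ∈ Fix W` not a norm.
`exists_near`: `y ∈ K`, `|b/φK y - 1| < |p|^2`; `exists_pow_eq`: `b/φK y = β^p`, `β ∈ Fix W`.
`cls y ∈ Nrm = ⊤`, so `φK y` is a norm (`cls_mem_Nrm_iff`), `β^p` is a norm (`IsNormFrom.of_pow`), so `b` is a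
norm (`IsNormFrom.mul`): contradiction.
-/

open IsDedekindDomain NumberField Module

namespace Fermat.Agent.S55.G

open Fermat.Agent.S55.Places

noncomputable section

set_option linter.unusedSectionVars false


variable {p : ℕ} [Fact p.Prime]

/-! ### the local hypothesis of [G] -/

theorem localNormHyp_of_fix (hL : LocalNormIndexFix p) : LocalNormHyp p := by
  intro K L _ _ _ _ _ _ hζ hdeg v hns htop
  obtain ⟨w, hw⟩ := exists_above K L v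
  obtain ⟨φ₀⟩ := exists_embedding L
  obtain ⟨l, g, hat₀⟩ := exists_isAt φ₀ w
  obtain ⟨φ, hφ⟩ : ∃ φ : L →+* Qbar, φ = ((g⁻¹ : GQ) : Qbar →+* Qbar).comp φ₀ := ⟨_, rfl⟩
  have hat : IsAt φ w l 1 := hφ ▸ hat₀.conj
  have hatK : IsAt (φ.comp (algebraMap K L)) v l 1 := hat.comp hw
  have hnsp : ¬ (Dg l 1 ⊓ fixG (φ.comp (algebraMap K L)) ≤ fixG φ) :=
    (nonsplit_iff hdeg hw hat).1 hns
  have hle : fixG φ ≤ fixG (φ.comp (algebraMap K L)) := fixG_le φ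
  have hle' : Dg l 1 ⊓ fixG φ ≤ Dg l 1 ⊓ fixG (φ.comp (algebraMap K L)) := inf_le_inf_left _ hle
  obtain ⟨hn, hi⟩ := inf_normal_index (p := p) (D := Dg l 1) hle (fixG_normal φ)
    ((fixG_index φ).trans hdeg) hnsp
  have ho1 : IsOpenIn (Dg l 1) (Dg l 1 ⊓ fixG (φ.comp (algebraMap K L))) := isOpenIn_inf_fixG _ _
  have ho2 : IsOpenIn (Dg l 1 ⊓ fixG (φ.comp (algebraMap K L))) (Dg l 1 ⊓ fixG φ) := by
    have h1 := isOpenIn_inf_fixG φ (Dg l 1 ⊓ fixG (φ.comp (algebraMap K L)))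
    rwa [inf_assoc, inf_eq_right.2 hle] at h1
  have hμ : Dg l 1 ⊓ fixG (φ.comp (algebraMap K L)) ≤ (ExtCitation.cycloChar p).ker :=
    inf_le_right.trans (fixG_le_ker_cycloChar _ hζ)
  obtain ⟨b, hb, hb0, hbn⟩ := hL l _ _ ho1 ho2 hn hi hμ
  apply hbn
  have hp0 : ((p : ℕ) : Qbar) ≠ 0 := Nat.cast_ne_zero.2 (Fact.out : p.Prime).ne_zero
  have hppos : 0 < nrmg l 1 (p : Qbar) ^ 2 :=
    pow_pos (lt_of_le_of_ne (nrmg_nonneg l 1 _)
      (fun h => hp0 ((nrmg_eq_zero_iff l 1).1 h.symm))) 2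
  obtain ⟨y, hy0, hy⟩ := exists_near l 1 (φ.comp (algebraMap K L)) hb hb0 hppos
  have hyW : (φ.comp (algebraMap K L)) y ∈
      Places.Fix (Dg l 1 ⊓ fixG (φ.comp (algebraMap K L))) := by
    rw [mem_Fix_iff]
    intro t ht
    exact ht.2 y
  have hy0' : (φ.comp (algebraMap K L)) y ≠ 0 := (map_ne_zero _).2 hy0
  have huW : b / (φ.comp (algebraMap K L)) y ∈
      Places.Fix (Dg l 1 ⊓ fixG (φ.comp (algebraMap K L))) := div_mem hb hyW
  obtain ⟨β, hβ, hβp⟩ := exists_pow_eq l 1 (Fact.out : p.Prime) inf_le_left huW hy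
  have hβ0 : β ≠ 0 := by
    rintro rfl
    rw [zero_pow (Fact.out : p.Prime).ne_zero] at hβp
    exact div_ne_zero hb0 hy0' hβp.symm
  have h1 : IsNormFrom p (Dg l 1 ⊓ fixG (φ.comp (algebraMap K L))) (Dg l 1 ⊓ fixG φ)
      (φ (algebraMap K L ((Units.mk0 y hy0 : Kˣ) : K))) :=
    (cls_mem_Nrm_iff hdeg hatK hnsp (Units.mk0 y hy0)).1 (by rw [htop]; trivial)
  have h2 : IsNormFrom p (Dg l 1 ⊓ fixG (φ.comp (algebraMap K L))) (Dg l 1 ⊓ fixG φ) (β ^ p) :=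
    IsNormFrom.of_pow hle' (fun h => hnsp (h.trans inf_le_right)) hβ hβ0
  have h3 := IsNormFrom.mul hle' hn hi h1 h2
  rw [hβp] at h3
  have h4 : φ (algebraMap K L ((Units.mk0 y hy0 : Kˣ) : K)) * (b / (φ.comp (algebraMap K L)) y) = b :=
    mul_div_cancel₀ b hy0'
  rwa [h4] at h3


end

end Fermat.Agent.S55.G
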