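import Fermat.Agent.S55.G.BridgeGal

/-!
# S55/G-BridgeNrm : (D2) local norms.

`K`, `L` abstract number fields, `L/K` Galois of degree `p`, `φ : L →+* Qbar` an embedding,
`φK = φ ∘ algebraMap`, `U = fixG φK ⊇ U1 = fixG φ`.  `(l,g)` a place of `Qbar` inducing `v` on `K`.
`D = Dg l g`, `W = D ⊓ U`, `W1 = D ⊓ U1`, `F = Fix W` (henselisation of `K` at `v`), `F' = Fix W1`.
All imported files are black boxes.
-/

open IsDedekindDomain NumberField Module

namespace Fermat.Agent.S55.G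

open Fermat.Agent.S55.Places

noncomputable section

set_option linter.unusedSectionVars false


variable {p : ℕ} [Fact p.Prime] {K L : Type} [Field K] [NumberField K] [Field L] [NumberField L]
  [Algebra K L]

/-- (D2) local norms at a nonsplit place.
`→`: `x z^p = N(y) u`, `u ∈ Uc`: `φ N(y) = ∏ t^i φ y` (`map_norm`), `φK u = β^p = ∏ t^i β` with `β ∈ F`,
`z^p = ∏ t^i z`.   `←`: `φK x = ∏ t^i c`, `c ∈ F'`; approximate `c` by `φ y` (`exists_near` for `L`);
`|t^i (c/φ y) - 1| = |c/φ y - 1|` (`nrmg_map_of_mem_Dg`), so `|φK (x / N y) - 1|` is small. -/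
theorem cls_mem_Nrm_iff [IsGalois K L] (hdeg : finrank K L = p) {φ : L →+* Qbar} {v : Pl K}
    {l : Nat.Primes} {g : GQ} (h : IsAt (φ.comp (algebraMap K L)) v l g)
    (hns : ¬ (Dg l g ⊓ fixG (φ.comp (algebraMap K L)) ≤ fixG φ)) (x : Kˣ) :
    cls p x ∈ Nrm p K L v ↔
      IsNormFrom p (Dg l g ⊓ fixG (φ.comp (algebraMap K L))) (Dg l g ⊓ fixG φ)
        (φ (algebraMap K L (x : K))) := by
  have hp : p.Prime := Fact.out
  set φK : K →+* Qbar := φ.comp (algebraMap K L) with hφK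
  have hφKx : ∀ a : K, φ (algebraMap K L a) = φK a := fun _ => rfl
  have hfixK : ∀ (s : GQ), s ∈ fixG φK → ∀ (i : ℕ) (a : K), (s ^ i) (φK a) = φK a := by
    intro s hs i a
    exact (pow_mem hs i : s ^ i ∈ fixG φK) a
  constructor
  · intro hx
    obtain ⟨t, ⟨htD, htU⟩, ht1⟩ := SetLike.not_le_iff_exists.1 hns
    obtain ⟨a, ha, b, hb, hab⟩ := Submodule.mem_sup.1 hx
    obtain ⟨_, ⟨y, rfl⟩, rfl⟩ := (mem_img p).1 ha
    obtain ⟨u, hu, rfl⟩ := (mem_img p).1 hb
    rw [← cls_mul] at hab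
    obtain ⟨z, hz⟩ := (cls_eq_iff p _ _).1 hab.symm
    have huW : φK (u : K) ∈ Places.Fix (Dg l g ⊓ fixG φK) := by
      rw [IntermediateField.mem_fixedField_iff]
      intro f hf
      exact hf.2 _
    obtain ⟨β, hβ, hβp⟩ := exists_pow_eq l g hp (inf_le_left : Dg l g ⊓ fixG φK ≤ Dg l g) huW
      ((h.mem_Uc_iff u).1 hu)
    have hβ0 : β ≠ 0 := by
      rintro rfl
      rw [zero_pow hp.ne_zero] at hβp
      exact u.ne_zero ((map_eq_zero φK).1 hβp.symm)
    have hβfix : ∀ i : ℕ, (t ^ i) β = β := fun i =>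
      (IntermediateField.mem_fixedField_iff _ _).1 hβ _
        (pow_mem (show t ∈ Dg l g ⊓ fixG φK from ⟨htD, htU⟩) i)
    refine ⟨t, ⟨htD, htU⟩, fun h1 => ht1 h1.2, φ (y : L) * β * φK (z : K), ?_, ?_, ?_⟩
    · rw [IntermediateField.mem_fixedField_iff]
      intro f hf
      rw [map_mul, map_mul, hf.2 (y : L),
        (IntermediateField.mem_fixedField_iff _ _).1 hβ f ⟨hf.1, fixG_le φ hf.2⟩,
        (fixG_le φ hf.2 : f ∈ fixG φK) (z : K)]
    · exact mul_ne_zero (mul_ne_zero ((map_ne_zero φ).2 y.ne_zero) hβ0)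
        ((map_ne_zero φK).2 z.ne_zero)
    · simp only [map_mul]
      rw [Finset.prod_mul_distrib, Finset.prod_mul_distrib, ← map_norm hdeg φ htU ht1 (y : L)]
      simp only [hβfix, hfixK t htU]
      rw [Finset.prod_const, Finset.prod_const, Finset.card_range, hβp, hφKx, hφKx, ← map_pow,
        ← map_mul, ← map_mul, hz]
      rfl
  · rintro ⟨t, ⟨htD, htU⟩, ht1, c, hc, hc0, hprod⟩
    have ht1' : t ∉ fixG φ := fun h1 => ht1 ⟨htD, h1⟩
    have hpQ : nrmg l g (p : Qbar) ≠ 0 := by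
      rw [Ne, nrmg_eq_zero_iff]
      exact_mod_cast hp.ne_zero
    have hpos : 0 < nrmg l g (p : Qbar) ^ 2 :=
      pow_pos (lt_of_le_of_ne (nrmg_nonneg l g _) (Ne.symm hpQ)) 2
    obtain ⟨y, hy0, hy⟩ := exists_near l g φ hc hc0 (ε := min 1 (nrmg l g (p : Qbar) ^ 2))
      (lt_min one_pos hpos)
    have hN0 : Algebra.norm K y ≠ 0 := Algebra.norm_ne_zero_iff.2 hy0
    let yu : Lˣ := Units.mk0 y hy0
    let u : Kˣ := x * (normU K L yu)⁻¹
    have hucoe : (u : K) = (x : K) / Algebra.norm K y := by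
      simp [u, yu, normU, div_eq_mul_inv]
    have h1 : φK (u : K) = ∏ i ∈ Finset.range p, (t ^ i) (c / φ y) := by
      simp only [map_div₀]
      rw [Finset.prod_div_distrib, hprod, ← map_norm hdeg φ htU ht1' y, hucoe, map_div₀]
      rfl
    have h2 : nrmg l g (φK (u : K) - 1) < min 1 (nrmg l g (p : Qbar) ^ 2) := by
      rw [h1]
      refine nrmg_prod_sub_one_lt l g _ _ (lt_min one_pos hpos) (min_le_left _ _) fun i _ => ?_
      have h3 : (t ^ i) (c / φ y) - 1 = (t ^ i) (c / φ y - 1) := by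
        rw [map_sub, map_one]
      rw [h3, nrmg_map_of_mem_Dg l g (pow_mem htD i)]
      exact hy
    have hu : u ∈ Uc p K v := (h.mem_Uc_iff u).2 (lt_of_lt_of_le h2 (min_le_right _ _))
    have hx : cls p x = cls p (normU K L yu) + cls p u := by
      rw [← cls_mul]
      congr 1
      simp [u]
    rw [hx]
    exact Submodule.add_mem_sup ((mem_img p).2 ⟨_, ⟨yu, rfl⟩, rfl⟩) ((mem_img p).2 ⟨u, hu, rfl⟩)


end

end Fermat.Agent.S55.G
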