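import Fermat.Agent.S55.G.FirstIneq

open IsDedekindDomain NumberField Module

namespace Fermat.Agent.S55.G

noncomputable section

set_option linter.unusedSectionVars false
set_option linter.style.haveILetI false

variable {p : ℕ} [Fact p.Prime] {K : Type} [Field K] [NumberField K]

theorem exists_primitiveRoot_map (L : Type) [Field L] [Algebra K L]
    (hζ : ∃ ζ : K, IsPrimitiveRoot ζ p) : ∃ ζ : L, IsPrimitiveRoot ζ p := by
  obtain ⟨ζ, hζ⟩ := hζ
  exact ⟨algebraMap K L ζ, hζ.map_of_injective (algebraMap K L).injective⟩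

/-- G4 : Lemma A (auxiliary places). -/
theorem lemmaA (hloc : LocalNormHyp p) (hodd : p ≠ 2) (hζ : ∃ ζ : K, IsPrimitiveRoot ζ p)
    (S : Set (Pl K)) (hS : S.Finite) (hgood : IsGood p K S) (a : Kˣ) (haS : a ∈ S.unit K)
    (ha : cls p a ≠ 0) :
    ∃ T : Set (Pl K), T.Finite ∧ Disjoint T S ∧ (∀ v ∈ T, cls p a ∈ PP p K v) ∧
      EE p K S ⊓ ⨅ v ∈ T, PP p K v = Submodule.span (ZMod p) {cls p a} ∧
      T.ncard + 1 = finrank (ZMod p) (EE p K S) := by
  haveI := (finrank_EE p K hodd hζ S hS).1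
  set J : Set (Pl K) := {v | v ∉ S ∧ cls p a ∈ PP p K v} with hJ
  have hcodim : ∀ j ∈ J, ∀ x ∈ EE p K S, ∀ y ∈ EE p K S, x ∉ PP p K j →
      ∃ c : ZMod p, y - c • x ∈ PP p K j := by
    intro j hj x hx y hy hxj
    have h1 := OO_le_span_sup_PP p K j (fun hp => hj.1 (hgood.1 j hp)) x
      (EE_le_OO p K hj.1 hx) hxj (EE_le_OO p K hj.1 hy)
    obtain ⟨s, hs, t, ht, hst⟩ := Submodule.mem_sup.1 h1
    obtain ⟨c, rfl⟩ := Submodule.mem_span_singleton.1 hs
    exact ⟨c, by rw [← hst]; simpa using ht⟩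
  have hℓ : EE p K S ⊓ ⨅ j ∈ J, PP p K j = Submodule.span (ZMod p) {cls p a} := by
    apply le_antisymm
    · intro ξ hξ
      by_contra hξa
      obtain ⟨L, _, _, _, α, hK⟩ := exists_kummer p K hζ a ha
      obtain ⟨x, hxS, rfl⟩ := (mem_img p).1 hξ.1
      have hxL : cls p (Units.map (algebraMap K L : K →* L) x) ≠ 0 := by
        intro h0
        apply hξa
        rw [← hK.ker_mapKP hζ, LinearMap.mem_ker, mapKP_cls, h0]
      have hζL := exists_primitiveRoot_map L hζ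
      obtain ⟨M, _, _, _, β, hM⟩ := exists_kummer p L hζL _ hxL
      obtain ⟨w, hw, hwx⟩ := hM.exists_nonsplit hloc hodd hζL (above K L S) (above_finite K L S hS)
      obtain ⟨v, hv⟩ := exists_under K L w
      have hvS : v ∉ S := fun h => hw ⟨v, h, hv⟩
      apply hwx
      rw [← mapKP_cls]
      by_cases hav : cls p a ∈ PP p K v
      · have : cls p x ∈ PP p K v := mem_biInf.1 (Submodule.mem_inf.1 hξ).2 v ⟨hvS, hav⟩
        exact mapKP_mem_PP v w hv _ this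
      · have h1 := OO_le_span_sup_PP p K v (fun hp => hvS (hgood.1 v hp)) (cls p a)
          (EE_le_OO p K hvS (cls_mem_EE haS)) hav (EE_le_OO p K hvS hξ.1)
        obtain ⟨s, hs, t, ht, hst⟩ := Submodule.mem_sup.1 h1
        have hs0 : mapKP p K L s = 0 := by
          rw [← LinearMap.mem_ker, hK.ker_mapKP hζ]; exact hs
        rw [← hst, map_add, hs0, zero_add]
        exact mapKP_mem_PP v w hv _ ht
    · rw [Submodule.span_singleton_le_iff_mem]
      exact Submodule.mem_inf.2 ⟨cls_mem_EE haS, mem_biInf.2 fun j hj => hj.2⟩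
  obtain ⟨T, hTJ, hTfin, hT, hcard⟩ := la_select (EE p K S) _ (PP p K) J hcodim hℓ
  refine ⟨T, hTfin, ?_, fun v hv => (hTJ hv).2, hT, ?_⟩
  · rw [Set.disjoint_left]; exact fun v hv => (hTJ hv).1
  · rw [← hcard, finrank_span_singleton ha]

/-- G5 : injectivity. -/
theorem inj_of_lemmaA (hloc : LocalNormHyp p) (hodd : p ≠ 2) (hζ : ∃ ζ : K, IsPrimitiveRoot ζ p)
    (S : Set (Pl K)) (hS : S.Finite) (hgood : IsGood p K S) (a : Kˣ) (ha : cls p a ≠ 0)
    (T : Set (Pl K)) (hT : T.Finite) (hdisj : Disjoint T S)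
    (hTa : EE p K S ⊓ ⨅ v ∈ T, PP p K v = Submodule.span (ZMod p) {cls p a})
    (hcard : T.ncard + 1 = finrank (ZMod p) (EE p K S)) :
    EE p K (S ∪ T) ⊓ ⨅ v ∈ S, PP p K v = ⊥ := by
  haveI := (finrank_EE p K hodd hζ S hS).1
  rw [eq_bot_iff]
  intro ξ hξ
  by_contra hξ0
  obtain ⟨u, huS, rfl⟩ := (mem_img p).1 hξ.1
  have hu0 : cls p u ≠ 0 := hξ0
  obtain ⟨K', _, _, _, β, hK'⟩ := exists_kummer p K hζ u hu0
  haveI := hK'.galois
  have hgood' : IsGood p K (S ∪ T) := hgood.mono p K Set.subset_union_left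
  refine first_inequality p K K' hloc hodd hζ hK'.deg (S ∪ T) (hS.union hT) hgood'
    (hK'.unram_outside hζ hgood' huS) ?_
  have hnotS : ∀ v ∈ T, v ∉ S := fun v hv => Set.disjoint_left.1 hdisj hv
  -- step 0
  have h0 : ⨅ v ∈ T, PP p K v ≤ ⨅ v ∈ S ∪ T, Nrm p K K' v := by
    refine le_iInf₂ fun v hv => ?_
    by_cases hvS : v ∈ S
    · have : cls p u ∈ PP p K v := mem_biInf.1 (Submodule.mem_inf.1 hξ).2 v hvS
      rw [hK'.Nrm_eq_top hodd v this]; exact le_top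
    · exact (iInf₂_le v (hv.resolve_left hvS)).trans (PP_le_Nrm p K K' v)
  -- step 1
  choose! e he using hgood.2
  have h1 : Submodule.span (ZMod p) ((fun v => cls p (e v)) '' T) ⊔ ⨅ v ∈ T, OO p K v = ⊤ := by
    refine la_diag (OO p K) (fun v => cls p (e v)) T hT ?_ ?_
    · exact fun v hv => span_sup_OO_eq_top p K v (e v) (he v (hnotS v hv)).1
    · intro i hi j hj hij
      exact (mem_img p).2 ⟨e i, (he i (hnotS i hi)).2 j (hnotS j hj) (Ne.symm hij), rfl⟩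
  have h1' : Submodule.span (ZMod p) ((fun v => cls p (e v)) '' T) ≤ EE p K (S ∪ T) := by
    rw [Submodule.span_le]
    rintro _ ⟨v, hv, rfl⟩
    refine cls_mem_EE ?_
    intro v' hv'
    have hv'S : v' ∉ S := fun h => hv' (Or.inl h)
    have hne : v' ≠ v := fun h => hv' (Or.inr (h ▸ hv))
    exact (he v (hnotS v hv)).2 v' hv'S hne
  -- step 2
  have h2 : ⨅ v ∈ T, OO p K v ≤ EE p K S ⊔ ⨅ v ∈ T, PP p K v := by
    refine la_surj_count (EE p K S) (OO p K) (PP p K) T hT (fun v _ => PP_le_OO p K v)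
      (fun v hv => EE_le_OO p K (hnotS v hv)) ?_ ?_
    · intro v hv x hx hx'
      exact OO_le_span_sup_PP p K v (fun hp => hnotS v hv (hgood.1 v hp)) x hx hx'
    · rw [hTa, finrank_span_singleton ha, ← hcard, add_comm]
  rw [eq_top_iff, ← h1]
  refine sup_le (h1'.trans le_sup_left) (h2.trans (sup_le ?_ (h0.trans le_sup_right)))
  exact (EE_mono p K Set.subset_union_left).trans le_sup_left

variable {L : Type} [Field L] [NumberField L] [Algebra K L]

/-- G6 : the second inequality. -/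
theorem IsKummer.second_inequality (hloc : LocalNormHyp p) (hodd : p ≠ 2)
    (hζ : ∃ ζ : K, IsPrimitiveRoot ζ p) {a : Kˣ} {α : Lˣ} (h : IsKummer p K L a α)
    (S : Set (Pl K)) (hS : S.Finite) (hgood : IsGood p K S) (haS : a ∈ S.unit K) :
    ∃ S' : Set (Pl K), S ⊆ S' ∧ S'.Finite ∧ IsGood p K S' ∧
      finrank (ZMod p) (KP p K ⧸ (EE p K S' ⊔ ⨅ v ∈ S', Nrm p K L v)) ≤ 1 := by
  obtain ⟨T, hT, hdisj, hTa, hTE, hcard⟩ := lemmaA hloc hodd hζ S hS hgood a haS h.ne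
  have hinj := inj_of_lemmaA hloc hodd hζ S hS hgood a h.ne T hT hdisj hTE hcard
  refine ⟨S ∪ T, Set.subset_union_left, hS.union hT, hgood.mono p K Set.subset_union_left, ?_⟩
  obtain ⟨hf1, hd1⟩ := finrank_EE p K hodd hζ S hS
  obtain ⟨hf2, hd2⟩ := finrank_EE p K hodd hζ (S ∪ T) (hS.union hT)
  obtain ⟨hf3, hd3⟩ := finrank_quot_iInf_PP_le p K hodd hζ S hS hgood.1
  have hun : (S ∪ T).ncard = S.ncard + T.ncard :=
    Set.ncard_union_eq hdisj.symm hS hT
  have hsec := la_second (EE p K (S ∪ T)) (⨅ v ∈ S, PP p K v) hinj (by omega)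
  have hle : EE p K (S ∪ T) ⊔ ⨅ v ∈ S, PP p K v ≤
      EE p K (S ∪ T) ⊔ ⨅ v ∈ S ∪ T, Nrm p K L v := by
    refine sup_le_sup le_rfl (le_iInf₂ fun v hv => ?_)
    by_cases hvS : v ∈ S
    · exact (iInf₂_le v hvS).trans (PP_le_Nrm p K L v)
    · rw [h.Nrm_eq_top hodd v (hTa v (hv.resolve_left hvS))]; exact le_top
  haveI : FiniteDimensional (ZMod p) (KP p K ⧸ (EE p K (S ∪ T) ⊔ ⨅ v ∈ S, PP p K v)) :=
    (la_finrank_quot_mono _ _ (le_sup_right)).1
  exact ((la_finrank_quot_mono _ _ hle).2).trans hsec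

variable (p K L)

/-- G7 : THE HASSE NORM THEOREM (dense form). -/
theorem hasse_norm (hloc : LocalNormHyp p) (hodd : p ≠ 2) (hζ : ∃ ζ : K, IsPrimitiveRoot ζ p)
    [IsGalois K L] (hdeg : finrank K L = p) : ⨅ v, Nrm p K L v = NN p K L := by
  apply le_antisymm
  · intro ξ hξ
    obtain ⟨b, rfl⟩ := cls_surjective p ξ
    obtain ⟨a, α, h⟩ := exists_isKummer p K L hζ hdeg
    obtain ⟨S, hS₀, hS, hgood⟩ := exists_good p K
      ({v : Pl K | v.valuation K (a : K) ≠ 1} ∪ {v : Pl K | v.valuation K (b : K) ≠ 1})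
      ((finite_support K a).union (finite_support K b))
    have haS : a ∈ S.unit K := mem_unit_of_support (fun v hv => hS₀ (Or.inl hv))
    have hbS : b ∈ S.unit K := mem_unit_of_support (fun v hv => hS₀ (Or.inr hv))
    obtain ⟨S', hSS', hS', hgood', h2⟩ := h.second_inequality hloc hodd hζ S hS hgood haS
    have haS' : a ∈ S'.unit K := fun v hv => haS v (fun h => hv (hSS' h))
    haveI := (finrank_EE p K hodd hζ S' hS').1
    haveI := finiteDimensional_quot_iInf_Nrm p K L hodd hζ S' hS'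
    have key := la_hnt (EE p K S') (⨅ v ∈ S', Nrm p K L v) (NNS p K L S')
      ({v ∈ S' | Nonsplit K L v}.ncard) (NNS_le_inf p K L S')
      (finrank_NNS p K L hodd hζ hdeg S' hS' hgood' (h.unram_outside hζ hgood' haS')).symm
      (ncard_nonsplit_le p K L hloc hodd hζ hdeg S' hS') h2
    apply NNS_le_NN p K L S'
    rw [← key]
    exact Submodule.mem_inf.2 ⟨EE_mono p K hSS' (cls_mem_EE hbS),
      mem_biInf.2 fun v _ => (Submodule.mem_iInf _).1 hξ v⟩
  · exact le_iInf fun v => NN_le_Nrm p K L v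

/-- (SI) : the second inequality in the form used for (bt). -/
theorem second_inequality_SI (hloc : LocalNormHyp p) (hodd : p ≠ 2)
    (hζ : ∃ ζ : K, IsPrimitiveRoot ζ p) [IsGalois K L] (hdeg : finrank K L = p)
    (S0 : Set (Pl K)) (hS0 : S0.Finite) :
    FiniteDimensional (ZMod p) (KP p K ⧸ ((⨅ v ∈ S0ᶜ, Nrm p K L v) ⊔ (⨅ v ∈ S0, Nrm p K L v))) ∧
    finrank (ZMod p) (KP p K ⧸ ((⨅ v ∈ S0ᶜ, Nrm p K L v) ⊔ (⨅ v ∈ S0, Nrm p K L v))) ≤ 1 := by
  haveI := finiteDimensional_quot_iInf_Nrm p K L hodd hζ S0 hS0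
  refine ⟨(la_finrank_quot_mono _ _ le_sup_right).1, ?_⟩
  obtain ⟨a, α, h⟩ := exists_isKummer p K L hζ hdeg
  obtain ⟨S, hS₀, hS, hgood⟩ := exists_good p K
    ({v : Pl K | v.valuation K (a : K) ≠ 1} ∪ S0) ((finite_support K a).union hS0)
  have haS : a ∈ S.unit K := mem_unit_of_support (fun v hv => hS₀ (Or.inl hv))
  obtain ⟨S', hSS', hS', hgood', h2⟩ := h.second_inequality hloc hodd hζ S hS hgood haS
  have haS' : a ∈ S'.unit K := fun v hv => haS v (fun h => hv (hSS' h))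
  have hS0S' : S0 ⊆ S' := fun v hv => hSS' (hS₀ (Or.inr hv))
  have hXY : (⨅ v ∈ S0, Nrm p K L v) ⊓ (⨅ v ∈ S' \ S0, Nrm p K L v) = ⨅ v ∈ S', Nrm p K L v := by
    rw [← iInf_union, Set.union_sdiff_cancel hS0S']
  haveI : FiniteDimensional (ZMod p)
      (KP p K ⧸ ((⨅ v ∈ S0, Nrm p K L v) ⊓ (⨅ v ∈ S' \ S0, Nrm p K L v))) := by
    rw [hXY]; exact finiteDimensional_quot_iInf_Nrm p K L hodd hζ S' hS'
  refine la_si (⨅ v ∈ S0, Nrm p K L v) (⨅ v ∈ S' \ S0, Nrm p K L v) (⨅ v ∈ S0ᶜ, Nrm p K L v)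
    (EE p K S') ?_ ?_ (by rw [hXY]; exact h2)
  · have := la_sup_eq_top_of_indep (PP p K) S0 (S' \ S0)
      (by rw [Set.union_sdiff_cancel hS0S']; exact weak_approx p K S' hS') Set.disjoint_sdiff_right
    rw [eq_top_iff, ← this]
    exact sup_le_sup (iInf₂_mono fun v _ => PP_le_Nrm p K L v)
      (iInf₂_mono fun v _ => PP_le_Nrm p K L v)
  · intro ξ hξ
    refine mem_biInf.2 fun v hv => ?_
    by_cases hvS' : v ∈ S'
    · exact mem_biInf.1 (Submodule.mem_inf.1 hξ).2 v ⟨hvS', hv⟩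
    · exact h.OO_le_Nrm hodd v (fun hp => hvS' (hgood'.1 v hp))
        (EE_le_OO p K hvS' (cls_mem_EE haS')) (EE_le_OO p K hvS' hξ.1)

end

end Fermat.Agent.S55.G
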