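import Fermat.Agent.S55.G.BridgePP
import Fermat.Agent.S55.G.BridgeSplit
import Fermat.Agent.S55.G.BridgeNrm
import Fermat.Agent.S55.G.Main

/-!
# S55/G-BridgeLoc : (D3) split places.

`K`, `L` abstract number fields, `L/K` Galois of degree `p`, `φ : L →+* Qbar` an embedding,
`φK = φ ∘ algebraMap`, `U = fixG φK ⊇ U1 = fixG φ`.  `(l,g)` a place of `Qbar` inducing `v` on `K`.
`D = Dg l g`, `W = D ⊓ U`, `W1 = D ⊓ U1`, `F = Fix W` (henselisation of `K` at `v`), `F' = Fix W1`.
All imported files are black boxes.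
-/

open IsDedekindDomain NumberField Module

namespace Fermat.Agent.S55.G

open Fermat.Agent.S55.Places

noncomputable section

set_option linter.unusedSectionVars false


variable {p : ℕ} [Fact p.Prime] {K L : Type} [Field K] [NumberField K] [Field L] [NumberField L]
  [Algebra K L]

/-- (D3) split places: a Kummer generator `α` lies in `φ⁻¹ F`, so `a` is a local `p`-th power
(`cls_mem_PP_iff`), and `IsKummer.Nrm_eq_top` applies. -/
theorem Nrm_eq_top_of_split (hodd : p ≠ 2) (hζ : ∃ ζ : K, IsPrimitiveRoot ζ p) [IsGalois K L]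
    (hdeg : finrank K L = p) {φ : L →+* Qbar} {v : Pl K} {l : Nat.Primes} {g : GQ}
    (h : IsAt (φ.comp (algebraMap K L)) v l g)
    (hs : Dg l g ⊓ fixG (φ.comp (algebraMap K L)) ≤ fixG φ) : Nrm p K L v = ⊤ := by
  obtain ⟨a, α, hK⟩ := exists_isKummer p K L hζ hdeg
  refine hK.Nrm_eq_top hodd v ((cls_mem_PP_iff h a).2 ⟨φ (α : L), ?_, ?_⟩)
  · rw [mem_Fix_iff]
    intro t ht
    exact hs ht (α : L)
  · rw [← map_pow, hK.pow]; rfl

end

end Fermat.Agent.S55.G
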