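import Fermat.Agent.S55.G.BridgeGal

/-!
# S55/G-BridgePP : (D1) local `p`-th powers.

`K`, `L` abstract number fields, `L/K` Galois of degree `p`, `φ : L →+* Qbar` an embedding,
`φK = φ ∘ algebraMap`, `U = fixG φK ⊇ U1 = fixG φ`.  `(l,g)` a place of `Qbar` inducing `v` on `K`.
`D = Dg l g`, `W = D ⊓ U`, `W1 = D ⊓ U1`, `F = Fix W` (henselisation of `K` at `v`), `F' = Fix W1`.
All imported files are black boxes.
-/

open IsDedekindDomain NumberField Module

namespace Fermat.Agent.S55.G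

open Fermat.Agent.S55.Places

noncomputable section

set_option linter.unusedSectionVars false


variable {p : ℕ} [Fact p.Prime] {K L : Type} [Field K] [NumberField K] [Field L] [NumberField L]
  [Algebra K L]

/-- the image of `ι` lies in every `Fix (H ⊓ fixG ι)`. -/
theorem map_mem_Fix_inf (ι : K →+* Qbar) (H : Subgroup GQ) (x : K) :
    ι x ∈ Places.Fix (H ⊓ fixG ι) := by
  rw [IntermediateField.mem_fixedField_iff]
  intro s hs
  exact hs.2 x

/-- (D1) local `p`-th powers.  `→`: `x y^p = u ∈ Uc`, `ι u = β^p` with `β ∈ F` (`exists_pow_eq`).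
`←`: approximate `β` by `ι y` (`exists_near`): `|ι (x / y^p) - 1| = |(β/ι y)^p - 1|` is small
(`nrmg_prod_sub_one_lt`). -/
theorem cls_mem_PP_iff {ι : K →+* Qbar} {v : Pl K} {l : Nat.Primes} {g : GQ} (h : IsAt ι v l g)
    (x : Kˣ) : cls p x ∈ PP p K v ↔ ∃ β ∈ Places.Fix (Dg l g ⊓ fixG ι), β ^ p = ι (x : K) := by
  have hp : p.Prime := Fact.out
  unfold PP
  rw [cls_mem_img]
  constructor
  · rintro ⟨y, hy⟩
    rw [h.mem_Uc_iff] at hy
    obtain ⟨α, hα, hαp⟩ := exists_pow_eq l g hp (W := Dg l g ⊓ fixG ι) inf_le_left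
      (map_mem_Fix_inf ι _ _) hy
    have hy0 : ι (y : K) ≠ 0 := by
      rw [Ne, map_eq_zero]
      exact y.ne_zero
    refine ⟨α / ι (y : K), div_mem hα (map_mem_Fix_inf ι _ _), ?_⟩
    rw [div_pow, hαp, Units.val_mul, Units.val_pow_eq_pow_val, map_mul, map_pow,
      mul_div_assoc, div_self (pow_ne_zero p hy0), mul_one]
  · rintro ⟨β, hβ, hβp⟩
    have hx0 : ι (x : K) ≠ 0 := by
      rw [Ne, map_eq_zero]
      exact x.ne_zero
    have hβ0 : β ≠ 0 := by
      rintro rfl
      rw [zero_pow hp.ne_zero] at hβp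
      exact hx0 hβp.symm
    have hpos : 0 < nrmg l g (p : Qbar) ^ 2 := by
      have h1 : nrmg l g (p : Qbar) ≠ 0 := by
        rw [Ne, nrmg_eq_zero_iff]
        exact Nat.cast_ne_zero.2 hp.ne_zero
      exact pow_pos (lt_of_le_of_ne (nrmg_nonneg l g _) h1.symm) 2
    obtain ⟨y, hy0, hy⟩ := exists_near l g ι hβ hβ0 (ε := min 1 (nrmg l g (p : Qbar) ^ 2))
      (lt_min one_pos hpos)
    refine ⟨(Units.mk0 y hy0)⁻¹, ?_⟩
    rw [h.mem_Uc_iff]
    have h1 := nrmg_prod_sub_one_lt l g (Finset.range p) (fun _ => β / ι y)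
      (lt_min one_pos hpos) (min_le_left _ _) (fun _ _ => hy)
    rw [Finset.prod_const, Finset.card_range, div_pow, hβp] at h1
    have h2 : ι ((x * (Units.mk0 y hy0)⁻¹ ^ p : Kˣ) : K) = ι (x : K) / ι y ^ p := by
      rw [Units.val_mul, Units.val_pow_eq_pow_val, Units.val_inv_eq_inv_val, Units.val_mk0,
        map_mul, map_pow, map_inv₀, inv_pow, div_eq_mul_inv]
    rw [h2]
    exact h1.trans_le (min_le_right _ _)

end

end Fermat.Agent.S55.G
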