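import Mathlib

/-!
# S55 / [G] truncated Kummer class field theory : definitions

Everything happens in the (infinite dimensional) `𝔽_p`-vector space `KP p K = K^×/(K^×)^p`
of an abstract number field `K`.  All the objects of classical (idelic) class field theory for
extensions of exponent `p` are *subspaces* of `KP p K`:

* `PP p K v`  : classes of elements which are `p`-th powers in the completion/henselisation at `v`
               (defined by a congruence, no local field involved);
* `OO p K v`  : classes with `p ∣ ord_v`;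
* `EE p K S`  : classes of `S`-units;
* `NN p K L`  : classes of norms from `L`;
* `NNS p K L S` : classes of norms of `S`-units of `L`;
* `Nrm p K L v = NN ⊔ PP v` : classes of local norms at `v`.
-/

open IsDedekindDomain NumberField

namespace Fermat.Agent.S55.G

noncomputable section

set_option linter.unusedSectionVars false

/-- finite places of a number field -/
abbrev Pl (K : Type) [Field K] [NumberField K] := HeightOneSpectrum (𝓞 K)

/-- `K^×/(K^×)^p`, written additively. -/
def KP (p : ℕ) (K : Type) [Field K] : Type :=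
  Additive (Kˣ ⧸ (powMonoidHom p : Kˣ →* Kˣ).range)

instance KP.addCommGroup (p : ℕ) (K : Type) [Field K] : AddCommGroup (KP p K) :=
  inferInstanceAs (AddCommGroup (Additive (Kˣ ⧸ (powMonoidHom p : Kˣ →* Kˣ).range)))

/-- the class map `K^× → K^×/p` as a homomorphism to the additive group. -/
def clsHom (p : ℕ) (K : Type) [Field K] : Additive Kˣ →+ KP p K :=
  MonoidHom.toAdditive (QuotientGroup.mk' (powMonoidHom p : Kˣ →* Kˣ).range)

theorem clsHom_surjective (p : ℕ) (K : Type) [Field K] : Function.Surjective (clsHom p K) := by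
  intro x
  obtain ⟨y, hy⟩ :=
    QuotientGroup.mk'_surjective (powMonoidHom p : Kˣ →* Kˣ).range (Additive.toMul x)
  exact ⟨Additive.ofMul y, hy⟩

theorem KP_nsmul (p : ℕ) (K : Type) [Field K] (x : KP p K) : p • x = 0 := by
  obtain ⟨y, rfl⟩ := clsHom_surjective p K x
  rw [← map_nsmul]
  have : ((Additive.toMul y ^ p : Kˣ) : Kˣ ⧸ (powMonoidHom p : Kˣ →* Kˣ).range) = 1 :=
    (QuotientGroup.eq_one_iff _).2 ⟨Additive.toMul y, rfl⟩
  exact this

instance KP.module (p : ℕ) (K : Type) [Field K] : Module (ZMod p) (KP p K) :=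
  AddCommGroup.zmodModule (KP_nsmul p K)

/-- the class of `x ∈ K^×` in `K^×/p`. -/
def cls (p : ℕ) {K : Type} [Field K] (x : Kˣ) : KP p K :=
  clsHom p K (Additive.ofMul x)

section cls

variable (p : ℕ) {K : Type} [Field K]

theorem cls_surjective : Function.Surjective (cls p : Kˣ → KP p K) := by
  intro x
  obtain ⟨y, rfl⟩ := clsHom_surjective p K x
  exact ⟨Additive.toMul y, rfl⟩

@[simp] theorem cls_one : cls p (1 : Kˣ) = 0 := map_zero (clsHom p K)

@[simp] theorem cls_mul (x y : Kˣ) : cls p (x * y) = cls p x + cls p y :=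
  map_add (clsHom p K) (Additive.ofMul x) (Additive.ofMul y)

@[simp] theorem cls_inv (x : Kˣ) : cls p x⁻¹ = - cls p x :=
  map_neg (clsHom p K) (Additive.ofMul x)

@[simp] theorem cls_div (x y : Kˣ) : cls p (x / y) = cls p x - cls p y :=
  map_sub (clsHom p K) (Additive.ofMul x) (Additive.ofMul y)

theorem cls_pow (x : Kˣ) (n : ℕ) : cls p (x ^ n) = n • cls p x :=
  map_nsmul (clsHom p K) n (Additive.ofMul x)

theorem cls_zpow (x : Kˣ) (n : ℤ) : cls p (x ^ n) = n • cls p x :=
  map_zsmul (clsHom p K) n (Additive.ofMul x)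

theorem cls_eq_zero_iff (x : Kˣ) : cls p x = 0 ↔ ∃ y : Kˣ, y ^ p = x :=
  (QuotientGroup.eq_one_iff (N := (powMonoidHom p : Kˣ →* Kˣ).range) x)

theorem cls_eq_iff (x y : Kˣ) : cls p x = cls p y ↔ ∃ z : Kˣ, x = y * z ^ p := by
  rw [← sub_eq_zero, ← cls_div, cls_eq_zero_iff]
  constructor
  · rintro ⟨z, hz⟩; exact ⟨z, by rw [hz]; simp⟩
  · rintro ⟨z, hz⟩; exact ⟨z, by rw [hz]; simp⟩

theorem zmod_smul_cls (n : ℕ) (x : Kˣ) : (n : ZMod p) • cls p x = cls p (x ^ n) := by
  rw [cls_pow, Nat.cast_smul_eq_nsmul]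

end cls

/-- the subspace of `K^×/p` which is the image of a subgroup of `K^×`. -/
def img (p : ℕ) {K : Type} [Field K] (H : Subgroup Kˣ) : Submodule (ZMod p) (KP p K) :=
  AddSubgroup.toZModSubmodule p ((Subgroup.toAddSubgroup H).map (clsHom p K))

theorem mem_img (p : ℕ) {K : Type} [Field K] {H : Subgroup Kˣ} {ξ : KP p K} :
    ξ ∈ img p H ↔ ∃ x ∈ H, cls p x = ξ := by
  constructor
  · rintro ⟨x, hx, rfl⟩; exact ⟨Additive.toMul x, hx, rfl⟩
  · rintro ⟨x, hx, rfl⟩; exact ⟨Additive.ofMul x, hx, rfl⟩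

theorem cls_mem_img (p : ℕ) {K : Type} [Field K] {H : Subgroup Kˣ} {x : Kˣ} :
    cls p x ∈ img p H ↔ ∃ y : Kˣ, x * y ^ p ∈ H := by
  rw [mem_img]
  constructor
  · rintro ⟨z, hz, h⟩
    obtain ⟨y, hy⟩ := (cls_eq_iff p z x).1 h
    exact ⟨y, hy ▸ hz⟩
  · rintro ⟨y, hy⟩
    exact ⟨_, hy, (cls_eq_iff p _ _).2 ⟨y, rfl⟩⟩

theorem img_mono (p : ℕ) {K : Type} [Field K] {H H' : Subgroup Kˣ} (h : H ≤ H') :
    img p H ≤ img p H' := by
  intro ξ hξ
  obtain ⟨x, hx, rfl⟩ := (mem_img p).1 hξ
  exact (mem_img p).2 ⟨x, h hx, rfl⟩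

theorem mem_biInf {R M ι : Type*} [Semiring R] [AddCommMonoid M] [Module R M] {s : Set ι}
    {P : ι → Submodule R M} {x : M} : x ∈ ⨅ i ∈ s, P i ↔ ∀ i ∈ s, x ∈ P i := by
  simp [Submodule.mem_iInf]

/-- functoriality of `K^×/p` in the field. -/
def mapKP (p : ℕ) (K L : Type) [Field K] [Field L] [Algebra K L] : KP p K →ₗ[ZMod p] KP p L :=
  AddMonoidHom.toZModLinearMap p
    (show KP p K →+ KP p L from MonoidHom.toAdditive
      (QuotientGroup.map (powMonoidHom p : Kˣ →* Kˣ).range (powMonoidHom p : Lˣ →* Lˣ).range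
        (Units.map (algebraMap K L : K →* L))
        (by rintro _ ⟨x, rfl⟩; exact ⟨Units.map (algebraMap K L : K →* L) x, by simp⟩)))

@[simp] theorem mapKP_cls (p : ℕ) (K L : Type) [Field K] [Field L] [Algebra K L] (x : Kˣ) :
    mapKP p K L (cls p x) = cls p (Units.map (algebraMap K L : K →* L) x) := rfl

section places

variable (p : ℕ) [Fact p.Prime] (K : Type) [Field K] [NumberField K]

omit [Fact p.Prime] in
theorem val_p_le_one (v : Pl K) : v.valuation K (p : K) ≤ 1 := by
  have := v.valuation_le_one (K := K) (p : 𝓞 K)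
  simpa using this

omit [Fact p.Prime] in
theorem val_p_sq_le_one (v : Pl K) : (v.valuation K (p : K)) ^ 2 ≤ 1 :=
  pow_le_one₀ zero_le (val_p_le_one p K v)

theorem val_p_ne_zero (v : Pl K) : v.valuation K (p : K) ≠ 0 :=
  (Valuation.ne_zero_iff _).2 (Nat.cast_ne_zero.2 (Fact.out : p.Prime).ne_zero)

theorem val_eq_one_of_sub_lt (v : Pl K) {t : K} (h : v.valuation K (t - 1) < 1) :
    v.valuation K t = 1 := by
  have := Valuation.map_add_eq_of_lt_left (v.valuation K) (x := 1) (y := t - 1) (by simpa using h)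
  simpa using this

/-- `{t ∈ K^× : |t - 1|_v < |p|_v ^ 2}` -/
def Uc (v : Pl K) : Subgroup Kˣ where
  carrier := {t | v.valuation K ((t : K) - 1) < (v.valuation K (p : K)) ^ 2}
  one_mem' := by
    simp only [Set.mem_ofPred_eq, Units.val_one, sub_self, map_zero]
    exact pow_pos (zero_lt_iff.2 (val_p_ne_zero p K v)) 2
  mul_mem' := by
    intro a b ha hb
    simp only [Set.mem_ofPred_eq] at ha hb ⊢
    have hb1 : v.valuation K (b : K) = 1 :=
      val_eq_one_of_sub_lt K v (lt_of_lt_of_le hb (val_p_sq_le_one p K v))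
    have : ((a * b : Kˣ) : K) - 1 = ((a : K) - 1) * b + ((b : K) - 1) := by push_cast; ring
    rw [this]
    refine lt_of_le_of_lt (Valuation.map_add _ _ _) (max_lt ?_ hb)
    rw [map_mul, hb1, mul_one]; exact ha
  inv_mem' := by
    intro a ha
    simp only [Set.mem_ofPred_eq] at ha ⊢
    have ha1 : v.valuation K (a : K) = 1 :=
      val_eq_one_of_sub_lt K v (lt_of_lt_of_le ha (val_p_sq_le_one p K v))
    have : ((a⁻¹ : Kˣ) : K) - 1 = -(((a : K) - 1) * (a : K)⁻¹) := by
      have : (a : K) ≠ 0 := a.ne_zero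
      push_cast; field_simp; ring
    rw [this, Valuation.map_neg, map_mul, map_inv₀, ha1, inv_one, mul_one]; exact ha

theorem mem_Uc {v : Pl K} {t : Kˣ} :
    t ∈ Uc p K v ↔ v.valuation K ((t : K) - 1) < (v.valuation K (p : K)) ^ 2 := Iff.rfl

/-- `v`-adic units of `K^×`. -/
def Uv (v : Pl K) : Subgroup Kˣ where
  carrier := {t | v.valuation K (t : K) = 1}
  one_mem' := by simp
  mul_mem' := by
    intro a b ha hb
    simp only [Set.mem_ofPred_eq] at ha hb ⊢
    simp [ha, hb]
  inv_mem' := by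
    intro a ha
    simp only [Set.mem_ofPred_eq] at ha ⊢
    simp [ha]

theorem mem_Uv {v : Pl K} {t : Kˣ} : t ∈ Uv K v ↔ v.valuation K (t : K) = 1 := Iff.rfl

/-- classes of local `p`-th powers at `v`. -/
def PP (v : Pl K) : Submodule (ZMod p) (KP p K) := img p (Uc p K v)

/-- classes with `p ∣ ord_v`. -/
def OO (v : Pl K) : Submodule (ZMod p) (KP p K) := img p (Uv K v)

/-- classes of `S`-units. -/
def EE (S : Set (Pl K)) : Submodule (ZMod p) (KP p K) := img p (S.unit K)

/-- `v` divides `p`. -/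
def AboveP (v : Pl K) : Prop := (p : 𝓞 K) ∈ v.asIdeal

/-- `S` is `K`-good: it contains the places above `p`, and every place outside `S` has a
uniformiser which is a unit at all the other places outside `S`. -/
def IsGood (S : Set (Pl K)) : Prop :=
  (∀ v : Pl K, AboveP p K v → v ∈ S) ∧
  ∀ v ∉ S, ∃ x : Kˣ, v.valuation K (x : K) = WithZero.exp (-1 : ℤ) ∧
    ∀ v' ∉ S, v' ≠ v → v'.valuation K (x : K) = 1

theorem Uc_le_Uv (v : Pl K) : Uc p K v ≤ Uv K v := fun _ ht =>
  val_eq_one_of_sub_lt K v (lt_of_lt_of_le ht (val_p_sq_le_one p K v))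

theorem PP_le_OO (v : Pl K) : PP p K v ≤ OO p K v := img_mono p (Uc_le_Uv p K v)

theorem EE_mono {S S' : Set (Pl K)} (h : S ⊆ S') : EE p K S ≤ EE p K S' :=
  img_mono p (fun _ hx v hv => hx v (fun hv' => hv (h hv')))

theorem EE_le_OO {S : Set (Pl K)} {v : Pl K} (hv : v ∉ S) : EE p K S ≤ OO p K v :=
  img_mono p (fun _ hx => hx v hv)

theorem cls_mem_PP {v : Pl K} {x : Kˣ} :
    cls p x ∈ PP p K v ↔
      ∃ y : Kˣ, v.valuation K ((x : K) * (y : K) ^ p - 1) < (v.valuation K (p : K)) ^ 2 := by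
  unfold PP
  rw [cls_mem_img]
  simp [mem_Uc]

end places

section extension

variable (p : ℕ) [Fact p.Prime] (K : Type) [Field K] [NumberField K]
  (L : Type) [Field L] [NumberField L] [Algebra K L]

/-- the norm `L^× → K^×`. -/
def normU : Lˣ →* Kˣ := Units.map (Algebra.norm K : L →* K)

/-- classes of global norms. -/
def NN : Submodule (ZMod p) (KP p K) := img p (normU K L).range

/-- the places of `L` above a set of places of `K`. -/
def above (S : Set (Pl K)) : Set (Pl L) := {w | ∃ v ∈ S, w.asIdeal.LiesOver v.asIdeal}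

/-- classes of norms of `S`-units of `L`. -/
def NNS (S : Set (Pl K)) : Submodule (ZMod p) (KP p K) :=
  img p (((above K L S).unit L).map (normU K L))

/-- classes of local norms at `v`. -/
def Nrm (v : Pl K) : Submodule (ZMod p) (KP p K) := NN p K L ⊔ PP p K v

/-- `v` has exactly one place of `L` above it. -/
def Nonsplit (v : Pl K) : Prop :=
  ∀ w w' : Pl L, w.asIdeal.LiesOver v.asIdeal → w'.asIdeal.LiesOver v.asIdeal → w = w'

/-- `L/K` is unramified at `v` (same value groups). -/
def Unram (v : Pl K) : Prop :=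
  ∀ w : Pl L, w.asIdeal.LiesOver v.asIdeal →
    ∀ x : K, w.valuation L (algebraMap K L x) = v.valuation K x

theorem NNS_le_NN (S : Set (Pl K)) : NNS p K L S ≤ NN p K L :=
  img_mono p (by rintro _ ⟨x, _, rfl⟩; exact ⟨x, rfl⟩)

theorem NN_le_Nrm (v : Pl K) : NN p K L ≤ Nrm p K L v := le_sup_left

theorem PP_le_Nrm (v : Pl K) : PP p K v ≤ Nrm p K L v := le_sup_right

/-- `L = K(a^{1/p})` is a Kummer extension of degree `p` with generator `α`, `α ^ p = a`. -/
structure IsKummer (a : Kˣ) (α : Lˣ) : Prop where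
  galois : IsGalois K L
  deg : Module.finrank K L = p
  pow : (α : L) ^ p = algebraMap K L (a : K)
  ne : cls p a ≠ 0

end extension

/-- THE local input of [G]: the local norm index at a nonsplit place is `≠ 1`. -/
def LocalNormHyp (p : ℕ) [Fact p.Prime] : Prop :=
  ∀ (K L : Type) [Field K] [NumberField K] [Field L] [NumberField L] [Algebra K L]
    [IsGalois K L], (∃ ζ : K, IsPrimitiveRoot ζ p) → Module.finrank K L = p →
    ∀ v : Pl K, Nonsplit K L v → Nrm p K L v ≠ ⊤

end

end Fermat.Agent.S55.G
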