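import Fermat.Agent.S55.G.Defs
import Fermat.Agent.S55.G.PlacesAbove
import Fermat.Agent.S55.G.ValOrd

open IsDedekindDomain NumberField Module

namespace Fermat.Agent.S55.G

noncomputable section

set_option linter.unusedSectionVars false
set_option linter.style.haveILetI false

/-! # S55/G-H1Units : (G0) `H^1(C, U_S(L)) = 0`, and norms of `S`-units are `S`-units.
`N u = 1` ⟹ `u = σ y/y` with `y ∈ L^×` (Hilbert 90 for cyclic extensions: Mathlib
`groupCohomology.exists_div_of_norm` / `Mathlib/RepresentationTheory/Homological/GroupCohomology/Hilbert90.lean`;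
`σ ≠ 1` generates the group of prime order `p`).  For `w` not above `S`: `w(σ y) = w(y) w(u) = w(y)`, so (as `σ`
generates and by `exists_place_conj`) `w(y)` only depends on the place `v` of `K` below `w`; write it
`exp (-k_v)`; `k_v = 0` for almost all `v` (`finite_support`, `above_finite`...).  With the uniformisers
`x_v` of `IsGood` (units at the other places outside `S`) and `Unram` (`w(x_v) = v(x_v) = exp(-1)`):
`x := ∏_v x_v^(k_v) ∈ K^×` satisfies `w(y/x) = 1` for all `w` not above `S`; `σ(y/x)/(y/x) = u`. -/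

variable (p : ℕ) [Fact p.Prime] (K : Type) [Field K] [NumberField K]
variable (L : Type) [Field L] [NumberField L] [Algebra K L]

namespace H1Units

variable {K L}

theorem not_mem_above_of_liesOver {S : Set (Pl K)} {v : Pl K} {w : Pl L}
    (h : w.asIdeal.LiesOver v.asIdeal) (hv : v ∉ S) : w ∉ above K L S := by
  rintro ⟨v', hv', h'⟩
  exact hv (under_unique K L w v v' h h' ▸ hv')

theorem not_mem_of_not_mem_above {S : Set (Pl K)} {v : Pl K} {w : Pl L}
    (h : w.asIdeal.LiesOver v.asIdeal) (hw : w ∉ above K L S) : v ∉ S :=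
  fun hv => hw ⟨v, hv, h⟩

/-- the conjugate place of a place not above `S` is not above `S`. -/
theorem exists_place_smul' (σ : L ≃ₐ[K] L) {S : Set (Pl K)} {w : Pl L} (hw : w ∉ above K L S) :
    ∃ w' : Pl L, w' ∉ above K L S ∧ ∀ x : L, w'.valuation L x = w.valuation L (σ x) := by
  obtain ⟨w', h1, h2⟩ := exists_place_smul K L σ w
  obtain ⟨v, hv⟩ := exists_under K L w
  exact ⟨w', not_mem_above_of_liesOver (h2 v hv) (not_mem_of_not_mem_above hv hw), h1⟩

theorem val_algebraMap_eq_one_iff {v : Pl K} {w : Pl L} (h : w.asIdeal.LiesOver v.asIdeal)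
    (x : K) : w.valuation L (algebraMap K L x) = 1 ↔ v.valuation K x = 1 := by
  haveI := h
  rw [← HeightOneSpectrum.valuation_liesOver L v w x]
  have he : v.asIdeal.ramificationIdx' w.asIdeal ≠ 0 :=
    Ideal.IsDedekindDomain.ramificationIdx'_ne_zero_of_liesOver w.asIdeal v.ne_bot
  exact pow_eq_one_iff.trans (or_iff_left he)

end H1Units

open H1Units

/-- `σ` preserves the `S`-units of `L` (`exists_place_smul`). -/
theorem map_mem_unit_above (σ : L ≃ₐ[K] L) (S : Set (Pl K)) (u : Lˣ)
    (hu : u ∈ (above K L S).unit L) : Units.map (σ : L →* L) u ∈ (above K L S).unit L := by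
  intro w hw
  obtain ⟨w', hw', h⟩ := exists_place_smul' σ hw
  have := hu w' hw'
  rw [h] at this
  exact this

/-- an element of `K^×` is an `S`-unit iff its image in `L` is an `above S`-unit. -/
theorem map_mem_unit_above_iff (S : Set (Pl K)) (x : Kˣ) :
    Units.map (algebraMap K L : K →* L) x ∈ (above K L S).unit L ↔ x ∈ S.unit K := by
  constructor
  · intro h v hv
    obtain ⟨w, hw⟩ := exists_above K L v
    exact (val_algebraMap_eq_one_iff hw _).1 (h w (not_mem_above_of_liesOver hw hv))
  · intro h w hw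
    obtain ⟨v, hv⟩ := exists_under K L w
    exact (val_algebraMap_eq_one_iff hv _).2 (h v (not_mem_of_not_mem_above hv hw))

/-- `N y = ∏_σ σ y` is a unit at all `w` not above `S`, hence (`valuation_liesOver`, `exists_above`)
at all `v ∉ S`. -/
theorem normU_mem_unit [IsGalois K L] (S : Set (Pl K)) (u : Lˣ)
    (hu : u ∈ (above K L S).unit L) : normU K L u ∈ S.unit K := by
  rw [← map_mem_unit_above_iff K L S]
  have h1 : Units.map (algebraMap K L : K →* L) (normU K L u) =
      ∏ σ : L ≃ₐ[K] L, Units.map (σ : L →* L) u := by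
    ext
    simp only [Units.coe_map, MonoidHom.coe_coe, normU, Units.coe_prod]
    exact Algebra.norm_eq_prod_automorphisms K (u : L)
  rw [h1]
  exact Subgroup.prod_mem _ (fun σ _ => map_mem_unit_above K L σ S u hu)

theorem H1_units [IsGalois K L] (hdeg : finrank K L = p) (σ : L ≃ₐ[K] L) (hσ : σ ≠ 1)
    (S : Set (Pl K)) (hgood : IsGood p K S) (hunr : ∀ v ∉ S, Unram K L v)
    (u : Lˣ) (hu : u ∈ (above K L S).unit L) (hN : normU K L u = 1) :
    ∃ y ∈ (above K L S).unit L, (u : L) = σ (y : L) / (y : L) := by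
  have hcard : Nat.card (L ≃ₐ[K] L) = p := by rw [IsGalois.card_aut_eq_finrank, hdeg]
  have hgen : ∀ τ : L ≃ₐ[K] L, τ ∈ Subgroup.zpowers σ :=
    fun τ => mem_zpowers_of_prime_card hcard hσ
  haveI : IsCyclic (L ≃ₐ[K] L) := isCyclic_of_prime_card hcard
  have hN' : Algebra.norm K (u : L) = 1 := by simpa [normU] using congrArg Units.val hN
  obtain ⟨y0, hy0⟩ := groupCohomology.exists_div_of_norm_eq_one hgen hN'
  obtain ⟨y, hy⟩ : ∃ y : Lˣ, (u : L) = σ (y : L) / (y : L) := by
    refine ⟨y0⁻¹, ?_⟩
    rw [← hy0, Units.val_inv_eq_inv_val, map_inv₀]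
    have h1 : (y0 : L) ≠ 0 := y0.ne_zero
    have h2 : σ (y0 : L) ≠ 0 := by simp
    field_simp
  have hy0' : (y : L) ≠ 0 := y.ne_zero
  -- invariance of the valuations of `y`
  have hinv1 : ∀ w ∉ above K L S, w.valuation L (σ (y : L)) = w.valuation L (y : L) := by
    intro w hw
    have h1 : w.valuation L (u : L) = 1 := hu w hw
    have h2 : σ (y : L) = u * y := by rw [hy]; field_simp
    rw [h2, map_mul, h1, one_mul]
  have hinvn : ∀ n : ℕ, ∀ w ∉ above K L S,
      w.valuation L ((σ ^ n) (y : L)) = w.valuation L (y : L) := by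
    intro n
    induction n with
    | zero => intro w _; simp
    | succ n ih =>
      intro w hw
      obtain ⟨w', hw', h⟩ := exists_place_smul' (σ ^ n) hw
      rw [pow_succ, AlgEquiv.mul_apply, ← h, hinv1 w' hw', h, ih w hw]
  have hinv : ∀ τ : L ≃ₐ[K] L, ∀ w ∉ above K L S,
      w.valuation L (τ (y : L)) = w.valuation L (y : L) := by
    intro τ
    obtain ⟨n, rfl⟩ := mem_powers_iff_mem_zpowers.2 (hgen τ)
    exact hinvn n
  -- choices
  choose W hW using fun v : Pl K => exists_above K L v
  have hWinj : Function.Injective W := by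
    intro v v' h
    exact under_unique K L (W v) v v' (hW v) (h ▸ hW v')
  choose! X hX1 hX2 using hgood.2
  set k : Pl K → ℤ := fun v => - WithZero.log ((W v).valuation L (y : L)) with hk
  have hval0 : ∀ w : Pl L, w.valuation L (y : L) ≠ 0 :=
    fun w => (Valuation.ne_zero_iff _).2 hy0'
  have hkexp : ∀ v : Pl K, WithZero.exp (-1 : ℤ) ^ (k v) = (W v).valuation L (y : L) := by
    intro v
    rw [← WithZero.exp_zsmul, hk]
    simp only [smul_eq_mul, mul_neg, mul_one, neg_neg]
    exact WithZero.exp_log (hval0 _)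
  have hTfin : {v : Pl K | v ∉ S ∧ (W v).valuation L (y : L) ≠ 1}.Finite := by
    refine ((finite_support L y).preimage hWinj.injOn).subset ?_
    intro v hv
    exact hv.2
  set T : Finset (Pl K) := hTfin.toFinset with hT
  set x : Kˣ := ∏ v ∈ T, X v ^ (k v) with hx
  have hxval : ∀ v ∉ S, v.valuation K (x : K) = (W v).valuation L (y : L) := by
    intro v hv
    have h1 : (x : K) = ∏ v' ∈ T, (X v' : K) ^ (k v') := by
      rw [hx, Units.coe_prod]
      exact Finset.prod_congr rfl (fun v' _ => Units.val_zpow_eq_zpow_val _ _)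
    rw [h1, map_prod]
    rw [Finset.prod_eq_single v]
    · rw [map_zpow₀, hX1 v hv, hkexp]
    · intro v' hv' hne
      have hv'S : v' ∉ S := ((Set.Finite.mem_toFinset hTfin).1 hv').1
      rw [map_zpow₀, hX2 v' hv'S v hv (Ne.symm hne), one_zpow]
    · intro hvT
      have h2 : (W v).valuation L (y : L) = 1 := by
        by_contra h3
        exact hvT ((Set.Finite.mem_toFinset hTfin).2 ⟨hv, h3⟩)
      rw [map_zpow₀, hX1 v hv, hkexp, h2]
  refine ⟨y * (Units.map (algebraMap K L : K →* L) x)⁻¹, ?_, ?_⟩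
  · intro w hw
    obtain ⟨v, hv⟩ := exists_under K L w
    have hvS : v ∉ S := not_mem_of_not_mem_above hv hw
    obtain ⟨τ, hτ⟩ := exists_place_conj K L v (W v) w (hW v) hv
    have h1 : w.valuation L (y : L) = (W v).valuation L (y : L) := by
      rw [hτ, hinv τ (W v) (not_mem_above_of_liesOver (hW v) hvS)]
    have h2 : w.valuation L (algebraMap K L (x : K)) = (W v).valuation L (y : L) := by
      rw [hunr v hvS w hv, hxval v hvS]
    simp only [Units.val_mul, Units.val_inv_eq_inv_val, Units.coe_map, MonoidHom.coe_coe, map_mul,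
      map_inv₀, h1, h2]
    exact mul_inv_cancel₀ (hval0 _)
  · have hx0 : algebraMap K L (x : K) ≠ 0 := by simp
    simp only [Units.val_mul, Units.val_inv_eq_inv_val, Units.coe_map, MonoidHom.coe_coe, map_mul,
      map_inv₀, AlgEquiv.commutes]
    rw [hy]
    field_simp

theorem NNS_le_EE [IsGalois K L] (S : Set (Pl K)) : NNS p K L S ≤ EE p K S :=
  img_mono p (by rintro _ ⟨u, hu, rfl⟩; exact normU_mem_unit K L S u hu)

end

end Fermat.Agent.S55.G
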