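import Fermat.Agent.S55.G.Defs
import Fermat.Agent.S55.L.Herbrand
import Fermat.Agent.S55.G.Units
import Fermat.Agent.S55.G.PlacesAbove
import Fermat.Agent.S55.G.H1Units

open IsDedekindDomain NumberField Module

namespace Fermat.Agent.S55.G

noncomputable section

set_option linter.unusedSectionVars false
set_option linter.style.haveILetI false

/-! # S55/G-HerbrandUnits : (G1) `[U_S(K) : N U_S(L)] = p^(ns - 1)`.
Apply `Fermat.Agent.S55.herbrand_prime` (file S55/L/Herbrand.lean, use it as a black box) to `A = Additive ↥((above K L S).unit L)`, `σ` a generator of `Gal(L/K)`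
(`map_mem_unit_above`).  Then (`S_L = above K L S`):
* `[A : pA] = p^(finrank (EE p L S_L))` (`EE = img U ≅ U/U^p` because `U ∩ L^×p = U^p`),
  `2 finrank (EE p L S_L) = [L:ℚ] + 2 #S_L = p [K:ℚ] + 2 #S_L` (`finrank_EE` for `L`, `ζ ∈ L`);
* `#A[p] = p` (`μ_p ⊆ U`), the same for `A^σ`;
* `A^σ = U_S(K)` (Galois theory + `map_mem_unit_above_iff`), `[A^σ : pA^σ] = p^(finrank (EE p K S))`;
* `ker N = (σ-1)A` by `H1_units`;
* `[A^σ : N A] = p^(finrank (EE p K S) - finrank (NNS p K L S))` (`N A ⊇ (A^σ)^p`);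
* `#S_L + (p-1) ns = p #S` (`ncard_above`).
The formula `h0^(p-1) [A:pA] p^p = p [A^σ:pA^σ]^p` gives `(p-1)(dim EE - dim NNS) = (p-1)(ns - 1)`. -/

variable (p : ℕ) [Fact p.Prime] (K : Type) [Field K] [NumberField K]
variable (L : Type) [Field L] [NumberField L] [Algebra K L]

namespace HerbrandUnits

section generic

variable {F : Type} [Field F]

theorem mem_ker_clsHom (x : Additive Fˣ) : x ∈ (clsHom p F).ker ↔ ∃ y : Additive Fˣ, p • y = x := by
  rw [AddMonoidHom.mem_ker]
  have := cls_eq_zero_iff p (Additive.toMul x)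
  constructor
  · intro h
    obtain ⟨y, hy⟩ := this.1 h
    exact ⟨Additive.ofMul y, hy⟩
  · rintro ⟨y, hy⟩
    exact this.2 ⟨Additive.toMul y, hy⟩

/-- the index of `H' ≤ H` can be computed in `F^×/p` as soon as `H ∩ F^×p ⊆ H'`. -/
theorem relIndex_map_clsHom (H' H : AddSubgroup (Additive Fˣ)) (hle : H' ≤ H)
    (hp : ∀ y : Additive Fˣ, p • y ∈ H → p • y ∈ H') :
    (H'.map (clsHom p F)).relIndex (H.map (clsHom p F)) = H'.relIndex H := by
  rw [AddSubgroup.relIndex_map_map]
  have e1 : H ⊔ (clsHom p F).ker = H ⊔ (H' ⊔ (clsHom p F).ker) := by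
    rw [← sup_assoc, sup_eq_left.2 hle]
  rw [e1, AddSubgroup.relIndex_sup_right, ← AddSubgroup.inf_relIndex_right]
  congr 1
  apply le_antisymm
  · rintro x ⟨hx1, hx2⟩
    obtain ⟨a, ha, b, hb, rfl⟩ := AddSubgroup.mem_sup.1 hx1
    obtain ⟨y, rfl⟩ := (mem_ker_clsHom p b).1 hb
    have : p • y ∈ H := by
      have := H.sub_mem hx2 (hle ha)
      simpa using this
    exact H'.add_mem ha (hp y this)
  · exact le_inf le_sup_left hle

theorem relIndex_mul_pow (H' H : AddSubgroup (Additive Fˣ)) (hle : H' ≤ H)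
    (hp : ∀ y : Additive Fˣ, p • y ∈ H → p • y ∈ H') (d' d : ℕ)
    (h' : Nat.card (H'.map (clsHom p F)) = p ^ d') (h : Nat.card (H.map (clsHom p F)) = p ^ d) :
    p ^ d' * H'.relIndex H = p ^ d := by
  rw [← relIndex_map_clsHom p H' H hle hp, ← h', ← h, ← AddSubgroup.relIndex_bot_left,
    ← AddSubgroup.relIndex_bot_left]
  exact AddSubgroup.relIndex_mul_relIndex _ _ _ bot_le (AddSubgroup.map_mono hle)

theorem card_map_clsHom (H : Subgroup Fˣ) [FiniteDimensional (ZMod p) (img p H)] :
    Nat.card ((Subgroup.toAddSubgroup H).map (clsHom p F)) = p ^ finrank (ZMod p) (img p H) := by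
  have := Module.natCard_eq_pow_finrank (K := ZMod p) (V := img p H)
  rw [Nat.card_zmod] at this
  exact this

theorem card_map_mulP_clsHom (H : AddSubgroup (Additive Fˣ)) :
    Nat.card ((H.map (mulP p (Additive Fˣ))).map (clsHom p F)) = p ^ 0 := by
  have : (H.map (mulP p (Additive Fˣ))).map (clsHom p F) = ⊥ := by
    rw [eq_bot_iff]
    rintro _ ⟨_, ⟨y, _, rfl⟩, rfl⟩
    rw [AddSubgroup.mem_bot]
    exact (AddMonoidHom.mem_ker).1 ((mem_ker_clsHom p _).2 ⟨y, rfl⟩)
  rw [this]
  simp

end generic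

section setup

variable {K L}
variable (S : Set (Pl K)) (σ : L ≃ₐ[K] L)

/-- the `S`-units of `L`, additively -/
abbrev AL : Type := Additive ↥((above K L S).unit L)

/-- the underlying element of `L` -/
def val (a : AL (L := L) S) : L := (((Additive.toMul a : ↥((above K L S).unit L)) : Lˣ) : L)

/-- the action of `σ` on `S`-units -/
def sigU : ↥((above K L S).unit L) →* ↥((above K L S).unit L) :=
  ((Units.map (σ : L →* L)).comp ((above K L S).unit L).subtype).codRestrict _
    (fun u => map_mem_unit_above K L σ S u u.2)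

/-- the action of `σ` on `S`-units, additively -/
def sigA : AddMonoid.End (AL (L := L) S) := MonoidHom.toAdditive (sigU S σ)

/-- inclusion of the `S`-units in `L^×` -/
def incl : AL (L := L) S →+ Additive Lˣ := MonoidHom.toAdditive ((above K L S).unit L).subtype

/-- `K^× → L^×` -/
def jA : Additive Kˣ →+ Additive Lˣ := MonoidHom.toAdditive (Units.map (algebraMap K L : K →* L))

theorem val_injective : Function.Injective (val (L := L) S) := by
  intro a b h
  apply Additive.toMul.injective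
  apply Subtype.ext
  exact Units.ext h

theorem incl_injective : Function.Injective (incl (L := L) S) := by
  intro a b h
  apply Additive.toMul.injective
  exact Subtype.ext h

theorem jA_injective : Function.Injective (jA (K := K) (L := L)) := by
  intro a b h
  apply Additive.toMul.injective
  exact Units.map_injective (algebraMap K L).injective h

@[simp] theorem val_zero : val (L := L) S 0 = 1 := rfl
@[simp] theorem val_add (a b : AL (L := L) S) : val S (a + b) = val S a * val S b := rfl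
@[simp] theorem val_neg (a : AL (L := L) S) : val S (-a) = (val S a)⁻¹ := by
  simp [val]
@[simp] theorem val_sub (a b : AL (L := L) S) : val S (a - b) = val S a / val S b := by
  rw [sub_eq_add_neg, val_add, val_neg, div_eq_mul_inv]
theorem val_ne_zero (a : AL (L := L) S) : val S a ≠ 0 := Units.ne_zero _
@[simp] theorem val_nsmul (n : ℕ) (a : AL (L := L) S) : val S (n • a) = val S a ^ n := by
  induction n with
  | zero => simp
  | succ n ih => rw [succ_nsmul, val_add, ih, pow_succ]
@[simp] theorem val_sum {ι : Type*} (s : Finset ι) (f : ι → AL (L := L) S) :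
    val S (∑ i ∈ s, f i) = ∏ i ∈ s, val S (f i) := by
  classical
  induction s using Finset.induction_on with
  | empty => simp
  | insert a s ha ih => rw [Finset.sum_insert ha, Finset.prod_insert ha, val_add, ih]
@[simp] theorem val_sigA (a : AL (L := L) S) : val S (sigA S σ a) = σ (val S a) := rfl
theorem val_sigA_pow (i : ℕ) (a : AL (L := L) S) :
    val S ((sigA S σ ^ i) a) = (σ ^ i) (val S a) := by
  induction i with
  | zero => simp
  | succ n ih =>
    rw [pow_succ', pow_succ']
    change val S (sigA S σ ((sigA S σ ^ n) a)) = σ ((σ ^ n) (val S a))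
    rw [val_sigA, ih]

theorem nm_apply {B : Type} [AddCommGroup B] (n : ℕ) (τ : AddMonoid.End B) (a : B) :
    nmσ n τ a = ∑ i ∈ Finset.range n, (τ ^ i) a := by
  unfold nmσ
  exact AddMonoidHom.finsetSum_apply _ _ _

theorem sub_one_apply {B : Type} [AddCommGroup B] (τ : AddMonoid.End B) (a : B) :
    (τ - 1 : AddMonoid.End B) a = τ a - a := rfl

theorem mem_fix_iff (a : AL (L := L) S) : a ∈ fixσ (sigA S σ) ↔ σ (val S a) = val S a := by
  have h0 : a ∈ fixσ (sigA S σ) ↔ (sigA S σ - 1 : AddMonoid.End (AL (L := L) S)) a = 0 := Iff.rfl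
  rw [h0, sub_one_apply, sub_eq_zero]
  constructor
  · intro h; rw [← val_sigA, h]
  · intro h; apply val_injective S; rw [val_sigA, h]

end setup

section galois

variable {p K L}
variable [IsGalois K L] (hdeg : finrank K L = p) (S : Set (Pl K)) (σ : L ≃ₐ[K] L) (hσ : σ ≠ 1)

include hdeg

theorem finDim : FiniteDimensional K L :=
  FiniteDimensional.of_finrank_pos (by rw [hdeg]; exact (Fact.out : p.Prime).pos)

theorem card_gal : Nat.card (L ≃ₐ[K] L) = p := by
  haveI := finDim hdeg
  rw [IsGalois.card_aut_eq_finrank, hdeg]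

theorem sigma_pow : σ ^ p = 1 := by
  rw [← card_gal hdeg]; exact pow_card_eq_one'

include hσ

theorem bij_pow : Function.Bijective (fun i : Fin p => σ ^ (i : ℕ)) := by
  haveI := finDim hdeg
  have ho : orderOf σ = p := orderOf_eq_prime (sigma_pow hdeg σ) hσ
  rw [Fintype.bijective_iff_injective_and_card]
  constructor
  · intro i j hij
    apply Fin.ext
    apply pow_injOn_Iio_orderOf (x := σ) _ _ hij
    · rw [ho]; exact i.2
    · rw [ho]; exact j.2
  · rw [Fintype.card_fin, ← Nat.card_eq_fintype_card, card_gal hdeg]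

theorem prod_pow (x : L) :
    ∏ i ∈ Finset.range p, (σ ^ i) x = algebraMap K L (Algebra.norm K x) := by
  haveI := finDim hdeg
  rw [Algebra.norm_eq_prod_automorphisms, Finset.prod_range]
  exact Function.Bijective.prod_comp (bij_pow hdeg σ hσ) (fun τ : L ≃ₐ[K] L => τ x)

theorem mem_range_of_fixed (x : L) (hx : σ x = x) : ∃ y : K, algebraMap K L y = x := by
  haveI := finDim hdeg
  apply (IsGalois.mem_range_algebraMap_iff_fixed (F := K) (E := L) x).2
  intro τ
  obtain ⟨i, rfl⟩ := (bij_pow hdeg σ hσ).2 τ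
  simp only
  generalize (i : ℕ) = n
  induction n with
  | zero => simp
  | succ n ih =>
    rw [pow_succ]
    change (σ ^ n) (σ x) = x
    rw [hx, ih]

theorem val_nm (a : AL (L := L) S) :
    val S (nmσ p (sigA S σ) a) = algebraMap K L (Algebra.norm K (val S a)) := by
  rw [nm_apply, val_sum, ← prod_pow hdeg σ hσ]
  exact Finset.prod_congr rfl (fun i _ => val_sigA_pow S σ i a)

omit hσ in
theorem sigA_pow : sigA S σ ^ p = 1 := by
  refine DFunLike.ext _ _ (fun a => val_injective S ?_)
  rw [val_sigA_pow, sigma_pow hdeg]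
  rfl

/-- `A^σ = U_S(K)` -/
theorem map_fix : (fixσ (sigA S σ)).map (incl S) =
    (Subgroup.toAddSubgroup (S.unit K)).map (jA (K := K) (L := L)) := by
  ext x
  constructor
  · rintro ⟨a, ha, rfl⟩
    obtain ⟨y, hy⟩ := mem_range_of_fixed hdeg σ hσ _ ((mem_fix_iff S σ a).1 ha)
    have hy0 : y ≠ 0 := by
      rintro rfl
      rw [map_zero] at hy
      exact val_ne_zero S a hy.symm
    have e : Units.map (algebraMap K L : K →* L) (Units.mk0 y hy0) =
        ((Additive.toMul a : ↥((above K L S).unit L)) : Lˣ) := Units.ext hy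
    refine ⟨Additive.ofMul (Units.mk0 y hy0), ?_, e⟩
    apply (map_mem_unit_above_iff K L S (Units.mk0 y hy0)).1
    rw [e]
    exact (Additive.toMul a).2
  · rintro ⟨y, hy, rfl⟩
    have h1 := (map_mem_unit_above_iff K L S (Additive.toMul y)).2 hy
    refine ⟨Additive.ofMul ⟨_, h1⟩, ?_, rfl⟩
    rw [SetLike.mem_coe, mem_fix_iff]
    exact σ.commutes _

/-- `Nm A = N U_S(L)` -/
theorem map_range_nm : (AddMonoidHom.range (nmσ p (sigA S σ))).map (incl S) =
    (Subgroup.toAddSubgroup (((above K L S).unit L).map (normU K L))).map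
      (jA (K := K) (L := L)) := by
  have key : ∀ a : AL (L := L) S, incl S (nmσ p (sigA S σ) a) =
      jA (Additive.ofMul (normU K L ((Additive.toMul a : ↥((above K L S).unit L)) : Lˣ))) := by
    intro a
    apply Additive.toMul.injective
    apply Units.ext
    exact val_nm hdeg S σ hσ a
  ext x
  constructor
  · rintro ⟨_, ⟨a, rfl⟩, rfl⟩
    exact ⟨_, ⟨_, (Additive.toMul a).2, rfl⟩, (key a).symm⟩
  · rintro ⟨_, ⟨u, hu, rfl⟩, rfl⟩
    exact ⟨_, ⟨Additive.ofMul ⟨u, hu⟩, rfl⟩, key _⟩

end galois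

section counts

variable {p K L}

theorem unit_of_pow {F : Type} [Field F] [NumberField F] (T : Set (Pl F)) (y : Fˣ)
    (h : y ^ p ∈ T.unit F) : y ∈ T.unit F := by
  intro v hv
  have := h v hv
  rw [Units.val_pow_eq_pow_val, map_pow] at this
  exact (pow_eq_one_iff.1 this).resolve_right (Fact.out : p.Prime).ne_zero

theorem incl_comp_mulP (S : Set (Pl K)) :
    (incl (L := L) S).comp (mulP p (AL (L := L) S)) = (mulP p (Additive Lˣ)).comp (incl S) := by
  ext a
  simp [mulP]

theorem jA_comp_mulP :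
    (jA (K := K) (L := L)).comp (mulP p (Additive Kˣ)) = (mulP p (Additive Lˣ)).comp jA := by
  ext a
  simp [mulP]

theorem map_top_incl (S : Set (Pl K)) : (⊤ : AddSubgroup (AL (L := L) S)).map (incl S) =
    Subgroup.toAddSubgroup ((above K L S).unit L) := by
  ext x
  constructor
  · rintro ⟨a, -, rfl⟩
    exact (Additive.toMul a).2
  · intro hx
    exact ⟨Additive.ofMul ⟨Additive.toMul x, hx⟩, trivial, rfl⟩

/-- `[A : pA] = p ^ dim (EE p L S_L)` -/
theorem index_mulP (S : Set (Pl K)) [FiniteDimensional (ZMod p) (EE p L (above K L S))] :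
    (mulP p (AL (L := L) S)).range.index = p ^ finrank (ZMod p) (EE p L (above K L S)) := by
  haveI : FiniteDimensional (ZMod p) ↥(img p ((above K L S).unit L)) :=
    (inferInstance : FiniteDimensional (ZMod p) (EE p L (above K L S)))
  rw [← AddSubgroup.relIndex_top_right,
    ← AddSubgroup.relIndex_map_map_of_injective _ _ (incl_injective S),
    AddMonoidHom.range_eq_map, AddSubgroup.map_map, incl_comp_mulP, ← AddSubgroup.map_map,
    map_top_incl]
  have := relIndex_mul_pow p
    ((Subgroup.toAddSubgroup ((above K L S).unit L)).map (mulP p (Additive Lˣ)))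
    (Subgroup.toAddSubgroup ((above K L S).unit L)) ?_ ?_ 0 _
    (card_map_mulP_clsHom p _) (card_map_clsHom p ((above K L S).unit L))
  · rw [pow_zero, one_mul] at this
    exact this
  · rintro _ ⟨y, hy, rfl⟩
    exact AddSubgroup.nsmul_mem _ hy p
  · intro y hy
    exact ⟨y, unit_of_pow (p := p) _ (Additive.toMul y) hy, rfl⟩

variable [IsGalois K L] (hdeg : finrank K L = p) (S : Set (Pl K)) (σ : L ≃ₐ[K] L) (hσ : σ ≠ 1)

include hdeg hσ

/-- `[A^σ : pA^σ] = p ^ dim (EE p K S)` -/
theorem relIndex_fix [FiniteDimensional (ZMod p) (EE p K S)] :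
    ((fixσ (sigA S σ)).map (mulP p (AL (L := L) S))).relIndex (fixσ (sigA S σ)) =
      p ^ finrank (ZMod p) (EE p K S) := by
  haveI : FiniteDimensional (ZMod p) ↥(img p (S.unit K)) :=
    (inferInstance : FiniteDimensional (ZMod p) (EE p K S))
  rw [← AddSubgroup.relIndex_map_map_of_injective _ _ (incl_injective S),
    AddSubgroup.map_map, incl_comp_mulP, ← AddSubgroup.map_map, map_fix hdeg S σ hσ,
    AddSubgroup.map_map, ← jA_comp_mulP, ← AddSubgroup.map_map,
    AddSubgroup.relIndex_map_map_of_injective _ _ jA_injective]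
  have := relIndex_mul_pow p
    ((Subgroup.toAddSubgroup (S.unit K)).map (mulP p (Additive Kˣ)))
    (Subgroup.toAddSubgroup (S.unit K)) ?_ ?_ 0 _
    (card_map_mulP_clsHom p _) (card_map_clsHom p (S.unit K))
  · rw [pow_zero, one_mul] at this
    exact this
  · rintro _ ⟨y, hy, rfl⟩
    exact AddSubgroup.nsmul_mem _ hy p
  · intro y hy
    exact ⟨y, unit_of_pow (p := p) _ (Additive.toMul y) hy, rfl⟩

/-- `p ^ dim NNS * [A^σ : Nm A] = p ^ dim (EE p K S)` -/
theorem relIndex_nm [FiniteDimensional (ZMod p) (EE p K S)] :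
    p ^ finrank (ZMod p) (NNS p K L S) *
      (AddMonoidHom.range (nmσ p (sigA S σ))).relIndex (fixσ (sigA S σ)) =
      p ^ finrank (ZMod p) (EE p K S) := by
  haveI : FiniteDimensional (ZMod p) ↥(img p (S.unit K)) :=
    (inferInstance : FiniteDimensional (ZMod p) (EE p K S))
  haveI : FiniteDimensional (ZMod p) ↥(img p (((above K L S).unit L).map (normU K L))) :=
    Submodule.finiteDimensional_of_le (NNS_le_EE p K L S)
  rw [← AddSubgroup.relIndex_map_map_of_injective _ _ (incl_injective S),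
    map_fix hdeg S σ hσ, map_range_nm hdeg S σ hσ,
    AddSubgroup.relIndex_map_map_of_injective _ _ jA_injective]
  refine relIndex_mul_pow p _ _ ?_ ?_ _ _
    (card_map_clsHom p (((above K L S).unit L).map (normU K L))) (card_map_clsHom p (S.unit K))
  · rintro _ ⟨u, hu, rfl⟩
    exact normU_mem_unit K L S u hu
  · intro y hy
    have hy' : Additive.toMul y ∈ S.unit K := unit_of_pow (p := p) _ (Additive.toMul y) hy
    refine ⟨Units.map (algebraMap K L : K →* L) (Additive.toMul y),
      (map_mem_unit_above_iff K L S _).2 hy', ?_⟩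
    apply Units.ext
    change Algebra.norm K (algebraMap K L ((Additive.toMul y : Kˣ) : K)) = _
    rw [Algebra.norm_algebraMap, hdeg]
    rfl

/-- Hilbert 90 for `S`-units -/
theorem relIndex_h1 (hgood : IsGood p K S) (hunr : ∀ v ∉ S, Unram K L v) :
    (AddMonoidHom.range (sigA S σ - 1 : AddMonoid.End (AL (L := L) S))).relIndex
      (AddMonoidHom.ker (nmσ p (sigA S σ))) = 1 := by
  rw [AddSubgroup.relIndex_eq_one]
  intro a ha
  have h1 : val S (nmσ p (sigA S σ) a) = 1 := by
    have : nmσ p (sigA S σ) a = 0 := ha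
    rw [this]; rfl
  rw [val_nm hdeg S σ hσ] at h1
  have h2 : Algebra.norm K (val S a) = 1 := by
    apply (algebraMap K L).injective
    rw [h1, map_one]
  obtain ⟨y, hy, hy2⟩ := H1_units p K L hdeg σ hσ S hgood hunr
    ((Additive.toMul a : ↥((above K L S).unit L)) : Lˣ) (Additive.toMul a).2 (Units.ext h2)
  refine ⟨Additive.ofMul ⟨y, hy⟩, ?_⟩
  apply val_injective S
  change val S (sigA S σ (Additive.ofMul ⟨y, hy⟩) - Additive.ofMul ⟨y, hy⟩) = val S a
  rw [val_sub, val_sigA]
  exact hy2.symm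

omit hdeg hσ [IsGalois K L] in
theorem mem_ker_mulP (a : AL (L := L) S) : a ∈ (mulP p (AL (L := L) S)).ker ↔ val S a ^ p = 1 := by
  rw [AddMonoidHom.mem_ker]
  change p • a = 0 ↔ _
  constructor
  · intro h; rw [← val_nsmul, h]; rfl
  · intro h; apply val_injective S; rw [val_nsmul, h]; rfl

omit hdeg hσ [IsGalois K L] in
theorem ker_mulP_le (hζ : ∃ ζ : K, IsPrimitiveRoot ζ p) :
    (mulP p (AL (L := L) S)).ker ≤ fixσ (sigA S σ) := by
  intro a ha
  obtain ⟨ζ, hζ⟩ := hζ
  haveI : NeZero p := ⟨(Fact.out : p.Prime).ne_zero⟩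
  have hζL : IsPrimitiveRoot (algebraMap K L ζ) p := hζ.map_of_injective (algebraMap K L).injective
  obtain ⟨i, -, hi⟩ := hζL.eq_pow_of_pow_eq_one ((mem_ker_mulP S a).1 ha)
  rw [mem_fix_iff, ← hi, ← map_pow]
  exact σ.commutes _

omit hdeg hσ [IsGalois K L] in
theorem card_ker_mulP (hζ : ∃ ζ : K, IsPrimitiveRoot ζ p) :
    Nat.card (mulP p (AL (L := L) S)).ker = p := by
  obtain ⟨ζ, hζ⟩ := hζ
  haveI : NeZero p := ⟨(Fact.out : p.Prime).ne_zero⟩
  have hζL : IsPrimitiveRoot (algebraMap K L ζ) p := hζ.map_of_injective (algebraMap K L).injective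
  refine Eq.trans ?_ hζL.card_rootsOfUnity
  let f : (mulP p (AL (L := L) S)).ker → rootsOfUnity p L := fun a =>
    ⟨((Additive.toMul (a : AL (L := L) S) : ↥((above K L S).unit L)) : Lˣ), by
      rw [mem_rootsOfUnity]
      apply Units.ext
      exact (mem_ker_mulP S a.1).1 a.2⟩
  apply Nat.card_eq_of_bijective f
  constructor
  · intro a b hab
    apply Subtype.ext
    apply incl_injective S
    exact congrArg (fun z : rootsOfUnity p L => (z : Lˣ)) hab
  · intro ξ
    have h1 : (ξ : Lˣ) ∈ (above K L S).unit L := by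
      apply unit_of_pow (p := p)
      rw [(mem_rootsOfUnity _ _).1 ξ.2]
      exact one_mem _
    refine ⟨⟨Additive.ofMul ⟨ξ, h1⟩, ?_⟩, rfl⟩
    rw [mem_ker_mulP]
    have := (mem_rootsOfUnity _ _).1 ξ.2
    exact congrArg Units.val this

end counts

theorem arith (p dK dL dN ns h₀ n nL s sL : ℕ) (hp : p.Prime) (hle : dN ≤ dK)
    (hnm : p ^ dN * h₀ = p ^ dK)
    (H : h₀ ^ (p - 1) * (p ^ dL * p ^ p) = 1 ^ (p - 1) * ((p ^ dK) ^ p * p))
    (hdK : 2 * dK = n + 2 * s) (hdL : 2 * dL = nL + 2 * sL) (hQ : nL = n * p)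
    (hcard : sL + (p - 1) * ns = p * s) : dN + ns = dK + 1 := by
  obtain ⟨h, rfl⟩ : ∃ h, dK = dN + h := ⟨dK - dN, by omega⟩
  have hh : h₀ = p ^ h := by
    rw [pow_add] at hnm
    exact Nat.eq_of_mul_eq_mul_left (pow_pos hp.pos _) hnm
  rw [hh] at H
  have H2 : h * (p - 1) + (dL + p) = (dN + h) * p + 1 := by
    apply Nat.pow_right_injective hp.two_le
    simp only
    rw [pow_add, pow_add, pow_add _ _ 1, pow_mul, pow_mul, pow_one]
    simpa using H
  obtain ⟨P, rfl⟩ : ∃ P, p = P + 1 := ⟨p - 1, by have := hp.pos; omega⟩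
  simp only [Nat.add_sub_cancel] at H2 hcard
  have hP : 0 < P := by have := hp.one_lt; omega
  have key : P * (h + 1) = P * ns := by nlinarith
  have := Nat.eq_of_mul_eq_mul_left hP key
  omega

end HerbrandUnits

open HerbrandUnits in
theorem finrank_NNS (hodd : p ≠ 2) (hζ : ∃ ζ : K, IsPrimitiveRoot ζ p) [IsGalois K L]
    (hdeg : finrank K L = p) (S : Set (Pl K)) (hS : S.Finite) (hgood : IsGood p K S)
    (hunr : ∀ v ∉ S, Unram K L v) :
    finrank (ZMod p) (NNS p K L S) + {v ∈ S | Nonsplit K L v}.ncard =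
      finrank (ZMod p) (EE p K S) + 1 := by
  classical
  have hp : p.Prime := Fact.out
  haveI := finDim hdeg
  -- a generator
  obtain ⟨σ, hσ⟩ : ∃ σ : L ≃ₐ[K] L, σ ≠ 1 := by
    haveI : Nontrivial (L ≃ₐ[K] L) := by
      rw [← Finite.one_lt_card_iff_nontrivial, card_gal hdeg]
      exact hp.one_lt
    exact exists_ne 1
  -- dimensions
  obtain ⟨hfK, hdK⟩ := finrank_EE p K hodd hζ S hS
  have hζL : ∃ ζ : L, IsPrimitiveRoot ζ p := by
    obtain ⟨ζ, hζ⟩ := hζ
    exact ⟨_, hζ.map_of_injective (algebraMap K L).injective⟩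
  obtain ⟨hfL, hdL⟩ := finrank_EE p L hodd hζL (above K L S) (above_finite K L S hS)
  haveI := hfK
  haveI := hfL
  have hcard := ncard_above p K L hdeg S hS
  have hQ : finrank ℚ L = finrank ℚ K * p := by
    rw [← hdeg, Module.finrank_mul_finrank]
  -- Herbrand
  have hidx := index_mulP (p := p) (L := L) S
  have hker := card_ker_mulP (p := p) (L := L) S hζ
  have hfix := relIndex_fix hdeg S σ hσ
  have hnm := relIndex_nm hdeg S σ hσ
  have hh1 := relIndex_h1 hdeg S σ hσ hgood hunr
  have hinf : fixσ (sigA S σ) ⊓ (mulP p (AL (L := L) S)).ker = (mulP p (AL (L := L) S)).ker :=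
    inf_eq_right.2 (ker_mulP_le S σ hζ)
  obtain ⟨-, -, H⟩ := herbrand_prime p (sigA S σ) (sigA_pow hdeg S σ)
    (by rw [hidx]; exact pow_ne_zero _ hp.ne_zero) (by rw [hker]; exact hp.ne_zero)
    (by rw [hfix]; exact pow_ne_zero _ hp.ne_zero)
  rw [hinf, hker, hidx, hfix, hh1] at H
  exact arith p _ _ _ _ _ _ _ _ _ hp (Submodule.finrank_mono (NNS_le_EE p K L S)) hnm H hdK hdL hQ
    hcard

end

end Fermat.Agent.S55.G
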