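import Fermat.Agent.S55.G.Defs

open IsDedekindDomain NumberField Module

namespace Fermat.Agent.S55.G

noncomputable section

set_option linter.unusedSectionVars false
set_option linter.style.haveILetI false

/-! # S55/G-KummerExt : existence of Kummer extensions / Kummer generators.
Mathlib: `Mathlib/FieldTheory/KummerExtension.lean` (`X_pow_sub_C_irreducible_of_prime`,
`isGalois_of_isSplittingField_X_pow_sub_C`, `finrank_of_isSplittingField_X_pow_sub_C`,
`exists_root_adjoin_eq_top_of_isCyclic`, ...). -/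

variable (p : ℕ) [Fact p.Prime] (K : Type) [Field K] [NumberField K]

open Polynomial in
theorem kummer_irreducible {p : ℕ} [Fact p.Prime] {K : Type} [Field K] (a : Kˣ)
    (ha : cls p a ≠ 0) : Irreducible (X ^ p - C (a : K)) := by
  apply X_pow_sub_C_irreducible_of_prime (Fact.out : p.Prime)
  intro b hb
  apply ha
  have hb0 : b ≠ 0 := by
    rintro rfl
    rw [zero_pow (Fact.out : p.Prime).ne_zero] at hb
    exact a.ne_zero hb.symm
  exact (cls_eq_zero_iff p a).mpr ⟨Units.mk0 b hb0, Units.ext (by simpa using hb)⟩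

theorem kummer_primitiveRoots_nonempty {p : ℕ} [Fact p.Prime] {K : Type} [Field K]
    (hζ : ∃ ζ : K, IsPrimitiveRoot ζ p) : (primitiveRoots p K).Nonempty := by
  obtain ⟨ζ, hζ⟩ := hζ
  exact ⟨ζ, (mem_primitiveRoots (Fact.out : p.Prime).pos).mpr hζ⟩

open Polynomial in
/-- `L := AdjoinRoot (X^p - C a)` (or the splitting field); it is a number field. -/
theorem exists_kummer (hζ : ∃ ζ : K, IsPrimitiveRoot ζ p) (a : Kˣ) (ha : cls p a ≠ 0) :
    ∃ (L : Type) (_ : Field L) (_ : NumberField L) (_ : Algebra K L) (α : Lˣ),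
      IsKummer p K L a α := by
  have H := kummer_irreducible a ha
  have hζ' := kummer_primitiveRoots_nonempty hζ
  haveI := Fact.mk H
  letI : Field (AdjoinRoot (X ^ p - C (a : K))) := AdjoinRoot.instField
  letI : Algebra K (AdjoinRoot (X ^ p - C (a : K))) := inferInstance
  haveI : Module.Finite K (AdjoinRoot (X ^ p - C (a : K))) :=
    (monic_X_pow_sub_C (a : K) (Fact.out : p.Prime).ne_zero).finite_adjoinRoot
  haveI : NumberField (AdjoinRoot (X ^ p - C (a : K))) := NumberField.of_module_finite K _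
  haveI := isSplittingField_AdjoinRoot_X_pow_sub_C hζ' H
  have hpow : (AdjoinRoot.root (X ^ p - C (a : K))) ^ p =
      algebraMap K (AdjoinRoot (X ^ p - C (a : K))) (a : K) := root_X_pow_sub_C_pow p (a : K)
  have hne : AdjoinRoot.root (X ^ p - C (a : K)) ≠ 0 := by
    intro h0
    rw [h0, zero_pow (Fact.out : p.Prime).ne_zero] at hpow
    exact a.ne_zero ((map_eq_zero _).mp hpow.symm)
  exact ⟨AdjoinRoot (X ^ p - C (a : K)), inferInstance, inferInstance, inferInstance,
    Units.mk0 _ hne,
    { galois := isGalois_of_isSplittingField_X_pow_sub_C hζ' H _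
      deg := finrank_of_isSplittingField_X_pow_sub_C hζ' H _
      pow := hpow
      ne := ha }⟩

variable (L : Type) [Field L] [NumberField L] [Algebra K L]

open Polynomial IntermediateField in
/-- a Galois extension of degree `p` is cyclic, hence Kummer; `cls a ≠ 0` since otherwise
`α ∈ K` (`(α/y)^p = 1` and `μ_p ⊆ K`). -/
theorem exists_isKummer (hζ : ∃ ζ : K, IsPrimitiveRoot ζ p) [IsGalois K L]
    (hdeg : finrank K L = p) : ∃ (a : Kˣ) (α : Lˣ), IsKummer p K L a α := by
  have hp : p.Prime := Fact.out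
  haveI : FiniteDimensional K L := Module.finite_of_finrank_pos (by rw [hdeg]; exact hp.pos)
  haveI : IsCyclic Gal(L/K) :=
    isCyclic_of_prime_card (p := p) (by rw [IsGalois.card_aut_eq_finrank, hdeg])
  have hK : (primitiveRoots (finrank K L) K).Nonempty := by
    rw [hdeg]; exact kummer_primitiveRoots_nonempty hζ
  obtain ⟨α, ⟨a, ha⟩, hα⟩ := exists_root_adjoin_eq_top_of_isCyclic K L hK
  have hirr := irreducible_X_pow_sub_C_of_root_adjoin_eq_top ha.symm hα
  rw [hdeg] at hirr ha
  have hα0 : α ≠ 0 := by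
    rintro rfl
    have h1 : K⟮(0 : L)⟯ = ⊥ := IntermediateField.adjoin_zero
    rw [h1] at hα
    have h2 := IntermediateField.finrank_bot (F := K) (E := L)
    rw [hα, IntermediateField.finrank_top', hdeg] at h2
    exact hp.one_lt.ne' h2
  have ha0 : a ≠ 0 := by
    rintro rfl
    rw [map_zero] at ha
    exact hα0 (pow_eq_zero_iff hp.ne_zero |>.mp ha.symm)
  refine ⟨Units.mk0 a ha0, Units.mk0 α hα0, ⟨inferInstance, hdeg, ha.symm, ?_⟩⟩
  intro hcls
  obtain ⟨y, hy⟩ := (cls_eq_zero_iff p _).mp hcls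
  have hy' : (y : K) ^ p = a := by
    have := congrArg Units.val hy
    simpa using this
  have hroot : (X ^ p - C a : K[X]).IsRoot (y : K) := by
    simp [hy']
  have hd := degree_eq_one_of_irreducible_of_root hirr hroot
  rw [degree_X_pow_sub_C hp.pos] at hd
  have : p = 1 := by exact_mod_cast hd
  exact hp.one_lt.ne' this

variable {p K L}

/-- change of Kummer generator -/
theorem IsKummer.mul_pow {a : Kˣ} {α : Lˣ} (h : IsKummer p K L a α) (y : Kˣ) :
    IsKummer p K L (a * y ^ p) (α * Units.map (algebraMap K L : K →* L) y) where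
  galois := h.galois
  deg := h.deg
  pow := by
    simp [_root_.mul_pow, h.pow]
  ne := by
    rw [cls_mul, cls_pow, KP_nsmul, add_zero]
    exact h.ne

open Polynomial in
/-- the minimal polynomial of `α`. -/
theorem IsKummer.minpoly_eq {a : Kˣ} {α : Lˣ} (h : IsKummer p K L a α) :
    minpoly K (α : L) = Polynomial.X ^ p - Polynomial.C (a : K) := by
  refine (minpoly.eq_of_irreducible_of_monic (kummer_irreducible a h.ne) ?_
    (monic_X_pow_sub_C _ (Fact.out : p.Prime).ne_zero)).symm
  simp [h.pow]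

/-- `α ∉ K`, so `K(α) = L` (degree `p` prime). -/
theorem IsKummer.adjoin_eq_top {a : Kˣ} {α : Lˣ} (h : IsKummer p K L a α) :
    IntermediateField.adjoin K {(α : L)} = ⊤ := by
  have hp : p.Prime := Fact.out
  haveI : FiniteDimensional K L := Module.finite_of_finrank_pos (by rw [h.deg]; exact hp.pos)
  rw [Field.primitive_element_iff_minpoly_natDegree_eq, h.minpoly_eq, h.deg,
    Polynomial.natDegree_X_pow_sub_C]

/-- a nontrivial automorphism multiplies `α` by a primitive `p`-th root of unity of `K`. -/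
theorem IsKummer.exists_root_of_ne_one {a : Kˣ} {α : Lˣ} (h : IsKummer p K L a α)
    (hζ : ∃ ζ : K, IsPrimitiveRoot ζ p) (σ : L ≃ₐ[K] L) (hσ : σ ≠ 1) :
    ∃ ζ : K, IsPrimitiveRoot ζ p ∧ σ (α : L) = algebraMap K L ζ * (α : L) := by
  have hp : p.Prime := Fact.out
  haveI : NeZero p := ⟨hp.ne_zero⟩
  obtain ⟨ζ₀, hζ₀⟩ := hζ
  have hζL : IsPrimitiveRoot (algebraMap K L ζ₀) p :=
    hζ₀.map_of_injective (algebraMap K L).injective
  have hα0 : (α : L) ≠ 0 := α.ne_zero
  have h1 : (σ (α : L) / (α : L)) ^ p = 1 := by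
    rw [div_pow, ← map_pow, h.pow, AlgEquiv.commutes, div_self]
    exact (map_ne_zero _).mpr a.ne_zero
  obtain ⟨i, hi, hi'⟩ := hζL.eq_pow_of_pow_eq_one h1
  have hσα : σ (α : L) = algebraMap K L (ζ₀ ^ i) * (α : L) := by
    rw [map_pow, hi', div_mul_cancel₀ _ hα0]
  refine ⟨ζ₀ ^ i, ?_, hσα⟩
  apply hζ₀.pow_of_coprime
  rcases Nat.eq_zero_or_pos i with rfl | hipos
  · exfalso
    apply hσ
    rw [pow_zero, map_one, one_mul] at hσα
    have htop := h.adjoin_eq_top
    haveI : FiniteDimensional K L := Module.finite_of_finrank_pos (by rw [h.deg]; exact hp.pos)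
    have htop' : Algebra.adjoin K {(α : L)} = ⊤ := by
      rw [← IntermediateField.adjoin_simple_toSubalgebra_of_isAlgebraic
        (Algebra.IsAlgebraic.isAlgebraic (α : L)), htop, IntermediateField.top_toSubalgebra]
    have : (σ : L →ₐ[K] L) = AlgHom.id K L := by
      apply AlgHom.ext_of_adjoin_eq_top htop'
      intro x hx
      rw [Set.mem_singleton_iff] at hx
      subst hx
      exact hσα
    ext x
    exact DFunLike.congr_fun this x
  · exact (Nat.coprime_comm.mp ((Nat.Prime.coprime_iff_not_dvd hp).mpr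
      (Nat.not_dvd_of_pos_of_lt hipos hi)))

end

end Fermat.Agent.S55.G
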