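import Fermat.Agent.S55.G.Defs
import Fermat.Agent.S55.G.KummerExt

open IsDedekindDomain NumberField Module

namespace Fermat.Agent.S55.G

noncomputable section

set_option linter.unusedSectionVars false
set_option linter.style.haveILetI false

/-! # S55/G-KummerKer : `K^× ∩ L^×p = a^ℤ K^×p` for `L = K(a^{1/p})`.
`x = y^p`, `y ∈ L`.  Let `σ ≠ 1` in `Gal(L/K)` (it generates: prime order), `σ α = ζ α`
(`IsKummer.exists_root_of_ne_one`).  `(σ y/y)^p = 1` so `σ y = ζ^k y`; then `y/α^k` is fixed by `σ`,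
hence by the whole group, hence lies in `K`: `y = α^k z`, `x = a^k z^p`. -/

variable {p : ℕ} [Fact p.Prime] {K : Type} [Field K] [NumberField K]
variable {L : Type} [Field L] [NumberField L] [Algebra K L]

theorem IsKummer.ker_mapKP (hζ : ∃ ζ : K, IsPrimitiveRoot ζ p) {a : Kˣ} {α : Lˣ}
    (h : IsKummer p K L a α) :
    LinearMap.ker (mapKP p K L) = Submodule.span (ZMod p) {cls p a} := by
  have hp : p.Prime := Fact.out
  haveI := h.galois
  have hfd : FiniteDimensional K L :=
    FiniteDimensional.of_finrank_pos (by rw [h.deg]; exact hp.pos)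
  apply le_antisymm
  · intro ξ hξ
    obtain ⟨x, rfl⟩ := cls_surjective p ξ
    rw [LinearMap.mem_ker, mapKP_cls, cls_eq_zero_iff] at hξ
    obtain ⟨y, hy⟩ := hξ
    have hy' : (y : L) ^ p = algebraMap K L x := by
      have := congrArg Units.val hy
      simpa using this
    have hcard : Nat.card (L ≃ₐ[K] L) = p := by rw [IsGalois.card_aut_eq_finrank, h.deg]
    obtain ⟨σ, hσ⟩ : ∃ σ : L ≃ₐ[K] L, σ ≠ 1 := by
      have : Nontrivial (L ≃ₐ[K] L) := by
        rw [← Finite.one_lt_card_iff_nontrivial, hcard]; exact hp.one_lt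
      exact exists_ne 1
    obtain ⟨ζ, hζp, hσα⟩ := h.exists_root_of_ne_one hζ σ hσ
    have hζL : IsPrimitiveRoot (algebraMap K L ζ) p :=
      hζp.map_of_injective (algebraMap K L).injective
    have hy0 : (y : L) ≠ 0 := y.ne_zero
    have hα0 : (α : L) ≠ 0 := α.ne_zero
    have h1 : (σ (y : L) / (y : L)) ^ p = 1 := by
      rw [div_pow, ← map_pow, hy', AlgEquiv.commutes, ← hy', div_self (pow_ne_zero _ hy0)]
    haveI : NeZero p := ⟨hp.ne_zero⟩
    obtain ⟨k, -, hk⟩ := hζL.eq_pow_of_pow_eq_one h1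
    have hσy : σ (y : L) = algebraMap K L ζ ^ k * (y : L) := by
      rw [hk, div_mul_cancel₀ _ hy0]
    set w : L := (y : L) / (α : L) ^ k with hw
    have hσw : σ w = w := by
      rw [hw, map_div₀, map_pow, hσy, hσα, _root_.mul_pow]
      have : algebraMap K L ζ ^ k ≠ 0 := pow_ne_zero _ (hζL.ne_zero hp.ne_zero)
      field_simp
    have hfix : ∀ τ : L ≃ₐ[K] L, τ w = w := by
      intro τ
      have hτ : τ ∈ Subgroup.zpowers σ := mem_zpowers_of_prime_card hcard hσ
      have hstab : Subgroup.zpowers σ ≤ MulAction.stabilizer (L ≃ₐ[K] L) w := by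
        rw [Subgroup.zpowers_le]
        exact hσw
      exact hstab hτ
    obtain ⟨z, hz⟩ := (IsGalois.mem_range_algebraMap_iff_fixed w).2 hfix
    have hw0 : w ≠ 0 := div_ne_zero hy0 (pow_ne_zero _ hα0)
    have hz0 : z ≠ 0 := by
      rintro rfl
      exact hw0 (by rw [← hz, map_zero])
    have hyz : (y : L) = (α : L) ^ k * algebraMap K L z := by
      rw [hz, hw, mul_div_cancel₀ _ (pow_ne_zero _ hα0)]
    have hx : (x : K) = (a : K) ^ k * z ^ p := by
      apply (algebraMap K L).injective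
      rw [← hy', hyz, _root_.mul_pow, ← pow_mul, mul_comm k p, pow_mul, h.pow, map_mul, map_pow, map_pow]
    have hxu : x = a ^ k * (Units.mk0 z hz0) ^ p := Units.ext (by simpa using hx)
    have hcls : cls p x = (k : ZMod p) • cls p a := by
      rw [zmod_smul_cls, cls_eq_iff]
      exact ⟨_, hxu⟩
    rw [hcls]
    exact Submodule.smul_mem _ _ (Submodule.mem_span_singleton_self _)
  · rw [Submodule.span_singleton_le_iff_mem, LinearMap.mem_ker, mapKP_cls, cls_eq_zero_iff]
    refine ⟨α, Units.ext ?_⟩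
    simpa using h.pow

end

end Fermat.Agent.S55.G
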