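import Fermat.Agent.S55.G.Defs
import Fermat.Agent.S55.G.KummerExt

open IsDedekindDomain NumberField Module

namespace Fermat.Agent.S55.G

noncomputable section

set_option linter.unusedSectionVars false
set_option linter.style.haveILetI false

/-! # S55/G-KummerNorm : `N(c - α) = c^p - a`.
`N(c - α) = (charpoly of α)(c)` and the characteristic polynomial of `α` is its minimal polynomial
`X^p - a` (`IsKummer.minpoly_eq`, `IsKummer.adjoin_eq_top`; e.g. `Algebra.norm_eq_prod_roots`,
`Algebra.PowerBasis.norm_gen_eq_coeff_zero_minpoly` applied to the generator `c - α`, or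
`Algebra.norm_eq_prod_automorphisms` + `IsKummer.exists_root_of_ne_one`). -/

variable {p : ℕ} [Fact p.Prime] {K : Type} [Field K] [NumberField K]
variable {L : Type} [Field L] [NumberField L] [Algebra K L]

theorem IsKummer.norm_sub {a : Kˣ} {α : Lˣ} (h : IsKummer p K L a α) (c : K) :
    Algebra.norm K (algebraMap K L c - (α : L)) = c ^ p - (a : K) := by
  have hp : 0 < p := (Fact.out : p.Prime).pos
  have hfd : FiniteDimensional K L := FiniteDimensional.of_finrank_pos (by rw [h.deg]; exact hp)
  set f : L →ₗ[K] L := Algebra.lmul K L (α : L) with hf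
  have hmin : minpoly K f = Polynomial.X ^ p - Polynomial.C (a : K) := by
    rw [hf, minpoly.algHom_eq (Algebra.lmul K L) (Algebra.lmul_injective), h.minpoly_eq]
  have hmonic : (Polynomial.X ^ p - Polynomial.C (a : K)).Monic :=
    Polynomial.monic_X_pow_sub_C _ hp.ne'
  have hchar : f.charpoly = Polynomial.X ^ p - Polynomial.C (a : K) := by
    refine Polynomial.eq_of_monic_of_dvd_of_natDegree_le hmonic f.charpoly_monic ?_ ?_
    · rw [← hmin]; exact LinearMap.minpoly_dvd_charpoly f
    · rw [LinearMap.charpoly_natDegree, h.deg, Polynomial.natDegree_X_pow_sub_C]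
  have heval := LinearMap.eval_charpoly f c
  rw [hchar] at heval
  simp only [Polynomial.eval_sub, Polynomial.eval_pow, Polynomial.eval_X,
    Polynomial.eval_C] at heval
  rw [heval, Algebra.norm_apply, map_sub]
  congr 2
  ext x
  simp [Algebra.smul_def]

/-- `c = 0`: `N(-α) = -a`, so `N(α) = a` for odd `p`. -/
theorem IsKummer.cls_mem_NN (hodd : p ≠ 2) {a : Kˣ} {α : Lˣ} (h : IsKummer p K L a α) :
    cls p a ∈ NN p K L := by
  have hp : p.Prime := Fact.out
  have hoddp : Odd p := hp.odd_of_ne_two hodd
  have h0 := h.norm_sub 0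
  rw [map_zero, zero_sub, zero_pow hp.ne_zero, zero_sub] at h0
  have h1 : Algebra.norm K (α : L) = (a : K) := by
    have h2 : Algebra.norm K (-(α : L)) = (-1) ^ p * Algebra.norm K (α : L) := by
      have : -(α : L) = algebraMap K L (-1) * (α : L) := by simp
      rw [this, map_mul, Algebra.norm_algebraMap, h.deg]
    rw [h2, hoddp.neg_one_pow] at h0
    linear_combination -h0
  refine (mem_img p).2 ⟨a, ⟨α, ?_⟩, rfl⟩
  exact Units.ext h1

end

end Fermat.Agent.S55.G
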