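import Fermat.Agent.S55.G.Defs
import Fermat.Agent.S55.G.KummerExt
import Fermat.Agent.S55.G.PlacesAbove

open IsDedekindDomain NumberField Module

namespace Fermat.Agent.S55.G

noncomputable section

set_option linter.unusedSectionVars false
set_option linter.style.haveILetI false

/-! # S55/G-KummerUnram : `K(a^{1/p})/K` is unramified at `v ∤ p` if `p ∣ ord_v a`.
By `IsKummer.mul_pow` we may assume `v(a) = 1` (`cls a ∈ OO v` gives `y` with `a y^p ∈ Uv`), so
`w(α) = 1` for `w ∣ v`.  Let `e = ramificationIdx`, `f = inertiaDeg`, `g` = number of primes above `v`: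
`e f g = p` (`Ideal.ncard_primesOver_mul_ramificationIdxIn_mul_inertiaDegIn`).  Suppose `e = p`; then
`f = g = 1`.  `g = 1`: `σ w = w`.  `f = 1`: every element of the valuation ring of `w` is congruent
mod `w` to an element of `K`; hence `w(σ x - x) < 1` for all `x` with `w(x) ≤ 1`.  For `x = α`,
`σ ≠ 1`: `σ α - α = (ζ - 1) α`, so `w(ζ - 1) < 1`, so `w(p) < 1` (`p = ∏_{i=1}^{p-1} (1 - ζ^i)`),
contradicting `v ∤ p`.  So `e = 1` and `valuation_liesOver` gives `Unram`.

PROOF ACTUALLY USED (different ideal): scale `a` to an algebraic integer `b₀` which is a `v`-unit;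
`β = α y` is an algebraic integer generating `L`, with minimal polynomial `X^p - b₀`, so
`p β^(p-1)` lies in the different; if `e ≥ 2` then `w` divides the different, so `p ∈ w` or
`β ∈ w`, both impossible. -/

variable {p : ℕ} [Fact p.Prime] {K : Type} [Field K] [NumberField K]
variable {L : Type} [Field L] [NumberField L] [Algebra K L]

/-- scaling to an integral `v`-unit -/
theorem KummerUnram.exists_integral_scale (a : Kˣ) (v : Pl K) (ha : cls p a ∈ OO p K v) :
    ∃ (y : Kˣ) (b₀ : 𝓞 K), ((a * y ^ p : Kˣ) : K) = algebraMap (𝓞 K) K b₀ ∧ b₀ ∉ v.asIdeal := by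
  obtain ⟨y₀, hy₀⟩ := (cls_mem_img p).1 ha
  have hy₀' : v.valuation K ((a * y₀ ^ p : Kˣ) : K) = 1 := hy₀
  obtain ⟨n, d, hnd⟩ := v.exists_primeCompl_mul_eq_of_integer ((a * y₀ ^ p : Kˣ) : K) hy₀'.le
  have hd0 : algebraMap (𝓞 K) K (d : 𝓞 K) ≠ 0 := by
    intro h0
    have : (d : 𝓞 K) = 0 := (FaithfulSMul.algebraMap_eq_zero_iff (𝓞 K) K).1 h0
    exact d.2 (this ▸ v.asIdeal.zero_mem)
  have hp1 : 1 ≤ p := (Fact.out : p.Prime).one_le
  have hdv : v.valuation K (algebraMap (𝓞 K) K (d : 𝓞 K)) = 1 := by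
    rw [HeightOneSpectrum.valuation_of_algebraMap, HeightOneSpectrum.intValuation_eq_one_iff_mem_primeCompl]
    exact d.2
  refine ⟨y₀ * Units.mk0 _ hd0, n * (d : 𝓞 K) ^ (p - 1), ?_, ?_⟩
  · have : ((a * (y₀ * Units.mk0 _ hd0) ^ p : Kˣ) : K) =
        (((a * y₀ ^ p : Kˣ) : K) * algebraMap (𝓞 K) K (d : 𝓞 K)) *
          algebraMap (𝓞 K) K (d : 𝓞 K) ^ (p - 1) := by
      have h2 : algebraMap (𝓞 K) K (d : 𝓞 K) ^ p =
          algebraMap (𝓞 K) K (d : 𝓞 K) * algebraMap (𝓞 K) K (d : 𝓞 K) ^ (p - 1) := by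
        rw [← pow_succ', Nat.sub_add_cancel hp1]
      push_cast
      rw [mul_pow, Units.val_mk0, h2]
      ring
    rw [this, hnd, map_mul, map_pow]
  · intro hmem
    have h1 : v.valuation K (algebraMap (𝓞 K) K (n * (d : 𝓞 K) ^ (p - 1))) < 1 :=
      (v.valuation_lt_one_iff_mem _).2 hmem
    rw [map_mul, map_pow, ← hnd, map_mul, map_mul, map_pow, hdv, hy₀'] at h1
    simp at h1

theorem IsKummer.unram (hζ : ∃ ζ : K, IsPrimitiveRoot ζ p) {a : Kˣ} {α : Lˣ}
    (h : IsKummer p K L a α) (v : Pl K) (hv : ¬ AboveP p K v) (ha : cls p a ∈ OO p K v) :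
    Unram K L v := by
  intro w hw x
  obtain ⟨y, b₀, hb, hbv⟩ := KummerUnram.exists_integral_scale a v ha
  have hk := h.mul_pow y
  set β : L := ((α * Units.map (algebraMap K L : K →* L) y : Lˣ) : L) with hβ
  have hβp : β ^ p = algebraMap (𝓞 K) L b₀ := by
    rw [hk.pow, hb, ← IsScalarTower.algebraMap_apply]
  have hp0 : p ≠ 0 := (Fact.out : p.Prime).ne_zero
  have hβint : IsIntegral ℤ β := by
    have h1 : IsIntegral ℤ (β ^ p) := by
      rw [hβp]
      exact (RingOfIntegers.isIntegral b₀).map (IsScalarTower.toAlgHom ℤ (𝓞 K) L)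
    exact IsIntegral.of_pow (Nat.pos_of_ne_zero hp0) h1
  let B : 𝓞 L := ⟨β, hβint⟩
  have hBβ : algebraMap (𝓞 L) L B = β := rfl
  have hBp : B ^ p = algebraMap (𝓞 K) (𝓞 L) b₀ := by
    apply FaithfulSMul.algebraMap_injective (𝓞 L) L
    rw [map_pow, hBβ, hβp, ← IsScalarTower.algebraMap_apply]
  have hBint : IsIntegral (𝓞 K) B := Algebra.IsIntegral.isIntegral B
  have hadj : Algebra.adjoin K {algebraMap (𝓞 L) L B} = ⊤ := by
    rw [hBβ, ← IntermediateField.adjoin_simple_toSubalgebra_of_isAlgebraic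
      (Algebra.IsAlgebraic.isAlgebraic β), hk.adjoin_eq_top]
    rfl
  have hmin : minpoly (𝓞 K) B = Polynomial.X ^ p - Polynomial.C b₀ := by
    apply Polynomial.map_injective (algebraMap (𝓞 K) K) (FaithfulSMul.algebraMap_injective (𝓞 K) K)
    rw [← minpoly.isIntegrallyClosed_eq_field_fractions K L hBint, hBβ, hk.minpoly_eq, hb]
    simp
  have hdiff : (p : 𝓞 L) * B ^ (p - 1) ∈ differentIdeal (𝓞 K) (𝓞 L) := by
    have := aeval_derivative_mem_differentIdeal (𝓞 K) K L B hadj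
    rw [hmin] at this
    simpa [Polynomial.derivative_X_pow] using this
  have hnot : ¬ w.asIdeal ∣ differentIdeal (𝓞 K) (𝓞 L) := by
    intro hdvd
    have hmem := (Ideal.dvd_iff_le.1 hdvd) hdiff
    rcases w.isPrime.mem_or_mem hmem with h1 | h1
    · apply hv
      show (p : 𝓞 K) ∈ v.asIdeal
      rw [Ideal.mem_of_liesOver w.asIdeal v.asIdeal]
      simpa using h1
    · have h2 : B ∈ w.asIdeal := w.isPrime.mem_of_pow_mem _ h1
      apply hbv
      rw [Ideal.mem_of_liesOver w.asIdeal v.asIdeal, ← hBp]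
      exact Ideal.pow_mem_of_mem _ h2 _ (Nat.pos_of_ne_zero hp0)
  have he0 : v.asIdeal.ramificationIdx' w.asIdeal ≠ 0 :=
    Ideal.IsDedekindDomain.ramificationIdx'_ne_zero_of_liesOver w.asIdeal v.ne_bot
  have he1 : v.asIdeal.ramificationIdx' w.asIdeal = 1 := by
    by_contra hne
    apply hnot
    have := v.isMaximal
    have h1 : w.asIdeal ^ (v.asIdeal.ramificationIdx' w.asIdeal) ∣
        v.asIdeal.map (algebraMap (𝓞 K) (𝓞 L)) := Ideal.dvd_iff_le.2 Ideal.le_pow_ramificationIdx'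
    have h2 := pow_sub_one_dvd_differentIdeal (𝓞 K) w.asIdeal _ v.ne_bot h1
    exact (dvd_pow_self _ (by omega)).trans h2
  have := HeightOneSpectrum.valuation_liesOver (K := K) L v w x
  rw [he1, pow_one] at this
  exact this.symm

end

end Fermat.Agent.S55.G
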