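import Fermat.Agent.S55.G.Defs

open IsDedekindDomain NumberField Module

namespace Fermat.Agent.S55.G

noncomputable section

set_option linter.unusedSectionVars false
set_option linter.style.haveILetI false

/-! # S55/G-LinAlgA : pure linear algebra (subspaces of one vector space `V` over a field `F`).
All proofs are dimension counts with `Submodule.finrank_quotient_add_finrank`,
`Submodule.finrank_sup_add_finrank_inf_eq`, second isomorphism theorem
(`LinearMap.quotientInfEquivSupQuotient`), `Submodule.finrank_mono`, ... -/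

variable {F V : Type*} [Field F] [AddCommGroup V] [Module F V]

/-- `P ≤ Q` : `V/Q` is a quotient of `V/P`. -/
theorem la_finrank_quot_mono (P Q : Submodule F V) [FiniteDimensional F (V ⧸ P)] (h : P ≤ Q) :
    FiniteDimensional F (V ⧸ Q) ∧ finrank F (V ⧸ Q) ≤ finrank F (V ⧸ P) := by
  have hs : Function.Surjective (Submodule.factor h) := Submodule.factor_surjective h
  exact ⟨Module.Finite.of_surjective _ hs, LinearMap.finrank_le_finrank_of_surjective hs⟩

/-- master formula: `codim (E+W) + dim E = codim W + dim (E ∩ W)`. -/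
theorem la_aux_master (E W : Submodule F V) [FiniteDimensional F E] [FiniteDimensional F (V ⧸ W)] :
    finrank F (V ⧸ (E ⊔ W)) + finrank F E = finrank F (V ⧸ W) + finrank F ↥(E ⊓ W) := by
  set f : E →ₗ[F] V ⧸ W := W.mkQ ∘ₗ E.subtype with hf
  have h1 := LinearMap.finrank_range_add_finrank_ker f
  have hker : finrank F (LinearMap.ker f) = finrank F ↥(E ⊓ W) := by
    rw [hf, LinearMap.ker_comp, Submodule.ker_mkQ, ← Submodule.map_comap_subtype,
      Submodule.finrank_map_subtype_eq]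
  have hrange : LinearMap.range f = E.map W.mkQ := by
    rw [hf, LinearMap.range_comp, Submodule.range_subtype]
  have h2 := Submodule.finrank_quotient_add_finrank (E.map W.mkQ)
  have h3 := (Submodule.quotientQuotientEquivQuotientSup W E).finrank_eq
  rw [sup_comm] at h3
  rw [hrange] at h1
  omega

/-- codimension is modular. -/
theorem la_aux_modular (P Q : Submodule F V) [FiniteDimensional F (V ⧸ (P ⊓ Q))] :
    finrank F (V ⧸ (P ⊔ Q)) + finrank F (V ⧸ (P ⊓ Q)) =
      finrank F (V ⧸ P) + finrank F (V ⧸ Q) := by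
  set S := P ⊓ Q with hS
  have hP := (Submodule.quotientQuotientEquivQuotient S P inf_le_left).finrank_eq
  have hQ := (Submodule.quotientQuotientEquivQuotient S Q inf_le_right).finrank_eq
  have hPQ := (Submodule.quotientQuotientEquivQuotient S (P ⊔ Q)
    (inf_le_left.trans le_sup_left)).finrank_eq
  have h1 := Submodule.finrank_quotient_add_finrank (P.map S.mkQ)
  have h2 := Submodule.finrank_quotient_add_finrank (Q.map S.mkQ)
  have h3 := Submodule.finrank_quotient_add_finrank ((P ⊔ Q).map S.mkQ)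
  have h4 := Submodule.finrank_sup_add_finrank_inf_eq (P.map S.mkQ) (Q.map S.mkQ)
  have h5 : P.map S.mkQ ⊓ Q.map S.mkQ = ⊥ := by
    rw [eq_bot_iff]
    rintro _ ⟨⟨p, hp, rfl⟩, ⟨q, hq, hpq⟩⟩
    have hsub : q - p ∈ S := by
      rw [← Submodule.Quotient.mk_eq_zero, Submodule.Quotient.mk_sub]
      exact sub_eq_zero.mpr hpq
    have hpQ : p ∈ Q := by
      have := Q.sub_mem hq (show q - p ∈ Q from hsub.2)
      simpa using this
    rw [Submodule.mem_bot, Submodule.mkQ_apply, Submodule.Quotient.mk_eq_zero]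
    exact ⟨hp, hpQ⟩
  rw [h5, finrank_bot, ← Submodule.map_sup] at h4
  omega

/-- `dim (E+W)/W = dim E/(E∩W) ≤ dim E - dim N' ≤ n-1 < n ≤ codim W`. -/
theorem la_first (E W N' : Submodule F V) [FiniteDimensional F E] [FiniteDimensional F (V ⧸ W)]
    (n : ℕ) (hN : N' ≤ E ⊓ W) (hE : finrank F E + 1 ≤ finrank F N' + n)
    (hW : n ≤ finrank F (V ⧸ W)) : E ⊔ W ≠ ⊤ := by
  intro htop
  have h1 := la_aux_master E W
  haveI : FiniteDimensional F ↥(E ⊓ W) := Submodule.finiteDimensional_inf_left E W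
  have h2 := Submodule.finrank_mono hN
  have h3 : finrank F (V ⧸ (E ⊔ W)) = 0 := by
    rw [htop]
    exact finrank_zero_of_subsingleton
  omega

/-- `n ≤ codim W = dim E/(E∩W) + codim(E+W) ≤ dim E - dim (E∩W) + 1`, so
`dim (E∩W) ≤ dim E + 1 - n = dim N'`. -/
theorem la_hnt (E W N' : Submodule F V) [FiniteDimensional F E] [FiniteDimensional F (V ⧸ W)]
    (n : ℕ) (hN : N' ≤ E ⊓ W) (hE : finrank F E + 1 = finrank F N' + n)
    (hW : n ≤ finrank F (V ⧸ W)) (h2 : finrank F (V ⧸ (E ⊔ W)) ≤ 1) : E ⊓ W = N' := by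
  have h1 := la_aux_master E W
  haveI : FiniteDimensional F ↥(E ⊓ W) := Submodule.finiteDimensional_inf_left E W
  exact (Submodule.eq_of_le_of_finrank_le hN (by omega)).symm

/-- `codim (E+P) = codim P - dim E` if `E ∩ P = 0`. -/
theorem la_second (E P : Submodule F V) [FiniteDimensional F E] [FiniteDimensional F (V ⧸ P)]
    (h : E ⊓ P = ⊥) (hdim : finrank F (V ⧸ P) ≤ finrank F E + 1) :
    finrank F (V ⧸ (E ⊔ P)) ≤ 1 := by
  have h1 := la_aux_master E P
  rw [h, finrank_bot] at h1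
  omega

/-- Put `H = E ⊔ (X ⊓ Y)`. Then `(H ⊓ Y) ⊔ X ≤ Z ⊔ X` (if `h = ε + t ∈ Y`, `ε ∈ E`, `t ∈ X ⊓ Y`
then `ε ∈ E ⊓ Y ≤ Z`), and `V/((H⊓Y)⊔X) ≅ Y/(H⊓Y) ≅ (Y⊔H)/H` has dimension `≤ codim H ≤ 1`
(use `X ⊔ Y = ⊤`). -/
theorem la_si (X Y Z E : Submodule F V) [FiniteDimensional F (V ⧸ (X ⊓ Y))] (hXY : X ⊔ Y = ⊤)
    (hEZ : E ⊓ Y ≤ Z) (h : finrank F (V ⧸ (E ⊔ (X ⊓ Y))) ≤ 1) :
    finrank F (V ⧸ (Z ⊔ X)) ≤ 1 := by
  set H := E ⊔ (X ⊓ Y) with hH
  have hle : X ⊓ Y ≤ H := le_sup_right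
  have hT : (H ⊓ Y) ⊔ X ≤ Z ⊔ X := by
    refine sup_le ?_ le_sup_right
    rintro v ⟨hvH, hvY⟩
    obtain ⟨ε, hε, t, ht, rfl⟩ := Submodule.mem_sup.mp hvH
    have hεY : ε ∈ Y := by
      have := Y.sub_mem hvY ht.2
      simpa using this
    exact Submodule.add_mem _ (Submodule.mem_sup_left (hEZ ⟨hε, hεY⟩))
      (Submodule.mem_sup_right ht.1)
  have e1 : (H ⊓ Y) ⊓ X = X ⊓ Y := by
    apply le_antisymm
    · exact le_inf inf_le_right (inf_le_left.trans inf_le_right)
    · exact le_inf (le_inf hle inf_le_right) inf_le_left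
  haveI : FiniteDimensional F (V ⧸ ((H ⊓ Y) ⊓ X)) := by rw [e1]; infer_instance
  haveI : FiniteDimensional F (V ⧸ (H ⊓ Y)) :=
    (la_finrank_quot_mono (X ⊓ Y) (H ⊓ Y) (le_inf hle inf_le_right)).1
  have m1 := la_aux_modular (H ⊓ Y) X
  have m2 := la_aux_modular H Y
  have m3 := la_aux_modular X Y
  rw [e1] at m1
  have h0 : finrank F (V ⧸ (X ⊔ Y)) = 0 := by
    rw [hXY]
    exact finrank_zero_of_subsingleton
  haveI : FiniteDimensional F (V ⧸ ((H ⊓ Y) ⊔ X)) :=
    (la_finrank_quot_mono (X ⊓ Y) ((H ⊓ Y) ⊔ X) (inf_le_left.trans le_sup_right)).1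
  have m4 := (la_finrank_quot_mono ((H ⊓ Y) ⊔ X) (Z ⊔ X) hT).2
  omega

/-- lift a finite spanning set of `V/P`. -/
theorem la_exists_finite_span (P : Submodule F V) [FiniteDimensional F (V ⧸ P)] :
    ∃ s : Finset V, Submodule.span F (s : Set V) ⊔ P = ⊤ := by
  classical
  obtain ⟨S, hS⟩ := (Module.Finite.fg_top : (⊤ : Submodule F (V ⧸ P)).FG)
  refine ⟨S.image (Function.surjInv P.mkQ_surjective), ?_⟩
  have h1 : (Submodule.span F ((S.image (Function.surjInv P.mkQ_surjective) : Finset V) :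
      Set V)).map P.mkQ = ⊤ := by
    rw [Submodule.map_span, Finset.coe_image, ← Set.image_comp, ← hS]
    congr 1
    have : (P.mkQ : V → V ⧸ P) ∘ Function.surjInv P.mkQ_surjective = id :=
      funext (Function.surjInv_eq P.mkQ_surjective)
    rw [this, Set.image_id]
  rw [sup_comm, ← Submodule.comap_map_mkQ, h1, Submodule.comap_top]

end

end Fermat.Agent.S55.G
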