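import Fermat.Agent.S55.G.Defs
import Fermat.Agent.S55.G.LinAlgA

open IsDedekindDomain NumberField Module

namespace Fermat.Agent.S55.G

noncomputable section

set_option linter.unusedSectionVars false
set_option linter.style.haveILetI false

/-! # S55/G-LinAlgB : pure linear algebra, finite families of subspaces.
Main tool: the map `V → Π i ∈ s, V/P i` has kernel `⨅ i ∈ s, P i`
(so `V/⨅ P i` embeds in a finite product), and it is onto iff the family is `LAIndep`. -/

variable {F V : Type*} [Field F] [AddCommGroup V] [Module F V]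

/-- a family of subspaces is independent on `s` ("weak approximation"). -/
def LAIndep {ι : Type*} (P : ι → Submodule F V) (s : Set ι) : Prop :=
  ∀ ξ : ι → V, ∃ x : V, ∀ i ∈ s, x - ξ i ∈ P i

/-- `V/(P ∩ Q)` embeds in `V/P × V/Q`. -/
theorem la_aux_inf (P Q : Submodule F V) [FiniteDimensional F (V ⧸ P)]
    [FiniteDimensional F (V ⧸ Q)] :
    FiniteDimensional F (V ⧸ (P ⊓ Q)) ∧
      finrank F (V ⧸ (P ⊓ Q)) ≤ finrank F (V ⧸ P) + finrank F (V ⧸ Q) := by
  have hker : LinearMap.ker (P.mkQ.prod Q.mkQ) = P ⊓ Q := by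
    rw [LinearMap.ker_prod, Submodule.ker_mkQ, Submodule.ker_mkQ]
  let f : (V ⧸ (P ⊓ Q)) →ₗ[F] (V ⧸ P) × (V ⧸ Q) :=
    (P ⊓ Q).liftQ (P.mkQ.prod Q.mkQ) hker.ge
  have hf : Function.Injective f := by
    rw [← LinearMap.ker_eq_bot]
    exact Submodule.ker_liftQ_eq_bot _ _ _ hker.le
  refine ⟨Module.Finite.of_injective f hf, ?_⟩
  have := LinearMap.finrank_le_finrank_of_injective hf
  rwa [Module.finrank_prod] at this

theorem la_aux_finset {ι : Type*} (P : ι → Submodule F V) (s : Finset ι)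
    (hfin : ∀ i ∈ s, FiniteDimensional F (V ⧸ P i)) :
    FiniteDimensional F (V ⧸ ⨅ i ∈ s, P i) ∧
      finrank F (V ⧸ ⨅ i ∈ s, P i) ≤ ∑ i ∈ s, finrank F (V ⧸ P i) := by
  classical
  induction s using Finset.induction_on with
  | empty =>
    have e : (⨅ i ∈ (∅ : Finset ι), P i) = ⊤ := by simp
    rw [e]
    exact ⟨inferInstance, by rw [finrank_zero_of_subsingleton]; simp⟩
  | insert a s ha ih =>
    obtain ⟨h1, h2⟩ := ih (fun i hi => hfin i (Finset.mem_insert_of_mem hi))
    haveI := hfin a (Finset.mem_insert_self a s)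
    rw [Finset.iInf_insert, Finset.sum_insert ha]
    obtain ⟨h3, h4⟩ := la_aux_inf (P a) (⨅ i ∈ s, P i)
    exact ⟨h3, by omega⟩

theorem la_finite_iInf {ι : Type*} (P : ι → Submodule F V) (s : Set ι) (hs : s.Finite)
    (hfin : ∀ i ∈ s, FiniteDimensional F (V ⧸ P i)) :
    FiniteDimensional F (V ⧸ ⨅ i ∈ s, P i) := by
  have h := (la_aux_finset P hs.toFinset (fun i hi => hfin i (hs.mem_toFinset.mp hi))).1
  have e : (⨅ i ∈ hs.toFinset, P i) = ⨅ i ∈ s, P i := by simp
  rwa [e] at h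

theorem la_finrank_iInf_le {ι : Type*} (P : ι → Submodule F V) (s : Finset ι)
    (hfin : ∀ i ∈ s, FiniteDimensional F (V ⧸ P i)) :
    finrank F (V ⧸ ⨅ i ∈ s, P i) ≤ ∑ i ∈ s, finrank F (V ⧸ P i) :=
  (la_aux_finset P s hfin).2

/-- given `ξ`, take `x` with `x - ξ ∈ P i` (`i ∈ s`), `x - 0 ∈ P i` (`i ∈ t`):
`ξ = (ξ - x) + x`. -/
theorem la_sup_eq_top_of_indep {ι : Type*} (P : ι → Submodule F V) (s t : Set ι)
    (hind : LAIndep P (s ∪ t)) (hst : Disjoint s t) :
    (⨅ i ∈ s, P i) ⊔ (⨅ i ∈ t, P i) = ⊤ := by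
  classical
  rw [eq_top_iff]
  intro ξ _
  obtain ⟨x, hx⟩ := hind (fun i => if i ∈ s then ξ else 0)
  have h1 : ξ - x ∈ ⨅ i ∈ s, P i := by
    simp only [Submodule.mem_iInf]
    intro i hi
    have := hx i (Or.inl hi)
    rw [if_pos hi] at this
    have h2 := (P i).neg_mem this
    rwa [neg_sub] at h2
  have h2 : x ∈ ⨅ i ∈ t, P i := by
    simp only [Submodule.mem_iInf]
    intro i hi
    have := hx i (Or.inr hi)
    rw [if_neg (fun h => Set.disjoint_left.mp hst h hi), sub_zero] at this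
    exact this
  have h3 : ξ = (ξ - x) + x := by abel
  rw [h3]
  exact Submodule.add_mem_sup h1 h2

theorem LAIndep.mono {ι : Type*} {P : ι → Submodule F V} {s t : Set ι} (h : LAIndep P t)
    (hst : s ⊆ t) : LAIndep P s := fun ξ => by
  obtain ⟨x, hx⟩ := h ξ
  exact ⟨x, fun i hi => hx i (hst hi)⟩

theorem la_aux_card {ι : Type*} [DecidableEq ι] (P W : ι → Submodule F V) (s : Finset ι)
    [DecidablePred fun i => W i ≠ ⊤]
    (hind : LAIndep P (s : Set ι)) (hPW : ∀ i ∈ s, P i ≤ W i)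
    (hfin : ∀ i ∈ s, FiniteDimensional F (V ⧸ P i)) :
    (s.filter (fun i => W i ≠ ⊤)).card ≤ finrank F (V ⧸ ⨅ i ∈ s, W i) := by
  induction s using Finset.induction_on with
  | empty => simp
  | insert a s ha ih =>
    have ih' := ih (hind.mono (by simp)) (fun i hi => hPW i (Finset.mem_insert_of_mem hi))
      (fun i hi => hfin i (Finset.mem_insert_of_mem hi))
    have hfinW : ∀ i ∈ insert a s, FiniteDimensional F (V ⧸ W i) := fun i hi =>
      haveI := hfin i hi
      (la_finrank_quot_mono (P i) (W i) (hPW i hi)).1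
    have htop : W a ⊔ (⨅ i ∈ s, W i) = ⊤ := by
      have h1 := la_sup_eq_top_of_indep P {a} (s : Set ι)
        (by rwa [Set.singleton_union, ← Finset.coe_insert])
        (by simpa using ha)
      rw [eq_top_iff, ← h1]
      refine sup_le_sup ?_ ?_
      · simpa using hPW a (Finset.mem_insert_self a s)
      · exact iInf₂_mono fun i hi => hPW i (Finset.mem_insert_of_mem hi)
    haveI : FiniteDimensional F (V ⧸ (W a ⊓ ⨅ i ∈ s, W i)) := by
      have := (la_aux_finset W (insert a s) hfinW).1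
      rwa [Finset.iInf_insert] at this
    have hmod := la_aux_modular (W a) (⨅ i ∈ s, W i)
    have h0 : finrank F (V ⧸ (W a ⊔ ⨅ i ∈ s, W i)) = 0 := by
      rw [htop]
      exact finrank_zero_of_subsingleton
    rw [Finset.iInf_insert, Finset.filter_insert]
    split_ifs with hWa
    · rw [Finset.card_insert_of_notMem (fun h => ha (Finset.mem_filter.mp h).1)]
      haveI := hfinW a (Finset.mem_insert_self a s)
      haveI : Nontrivial (V ⧸ W a) := Submodule.Quotient.nontrivial_iff.mpr hWa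
      have hpos : 0 < finrank F (V ⧸ W a) := Module.finrank_pos
      omega
    · omega

/-- `V → Π_{i ∈ s} V/W i` is onto (because `V → Π V/P i` is), so
`codim ⨅ W i = ∑ codim W i ≥ #{i : W i ≠ ⊤}`. -/
theorem la_card_le_finrank_iInf {ι : Type*} (P W : ι → Submodule F V) (s : Set ι) (hs : s.Finite)
    (hind : LAIndep P s) (hPW : ∀ i ∈ s, P i ≤ W i)
    (hfin : ∀ i ∈ s, FiniteDimensional F (V ⧸ P i)) :
    {i ∈ s | W i ≠ ⊤}.ncard ≤ finrank F (V ⧸ ⨅ i ∈ s, W i) := by
  classical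
  have h := la_aux_card P W hs.toFinset (by rwa [hs.coe_toFinset])
    (fun i hi => hPW i (hs.mem_toFinset.mp hi)) (fun i hi => hfin i (hs.mem_toFinset.mp hi))
  have e : (⨅ i ∈ hs.toFinset, W i) = ⨅ i ∈ s, W i := by simp
  rw [e] at h
  have hset : {i ∈ s | W i ≠ ⊤} = ((hs.toFinset.filter (fun i => W i ≠ ⊤) : Finset ι) : Set ι) := by
    ext i
    simp
  rw [hset, Set.ncard_coe_finset]
  exact h

end

end Fermat.Agent.S55.G
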