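import Fermat.Agent.S55.G.Defs
import Fermat.Agent.S55.G.LinAlgA
import Fermat.Agent.S55.G.LinAlgB

open IsDedekindDomain NumberField Module

namespace Fermat.Agent.S55.G

noncomputable section

set_option linter.unusedSectionVars false
set_option linter.style.haveILetI false

/-! # S55/G-LinAlgC : pure linear algebra, three selection / counting lemmas. -/

variable {F V : Type*} [Field F] [AddCommGroup V] [Module F V]

namespace LinAlgC

/-- a subspace `K` meeting `W` in codimension exactly one. -/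
theorem finrank_inf_add_one (W K : Submodule F V) [FiniteDimensional F W] (x : V) (hxW : x ∈ W)
    (hxK : x ∉ K) (h : ∀ y ∈ W, ∃ c : F, y - c • x ∈ K) :
    finrank F ↥(W ⊓ K) + 1 = finrank F W := by
  have hx0 : x ≠ 0 := fun h0 => hxK (h0 ▸ K.zero_mem)
  haveI : FiniteDimensional F ↥(W ⊓ K) := Submodule.finiteDimensional_inf_left W K
  have hsup : (W ⊓ K) ⊔ Submodule.span F {x} = W := by
    apply le_antisymm
    · exact sup_le inf_le_left ((Submodule.span_singleton_le_iff_mem x W).2 hxW)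
    · intro y hy
      obtain ⟨c, hc⟩ := h y hy
      rw [Submodule.mem_sup]
      refine ⟨y - c • x, ⟨W.sub_mem hy (W.smul_mem c hxW), hc⟩, c • x,
        Submodule.smul_mem _ c (Submodule.mem_span_singleton_self x), by abel⟩
  have hinf : (W ⊓ K) ⊓ Submodule.span F {x} = ⊥ := by
    rw [eq_bot_iff]
    rintro y ⟨⟨-, hyK⟩, hyx⟩
    obtain ⟨c, rfl⟩ := Submodule.mem_span_singleton.1 hyx
    by_cases hc : c = 0
    · simp [hc]
    · exfalso
      apply hxK
      have := K.smul_mem c⁻¹ hyK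
      rwa [smul_smul, inv_mul_cancel₀ hc, one_smul] at this
  have := Submodule.finrank_sup_add_finrank_inf_eq (W ⊓ K) (Submodule.span F {x})
  rw [hsup, hinf, finrank_bot, finrank_span_singleton hx0] at this
  omega

/-- codimension at most one. -/
theorem finrank_le_inf_add_one (W O P : Submodule F V) [FiniteDimensional F W] (hWO : W ≤ O)
    (h1 : ∀ x ∈ O, x ∉ P → O ≤ Submodule.span F {x} ⊔ P) :
    finrank F W ≤ finrank F ↥(W ⊓ P) + 1 := by
  by_cases hWP : W ≤ P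
  · rw [inf_eq_left.2 hWP]; omega
  · obtain ⟨x, hxW, hxP⟩ := SetLike.not_le_iff_exists.1 hWP
    refine (finrank_inf_add_one W P x hxW hxP ?_).ge
    intro y hy
    have := h1 x (hWO hxW) hxP (hWO hy)
    obtain ⟨u, hu, v, hv, huv⟩ := Submodule.mem_sup.1 this
    obtain ⟨c, rfl⟩ := Submodule.mem_span_singleton.1 hu
    exact ⟨c, by rw [← huv]; simpa using hv⟩

theorem select_aux {ι : Type*} (E ℓ : Submodule F V) [FiniteDimensional F E]
    (H : ι → Submodule F V) (J : Set ι)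
    (hcodim : ∀ j ∈ J, ∀ x ∈ E, ∀ y ∈ E, x ∉ H j → ∃ c : F, y - c • x ∈ H j)
    (hℓ : E ⊓ ⨅ j ∈ J, H j = ℓ) (k : ℕ) :
    ∀ T : Set ι, T ⊆ J → T.Finite → finrank F ↥(E ⊓ ⨅ j ∈ T, H j) = k →
      T.ncard + k = finrank F E →
      ∃ T : Set ι, T ⊆ J ∧ T.Finite ∧ E ⊓ ⨅ j ∈ T, H j = ℓ ∧
        T.ncard + finrank F ℓ = finrank F E := by
  induction k with
  | zero =>
    intro T hTJ hT hk hcard
    haveI : FiniteDimensional F ↥(E ⊓ ⨅ j ∈ T, H j) := Submodule.finiteDimensional_inf_left _ _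
    have hbot : E ⊓ ⨅ j ∈ T, H j = ⊥ := Submodule.finrank_eq_zero.1 hk
    have hle : ℓ ≤ E ⊓ ⨅ j ∈ T, H j := by
      rw [← hℓ]
      exact inf_le_inf_left _ (biInf_mono hTJ)
    have hℓ0 : ℓ = ⊥ := by rw [hbot] at hle; exact le_bot_iff.1 hle
    exact ⟨T, hTJ, hT, by rw [hbot, hℓ0], by rw [hℓ0, finrank_bot]; exact hcard⟩
  | succ k ih =>
    intro T hTJ hT hk hcard
    haveI : FiniteDimensional F ↥(E ⊓ ⨅ j ∈ T, H j) := Submodule.finiteDimensional_inf_left _ _
    have hle : ℓ ≤ E ⊓ ⨅ j ∈ T, H j := by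
      rw [← hℓ]
      exact inf_le_inf_left _ (biInf_mono hTJ)
    by_cases hW : E ⊓ ⨅ j ∈ T, H j ≤ ℓ
    · have heq := le_antisymm hW hle
      exact ⟨T, hTJ, hT, heq, by rw [← heq, hk]; exact hcard⟩
    · obtain ⟨x, hxW, hxℓ⟩ := SetLike.not_le_iff_exists.1 hW
      have hxJ : ∃ j ∈ J, x ∉ H j := by
        by_contra hcon
        push Not at hcon
        apply hxℓ
        rw [← hℓ]
        exact ⟨hxW.1, by simpa [Submodule.mem_iInf] using hcon⟩
      obtain ⟨j, hjJ, hxj⟩ := hxJ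
      have hjT : j ∉ T := by
        intro hjT
        apply hxj
        have h3 := (Submodule.mem_inf.1 hxW).2
        rw [Submodule.mem_iInf] at h3
        have h4 := h3 j
        rw [Submodule.mem_iInf] at h4
        exact h4 hjT
      have hins : E ⊓ ⨅ i ∈ insert j T, H i = (E ⊓ ⨅ i ∈ T, H i) ⊓ H j := by
        rw [iInf_insert, inf_comm (H j), inf_assoc]
      have hfr := finrank_inf_add_one (E ⊓ ⨅ i ∈ T, H i) (H j) x hxW hxj (by
        intro y hy
        exact hcodim j hjJ x hxW.1 y hy.1 hxj)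
      apply ih (insert j T) (Set.insert_subset hjJ hTJ) (hT.insert j)
      · rw [hins]; omega
      · rw [Set.ncard_insert_of_notMem hjT hT]; omega

theorem upper {ι : Type*} (E : Submodule F V) [FiniteDimensional F E]
    (O P : ι → Submodule F V) (T : Set ι) (hT : T.Finite)
    (hE : ∀ i ∈ T, E ≤ O i)
    (h1 : ∀ i ∈ T, ∀ x ∈ O i, x ∉ P i → O i ≤ Submodule.span F {x} ⊔ P i) :
    finrank F E ≤ finrank F ↥(E ⊓ ⨅ i ∈ T, P i) + T.ncard := by
  induction T, hT using Set.Finite.induction_on with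
  | empty => rw [iInf_emptyset, inf_top_eq]; omega
  | @insert j T hjT hT ih =>
    have ih' := ih (fun i hi => hE i (Set.mem_insert_of_mem j hi))
      (fun i hi => h1 i (Set.mem_insert_of_mem j hi))
    haveI : FiniteDimensional F ↥(E ⊓ ⨅ j ∈ T, P j) := Submodule.finiteDimensional_inf_left _ _
    have hins : E ⊓ ⨅ i ∈ insert j T, P i = (E ⊓ ⨅ i ∈ T, P i) ⊓ P j := by
      rw [iInf_insert, inf_comm (P j), inf_assoc]
    have := finrank_le_inf_add_one (E ⊓ ⨅ i ∈ T, P i) (O j) (P j)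
      (inf_le_left.trans (hE j (Set.mem_insert j T))) (h1 j (Set.mem_insert j T))
    rw [hins, Set.ncard_insert_of_notMem hjT hT]
    omega

end LinAlgC

/-- Greedy choice. `hcodim` says that `E ⊓ H j` has codimension `≤ 1` in `E`.
Induction on `finrank (E ⊓ ⨅_{j ∈ T} H j) - finrank ℓ`: as long as `E ⊓ ⨅_T H j ≠ ℓ` there is
`j ∈ J` and `x` in it with `x ∉ H j`; adding `j` to `T` lowers the dimension by exactly one. -/
theorem la_select {ι : Type*} (E ℓ : Submodule F V) [FiniteDimensional F E]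
    (H : ι → Submodule F V) (J : Set ι)
    (hcodim : ∀ j ∈ J, ∀ x ∈ E, ∀ y ∈ E, x ∉ H j → ∃ c : F, y - c • x ∈ H j)
    (hℓ : E ⊓ ⨅ j ∈ J, H j = ℓ) :
    ∃ T : Set ι, T ⊆ J ∧ T.Finite ∧ E ⊓ ⨅ j ∈ T, H j = ℓ ∧
      T.ncard + finrank F ℓ = finrank F E := by
  apply LinAlgC.select_aux E ℓ H J hcodim hℓ (finrank F E) ∅ (Set.empty_subset J) Set.finite_empty
  · rw [iInf_emptyset, inf_top_eq]
  · simp

/-- For `ξ` write `ξ = c i • e i + o i` (`o i ∈ O i`); then `ξ - ∑_{i ∈ T} c i • e i ∈ O j` for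
all `j ∈ T`. -/
theorem la_diag {ι : Type*} (O : ι → Submodule F V) (e : ι → V) (T : Set ι) (hT : T.Finite)
    (h1 : ∀ i ∈ T, Submodule.span F {e i} ⊔ O i = ⊤)
    (h2 : ∀ i ∈ T, ∀ j ∈ T, i ≠ j → e i ∈ O j) :
    Submodule.span F (e '' T) ⊔ ⨅ i ∈ T, O i = ⊤ := by
  classical
  rw [eq_top_iff]
  intro ξ _
  have hc : ∀ i, ∃ c : F, i ∈ T → ξ - c • e i ∈ O i := by
    intro i
    by_cases hi : i ∈ T
    · have : ξ ∈ Submodule.span F {e i} ⊔ O i := by rw [h1 i hi]; trivial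
      obtain ⟨u, hu, v, hv, huv⟩ := Submodule.mem_sup.1 this
      obtain ⟨c, rfl⟩ := Submodule.mem_span_singleton.1 hu
      exact ⟨c, fun _ => by rw [← huv]; simpa using hv⟩
    · exact ⟨0, fun h => absurd h hi⟩
  choose c hc using hc
  rw [Submodule.mem_sup]
  refine ⟨∑ i ∈ hT.toFinset, c i • e i, ?_, ξ - ∑ i ∈ hT.toFinset, c i • e i, ?_, by abel⟩
  · apply Submodule.sum_mem
    intro i hi
    exact Submodule.smul_mem _ _ (Submodule.subset_span ⟨i, hT.mem_toFinset.1 hi, rfl⟩)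
  · simp only [Submodule.mem_iInf]
    intro j hj
    rw [← Finset.add_sum_erase _ _ (hT.mem_toFinset.2 hj), ← sub_sub]
    apply Submodule.sub_mem _ (hc j hj)
    apply Submodule.sum_mem
    intro i hi
    rw [Finset.mem_erase] at hi
    exact Submodule.smul_mem _ _ (h2 i (hT.mem_toFinset.1 hi.2) j hj hi.1)

/-- `φ : ⨅ O i → Π_{i ∈ T} O i/P i` has kernel `⨅ P i` and a target of dimension `≤ #T`;
`dim φ(E) = dim E - dim (E ⊓ ⨅ P i) ≥ #T`, so `φ(E)` is everything. -/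
theorem la_surj_count {ι : Type*} (E : Submodule F V) [FiniteDimensional F E]
    (O P : ι → Submodule F V) (T : Set ι) (hT : T.Finite) (hPO : ∀ i ∈ T, P i ≤ O i)
    (hE : ∀ i ∈ T, E ≤ O i)
    (h1 : ∀ i ∈ T, ∀ x ∈ O i, x ∉ P i → O i ≤ Submodule.span F {x} ⊔ P i)
    (hdim : finrank F ↥(E ⊓ ⨅ i ∈ T, P i) + T.ncard ≤ finrank F E) :
    ⨅ i ∈ T, O i ≤ E ⊔ ⨅ i ∈ T, P i := by
  induction T, hT using Set.Finite.induction_on with
  | empty => simp
  | @insert j T hjT hT ih =>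
    have hE' : ∀ i ∈ T, E ≤ O i := fun i hi => hE i (Set.mem_insert_of_mem j hi)
    have h1' : ∀ i ∈ T, ∀ x ∈ O i, x ∉ P i → O i ≤ Submodule.span F {x} ⊔ P i :=
      fun i hi => h1 i (Set.mem_insert_of_mem j hi)
    haveI : FiniteDimensional F ↥(E ⊓ ⨅ j ∈ T, P j) := Submodule.finiteDimensional_inf_left _ _
    have hins : E ⊓ ⨅ i ∈ insert j T, P i = (E ⊓ ⨅ i ∈ T, P i) ⊓ P j := by
      rw [iInf_insert, inf_comm (P j), inf_assoc]
    have hC := LinAlgC.finrank_le_inf_add_one (E ⊓ ⨅ i ∈ T, P i) (O j) (P j)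
      (inf_le_left.trans (hE j (Set.mem_insert j T))) (h1 j (Set.mem_insert j T))
    have hU := LinAlgC.upper E O P T hT hE' h1'
    rw [hins, Set.ncard_insert_of_notMem hjT hT] at hdim
    have ih' := ih (fun i hi => hPO i (Set.mem_insert_of_mem j hi)) hE' h1' (by omega)
    have hz : ¬ (E ⊓ ⨅ i ∈ T, P i ≤ P j) := by
      intro hle
      rw [inf_eq_left.2 hle] at hdim
      omega
    obtain ⟨z, hzW, hzP⟩ := SetLike.not_le_iff_exists.1 hz
    intro ξ hξ
    rw [iInf_insert] at hξ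
    obtain ⟨ε, hε, t, ht, hεt⟩ := Submodule.mem_sup.1 (ih' hξ.2)
    have htO : t ∈ O j := by
      have : t = ξ - ε := by rw [← hεt]; abel
      rw [this]
      exact (O j).sub_mem hξ.1 (hE j (Set.mem_insert j T) hε)
    have hzO : z ∈ O j := hE j (Set.mem_insert j T) hzW.1
    obtain ⟨u, hu, v, hv, huv⟩ := Submodule.mem_sup.1 (h1 j (Set.mem_insert j T) z hzO hzP htO)
    obtain ⟨c, rfl⟩ := Submodule.mem_span_singleton.1 hu
    rw [Submodule.mem_sup]
    refine ⟨ε + c • z, E.add_mem hε (E.smul_mem c hzW.1), v, ?_, by rw [← hεt, ← huv]; abel⟩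
    rw [iInf_insert]
    refine ⟨hv, ?_⟩
    have : v = t - c • z := by rw [← huv]; abel
    rw [this]
    exact Submodule.sub_mem _ ht (Submodule.smul_mem _ c hzW.2)

end

end Fermat.Agent.S55.G
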