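import Fermat.Agent.S55.G.Defs

open IsDedekindDomain NumberField Module

namespace Fermat.Agent.S55.G

noncomputable section

set_option linter.unusedSectionVars false
set_option linter.style.haveILetI false

/-! # S55/G-ValStable : Hensel iteration inside `K` (no completion).
Write `|.|` for `v.valuation K`.  Claim: if `t ∈ K`, `s = t - 1 ≠ 0`, `|s| < |p|^2` then with
`r = 1 + s/p` (`|r| = 1`): `|t / r^p - 1| < |s|`.  Indeed
`r^p = 1 + s + ∑_{k=2}^{p} C(p,k) (s/p)^k`; for `2 ≤ k < p`: `p ∣ C(p,k)` so the term has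
`|.| ≤ |p| |s|^k/|p|^k ≤ |s| (|s|/|p|) < |s|`; for `k = p`: `|s|^p/|p|^p = |s| (|s|/|p|)^(p-1)/|p|
< |s| |p|^(p-2) ≤ |s|` (`p ≥ 3`).  (If `v ∤ p`, `|p| = 1` and all terms are `≤ |s|^2 < |s|`.)
The value group is `ℤ`, so iterating we get below any `c ≠ 0`
(induction on `n` with `|t_n - 1| ≤ exp (-n)`-type bounds, `WithZero.exp`, `WithZero.log`). -/

/-- one Hensel/Newton step for `X^p = t`, for an arbitrary valuation which is `≤ 1` on `ℕ`. -/
theorem valStable_hensel_step {F Γ : Type*} [Field F] [LinearOrderedCommGroupWithZero Γ]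
    (w : Valuation F Γ) (p : ℕ) (hp : p.Prime) (hint : ∀ n : ℕ, w (n : F) ≤ 1)
    (hp0 : w (p : F) ≠ 0) (t : F) (hs : w (t - 1) < w (p : F) ^ 2) (hs0 : t - 1 ≠ 0) :
    ∃ r : Fˣ, w (t * (r : F) ^ p - 1) < w (t - 1) := by
  set π := w (p : F) with hπ
  have hπ1 : π ≤ 1 := hint p
  have hπpos : 0 < π := zero_lt_iff.2 hp0
  have hpF : (p : F) ≠ 0 := (Valuation.ne_zero_iff w).1 hp0
  set s := t - 1 with hsdef
  set u := s / (p : F) with hu
  have hws0 : w s ≠ 0 := (Valuation.ne_zero_iff w).2 hs0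
  have hsu : s = (p : F) * u := by rw [hu]; field_simp
  have hwsu : w s = π * w u := by rw [hsu, map_mul]
  have hwu0 : w u ≠ 0 := by
    intro h; rw [h, mul_zero] at hwsu; exact hws0 hwsu
  have hwupos : 0 < w u := zero_lt_iff.2 hwu0
  have hwuπ : w u < π := by
    have : π * w u < π * π := by rw [← hwsu, ← sq]; exact hs
    exact lt_of_mul_lt_mul_left' this
  have hwu1 : w u < 1 := lt_of_lt_of_le hwuπ hπ1
  have hr1 : w (u + 1) = 1 := by
    have := Valuation.map_add_eq_of_lt_left w (x := 1) (y := u) (by simpa using hwu1)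
    rw [add_comm]; simpa using this
  have hr0 : u + 1 ≠ 0 := by
    intro h; rw [h, map_zero] at hr1; exact zero_ne_one hr1
  obtain ⟨q, rfl⟩ : ∃ q, p = q + 2 := ⟨p - 2, by have := hp.two_le; omega⟩
  -- the error term
  set E : F := ∑ m ∈ Finset.range (q + 1), u ^ (m + 2) * ((q + 2).choose (m + 2) : F) with hE
  have hexp : (u + 1) ^ (q + 2) = E + s + 1 := by
    rw [add_pow, Finset.sum_range_succ', Finset.sum_range_succ', hE, hsu]
    simp only [one_pow, mul_one, pow_zero, Nat.choose_zero_right, Nat.cast_one, zero_add, pow_one,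
      Nat.choose_one_right]
    ring
  have hEs : w E < w s := by
    rw [hE]
    refine Valuation.map_sum_lt w hws0 ?_
    intro m hm
    have hm' : m < q + 1 := Finset.mem_range.1 hm
    have hpow : w u ^ (m + 2) ≤ w u ^ 2 :=
      pow_le_pow_of_le_one zero_le hwu1.le (by omega)
    rw [map_mul, map_pow]
    rcases Nat.lt_succ_iff_lt_or_eq.1 hm' with hlt | heq
    · -- `p ∣ C(p, m+2)`
      obtain ⟨c, hc⟩ := hp.dvd_choose_self (k := m + 2) (by omega) (by omega)
      have hC : w (((q + 2).choose (m + 2) : ℕ) : F) ≤ π := by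
        rw [hc, Nat.cast_mul, map_mul]
        calc w ((q + 2 : ℕ) : F) * w (c : F) ≤ π * 1 := by
              rw [hπ]; gcongr; exact hint c
          _ = π := mul_one _
      calc w u ^ (m + 2) * w (((q + 2).choose (m + 2) : ℕ) : F)
          ≤ w u ^ 2 * π := mul_le_mul' hpow hC
        _ = w s * w u := by rw [hwsu, sq, mul_comm, mul_assoc]
        _ < w s * 1 := by
            exact mul_lt_mul_of_pos_left hwu1 (zero_lt_iff.2 hws0)
        _ = w s := mul_one _
    · subst heq
      rw [Nat.choose_self, Nat.cast_one, map_one, mul_one]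
      calc w u ^ (m + 2) ≤ w u ^ 2 := hpow
        _ = w u * w u := sq _
        _ < w u * π := mul_lt_mul_of_pos_left hwuπ hwupos
        _ = w s := by rw [hwsu, mul_comm]
  refine ⟨(Units.mk0 (u + 1) hr0)⁻¹, ?_⟩
  have hkey : t * (((Units.mk0 (u + 1) hr0)⁻¹ : Fˣ) : F) ^ (q + 2) - 1
      = -(E * ((u + 1) ^ (q + 2))⁻¹) := by
    have ht : t = s + 1 := by rw [hsdef]; ring
    have hne : (u + 1) ^ (q + 2) ≠ 0 := pow_ne_zero _ hr0
    rw [Units.val_inv_eq_inv_val, Units.val_mk0, inv_pow]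
    field_simp
    rw [hexp, ht]; ring
  rw [hkey, Valuation.map_neg, map_mul, map_inv₀, map_pow, hr1, one_pow, inv_one, mul_one]
  exact hEs

variable (p : ℕ) [Fact p.Prime] (K : Type) [Field K] [NumberField K]

omit [Fact p.Prime] in
theorem valStable_natCast_le_one (v : Pl K) (n : ℕ) : v.valuation K (n : K) ≤ 1 := by
  have := v.valuation_le_one (K := K) (n : 𝓞 K)
  simpa using this

/-- the iteration: we win a factor `exp (-1)` at each step. -/
theorem valStable_iterate (v : Pl K) (x : Kˣ) (hx : cls p x ∈ PP p K v) (n : ℕ) :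
    ∃ y : Kˣ, v.valuation K ((x : K) * (y : K) ^ p - 1) <
      (v.valuation K (p : K)) ^ 2 * WithZero.exp (-(n : ℤ)) := by
  have hπ0 : (v.valuation K (p : K)) ^ 2 ≠ 0 := pow_ne_zero _ (val_p_ne_zero p K v)
  induction n with
  | zero => simpa using (cls_mem_PP p K).1 hx
  | succ n ih =>
    obtain ⟨y, hy⟩ := ih
    have hC0 : (v.valuation K (p : K)) ^ 2 * WithZero.exp (-((n + 1 : ℕ) : ℤ)) ≠ 0 :=
      mul_ne_zero hπ0 WithZero.exp_ne_zero
    by_cases h0 : (x : K) * (y : K) ^ p - 1 = 0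
    · exact ⟨y, by rw [h0, map_zero]; exact zero_lt_iff.2 hC0⟩
    · have hle : (v.valuation K (p : K)) ^ 2 * WithZero.exp (-(n : ℤ)) ≤
          (v.valuation K (p : K)) ^ 2 := by
        calc (v.valuation K (p : K)) ^ 2 * WithZero.exp (-(n : ℤ))
            ≤ (v.valuation K (p : K)) ^ 2 * 1 := by
              gcongr
              rw [← WithZero.exp_zero, WithZero.exp_le_exp]; omega
          _ = _ := mul_one _
      obtain ⟨r, hr⟩ := valStable_hensel_step (v.valuation K) p Fact.out (valStable_natCast_le_one K v)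
        (val_p_ne_zero p K v) ((x : K) * (y : K) ^ p) (lt_of_lt_of_le hy hle) h0
      refine ⟨y * r, ?_⟩
      have hb : v.valuation K ((x : K) * (y : K) ^ p - 1) ≤
          (v.valuation K (p : K)) ^ 2 * WithZero.exp (-((n + 1 : ℕ) : ℤ)) := by
        rw [← WithZero.lt_mul_exp_iff_le hC0, mul_assoc, ← WithZero.exp_add]
        have : (-((n + 1 : ℕ) : ℤ) + 1) = -(n : ℤ) := by push_cast; ring
        rw [this]; exact hy
      have he : (x : K) * ((y * r : Kˣ) : K) ^ p - 1 = (x : K) * (y : K) ^ p * (r : K) ^ p - 1 := by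
        push_cast; ring
      rw [he]
      exact lt_of_lt_of_le hr hb

/-- a local `p`-th power is a global `p`-th power times an element as close to `1` as we want. -/
theorem PP_stable (hodd : p ≠ 2) (v : Pl K) (x : Kˣ) (hx : cls p x ∈ PP p K v)
    (c : WithZero (Multiplicative ℤ)) (hc : c ≠ 0) :
    ∃ y : Kˣ, v.valuation K ((x : K) * (y : K) ^ p - 1) < c := by
  have hπ0 : (v.valuation K (p : K)) ^ 2 ≠ 0 := pow_ne_zero _ (val_p_ne_zero p K v)
  obtain ⟨k, hk⟩ := WithZero.exists_exp_neg_natCast_lt hc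
  obtain ⟨y, hy⟩ := valStable_iterate p K v x hx k
  refine ⟨y, lt_of_lt_of_le hy (le_trans ?_ hk.le)⟩
  calc (v.valuation K (p : K)) ^ 2 * WithZero.exp (-(k : ℤ))
      ≤ 1 * WithZero.exp (-(k : ℤ)) := by gcongr; exact val_p_sq_le_one p K v
    _ = _ := one_mul _

end

end Fermat.Agent.S55.G
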