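import Fermat.Agent.S55.G.Defs
import Fermat.Agent.S55.G.ValStable
import Fermat.Agent.S55.G.KummerExt
import Fermat.Agent.S55.G.KummerNorm

open IsDedekindDomain NumberField Module

namespace Fermat.Agent.S55.G

noncomputable section

set_option linter.unusedSectionVars false
set_option linter.style.haveILetI false

/-! # S55/G-Split : (H1) at a place where `a` is a local `p`-th power every element is a local norm.
`|.| = v.valuation K`.  Let `z ∈ K^×` with `|z| < |p|^3`.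
By `PP_stable` choose `y` with `t := a y^p`, `|t - 1| < |p|^3 |z|`; `τ := α y` is a Kummer generator
(`IsKummer.mul_pow`), so `N(c - τ) = c^p - t` (`IsKummer.norm_sub`) with `c = 1 + z`.
`c^p - 1 = p z (1 + ε)`, `ε = ∑_{k=2}^{p} C(p,k) z^(k-1)/p`, `|ε| < |p|^2`
(`k < p`: `|C(p,k)/p| ≤ 1`, `|z|^(k-1) ≤ |z| < |p|^2`; `k = p`: `|z|^(p-1)/|p| ≤ |z|^2/|p| < |p|^5`).
So `c^p - t = p z (1 + ε + (1-t)/(p z))` with `|(1-t)/(pz)| < |p|^2`: `cls (p z) ∈ NN + PP v`.
For arbitrary `x ∈ K^×` choose `z₁ ≠ 0` so small that `|z₁| < |p|^3` and `|x z₁| < |p|^3`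
(a high power of a nonzero element of `v`): `cls x = cls (p x z₁) - cls (p z₁)`. -/

variable {p : ℕ} [Fact p.Prime] {K : Type} [Field K] [NumberField K]
variable {L : Type} [Field L] [NumberField L] [Algebra K L]

namespace Split

theorem val_natCast_le_one (v : Pl K) (n : ℕ) : v.valuation K (n : K) ≤ 1 := by
  have := v.valuation_le_one (K := K) (n : 𝓞 K)
  simpa using this

/-- `(1+z)^n = 1 + n z + z^2 w` with `|w| ≤ 1` when `|z| ≤ 1`. -/
theorem exists_binom (v : Pl K) (z : K) (hz : v.valuation K z ≤ 1) (n : ℕ) :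
    ∃ w : K, v.valuation K w ≤ 1 ∧ (1 + z) ^ n = 1 + n * z + z ^ 2 * w := by
  induction n with
  | zero => exact ⟨0, by simp, by simp⟩
  | succ n ih =>
    obtain ⟨w, hw, h⟩ := ih
    refine ⟨n + w + z * w, ?_, ?_⟩
    · refine (Valuation.map_add _ _ _).trans (max_le ((Valuation.map_add _ _ _).trans
        (max_le (val_natCast_le_one v n) hw)) ?_)
      rw [map_mul]
      exact mul_le_one₀ hz zero_le hw
    · rw [pow_succ, h]
      push_cast
      ring

/-- elements of arbitrarily small valuation -/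
theorem exists_small (v : Pl K) (c : WithZero (Multiplicative ℤ)) (hc : c ≠ 0) :
    ∃ z : K, z ≠ 0 ∧ v.valuation K z < c := by
  obtain ⟨ϖ, hϖ⟩ := v.valuation_exists_uniformizer K
  have hϖ0 : ϖ ≠ 0 := by
    rintro rfl
    rw [map_zero] at hϖ
    exact WithZero.exp_ne_zero hϖ.symm
  obtain ⟨m, rfl⟩ : ∃ m : ℤ, c = WithZero.exp m := ⟨WithZero.log c, (WithZero.exp_log hc).symm⟩
  refine ⟨ϖ ^ ((-m).toNat + 1), pow_ne_zero _ hϖ0, ?_⟩
  rw [map_pow, hϖ, ← WithZero.exp_nsmul, WithZero.exp_lt_exp]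
  have := Int.self_le_toNat (-m)
  simp only [nsmul_eq_mul, Nat.cast_add, Nat.cast_one]
  omega

end Split

open Split in
/-- the key computation: `p z` is a local norm if `|z| < |p|^3`. -/
theorem IsKummer.cls_mul_mem_Nrm (hodd : p ≠ 2) {a : Kˣ} {α : Lˣ} (h : IsKummer p K L a α)
    (v : Pl K) (hv : cls p a ∈ PP p K v) (P z : Kˣ) (hP : (P : K) = (p : K))
    (hz : v.valuation K (z : K) < (v.valuation K (p : K)) ^ 3) :
    cls p (P * z) ∈ Nrm p K L v := by
  set V := v.valuation K with hV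
  set π := V (p : K) with hπ
  have hπ0 : π ≠ 0 := val_p_ne_zero p K v
  have hπ1 : π ≤ 1 := val_p_le_one p K v
  have hz0 : V (z : K) ≠ 0 := (Valuation.ne_zero_iff _).2 z.ne_zero
  have hz1 : V (z : K) ≤ 1 := hz.le.trans (pow_le_one₀ zero_le hπ1)
  obtain ⟨y, hy⟩ := PP_stable p K hodd v a hv (π ^ 3 * V (z : K))
    (mul_ne_zero (pow_ne_zero _ hπ0) hz0)
  have hk := h.mul_pow y
  have hnorm := hk.norm_sub (1 + (z : K))
  obtain ⟨w, hw, hbin⟩ := exists_binom v (z : K) hz1 p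
  set t : K := (a : K) * (y : K) ^ p with ht
  have hpz : (p : K) * (z : K) ≠ 0 :=
    mul_ne_zero (Nat.cast_ne_zero.2 (Fact.out : p.Prime).ne_zero) z.ne_zero
  -- the unit `u`
  set u : K := ((1 + (z : K)) ^ p - t) / ((p : K) * z) with hu
  have hu1 : u - 1 = (z : K) * w / p - (t - 1) / ((p : K) * z) := by
    rw [hu, hbin]
    have hp0 : (p : K) ≠ 0 := Nat.cast_ne_zero.2 (Fact.out : p.Prime).ne_zero
    have hz0' : (z : K) ≠ 0 := z.ne_zero
    field_simp
    ring
  have hπpos : 0 < π := zero_lt_iff.2 hπ0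
  have hb1 : V ((z : K) * w / p) < π ^ 2 := by
    rw [map_div₀, map_mul, div_lt_iff₀ hπpos]
    calc V (z : K) * V w ≤ V (z : K) * 1 := by gcongr
      _ = V (z : K) := mul_one _
      _ < π ^ 3 := hz
      _ = π ^ 2 * π := pow_succ π 2
  have hb2 : V ((t - 1) / ((p : K) * z)) < π ^ 2 := by
    rw [map_div₀, map_mul, div_lt_iff₀ (mul_pos hπpos (zero_lt_iff.2 hz0))]
    calc V (t - 1) < π ^ 3 * V (z : K) := hy
      _ = π ^ 2 * (π * V (z : K)) := by rw [pow_succ π 2, mul_assoc]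
  have hub : V (u - 1) < π ^ 2 := by
    rw [hu1]
    exact lt_of_le_of_lt (Valuation.map_sub _ _ _) (max_lt hb1 hb2)
  have hu0 : u ≠ 0 := by
    intro h0
    rw [h0, zero_sub, Valuation.map_neg, map_one] at hub
    exact absurd hub (not_lt.2 (pow_le_one₀ zero_le hπ1))
  let U : Kˣ := Units.mk0 u hu0
  have hU : cls p U ∈ PP p K v := (mem_img p).2 ⟨U, hub, rfl⟩
  -- the norm
  have hN : Algebra.norm K (algebraMap K L (1 + (z : K)) -
      ((α * Units.map (algebraMap K L : K →* L) y : Lˣ) : L)) = (p : K) * z * u := by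
    rw [hnorm, hu]
    have : ((a * y ^ p : Kˣ) : K) = t := by rw [ht]; push_cast; rfl
    rw [this, mul_div_cancel₀ _ hpz]
  set β : L := algebraMap K L (1 + (z : K)) -
      ((α * Units.map (algebraMap K L : K →* L) y : Lˣ) : L) with hβ
  have hβ0 : β ≠ 0 := by
    intro h0
    rw [h0, Algebra.norm_zero] at hN
    exact (mul_ne_zero hpz hu0) hN.symm
  have hNN : cls p (P * z * U) ∈ NN p K L := by
    refine (mem_img p).2 ⟨P * z * U, ⟨Units.mk0 β hβ0, ?_⟩, rfl⟩
    apply Units.ext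
    show Algebra.norm K β = _
    rw [hN]
    push_cast
    rw [hP]
    rfl
  have : cls p (P * z) = cls p (P * z * U) - cls p U := by
    rw [cls_mul p (P * z) U]
    abel
  rw [this]
  exact Submodule.sub_mem _ (NN_le_Nrm p K L v hNN) (PP_le_Nrm p K L v hU)

open Split in
theorem IsKummer.Nrm_eq_top (hodd : p ≠ 2) {a : Kˣ} {α : Lˣ} (h : IsKummer p K L a α) (v : Pl K)
    (hv : cls p a ∈ PP p K v) : Nrm p K L v = ⊤ := by
  rw [eq_top_iff]
  intro ξ _
  obtain ⟨x, rfl⟩ := cls_surjective p ξ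
  set V := v.valuation K with hV
  set π := V (p : K) with hπ
  have hπ0 : π ≠ 0 := val_p_ne_zero p K v
  have hx0 : V (x : K) ≠ 0 := (Valuation.ne_zero_iff _).2 x.ne_zero
  have hc : min (π ^ 3) (π ^ 3 * (V (x : K))⁻¹) ≠ 0 := by
    rcases min_choice (π ^ 3) (π ^ 3 * (V (x : K))⁻¹) with h1 | h1 <;> rw [h1]
    · exact pow_ne_zero _ hπ0
    · exact mul_ne_zero (pow_ne_zero _ hπ0) (inv_ne_zero hx0)
  obtain ⟨z, hz0, hz⟩ := exists_small v _ hc
  let Z : Kˣ := Units.mk0 z hz0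
  let P : Kˣ := Units.mk0 (p : K) (Nat.cast_ne_zero.2 (Fact.out : p.Prime).ne_zero)
  have h1 : cls p (P * Z) ∈ Nrm p K L v :=
    h.cls_mul_mem_Nrm hodd v hv P Z rfl (lt_of_lt_of_le hz (min_le_left _ _))
  have h2 : cls p (P * (x * Z)) ∈ Nrm p K L v := by
    refine h.cls_mul_mem_Nrm hodd v hv P (x * Z) rfl ?_
    have h3 : V z < π ^ 3 * (V (x : K))⁻¹ := lt_of_lt_of_le hz (min_le_right _ _)
    show V (((x * Z : Kˣ) : K)) < π ^ 3
    rw [Units.val_mul, map_mul]
    calc V (x : K) * V z < V (x : K) * (π ^ 3 * (V (x : K))⁻¹) :=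
          mul_lt_mul_of_pos_left h3 (zero_lt_iff.2 hx0)
      _ = π ^ 3 := by
          rw [mul_comm (π ^ 3), ← mul_assoc, mul_inv_cancel₀ hx0, one_mul]
  have : cls p x = cls p (P * (x * Z)) - cls p (P * Z) := by
    simp only [cls_mul]
    abel
  rw [this]
  exact Submodule.sub_mem _ h2 h1

end

end Fermat.Agent.S55.G
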