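import Fermat.Agent.S55.G.Defs

open IsDedekindDomain NumberField Module

namespace Fermat.Agent.S55.G

noncomputable section

set_option linter.unusedSectionVars false
set_option linter.style.haveILetI false

/-! # S55/G-ValTame : for `v ∤ p`, `OO v / PP v` has dimension `≤ 1`.
`v ∤ p` means `v.valuation K p = 1`, so `Uc p K v = {t : |t - 1| < 1}`.
Every `x ∈ Uv K v` is congruent to some `r ∈ 𝓞 K`, `r ∉ v` (i.e. `|x - r| < 1`): write `x = r₀/s₀`
with `s₀ ∉ v` (or clear denominators and use that `𝓞 K / v` is a field).  The finite group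
`(𝓞 K / v)ˣ` is cyclic, so its quotient by `p`-th powers is cyclic of order `1` or `p`: if the residue
of `ξ = cls a` is not a `p`-th power, every unit `x` satisfies `x ≡ a^i c^p mod v`, so
`x / (a^i c^p) ∈ Uc`, i.e. `cls x ∈ span {cls a} + PP v`.  If the residue of `a` IS a `p`-th power then
`cls a ∈ PP v`, contrary to the hypothesis. -/

/-- in a cyclic group, modulo `p`-th powers everything is a power of any non-`p`-th power -/
theorem tame_group {G : Type*} [Group G] [IsCyclic G] (p : ℕ) (hp : p.Prime) (a : G)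
    (ha : ∀ c : G, c ^ p ≠ a) (x : G) : ∃ (m : ℕ) (c : G), x = a ^ m * c ^ p := by
  obtain ⟨g, hg⟩ := IsCyclic.exists_generator (α := G)
  obtain ⟨i, rfl⟩ := Subgroup.mem_zpowers_iff.mp (hg a)
  obtain ⟨j, rfl⟩ := Subgroup.mem_zpowers_iff.mp (hg x)
  have hpi : ¬ (p : ℤ) ∣ i := by
    rintro ⟨i', rfl⟩
    exact ha (g ^ i') (by rw [← zpow_natCast, ← zpow_mul, mul_comm])
  have hcop : IsCoprime i (p : ℤ) :=
    ((Nat.prime_iff_prime_int.mp hp).coprime_iff_not_dvd.mpr hpi).symm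
  obtain ⟨u, w, huw⟩ := hcop
  have hp0 : (p : ℤ) ≠ 0 := by exact_mod_cast hp.ne_zero
  have hr : ((((j * u) % p).toNat : ℕ) : ℤ) = (j * u) % p :=
    Int.toNat_of_nonneg (Int.emod_nonneg _ hp0)
  have h : (p : ℤ) * ((j * u) / p) + (j * u) % p = j * u := Int.mul_ediv_add_emod _ _
  refine ⟨((j * u) % p).toNat, g ^ (j * w + i * ((j * u) / p)), ?_⟩
  rw [← zpow_natCast, ← zpow_natCast, hr, ← zpow_mul, ← zpow_mul, ← zpow_add]
  congr 1
  linear_combination (-j) * huw + (-i) * h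

variable (p : ℕ) [Fact p.Prime] (K : Type) [Field K] [NumberField K]

/-- a `v`-unit is congruent to an algebraic integer prime to `v` -/
theorem tame_exists_int (v : Pl K) (x : K) (hx : v.valuation K x = 1) :
    ∃ r : 𝓞 K, r ∉ v.asIdeal ∧ v.valuation K (x - algebraMap (𝓞 K) K r) < 1 := by
  obtain ⟨r, hr⟩ := v.exists_valuation_sub_lt_of_integer (K := K) hx.le 1
  rw [Units.val_one] at hr
  refine ⟨r, fun hmem => ?_, by rwa [Valuation.map_sub_swap]⟩
  have h1 : v.valuation K (algebraMap (𝓞 K) K r) < 1 := (v.valuation_lt_one_iff_mem r).mpr hmem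
  have h2 : x = algebraMap (𝓞 K) K r - (algebraMap (𝓞 K) K r - x) := by ring
  have h3 : v.valuation K x < 1 := by
    rw [h2]
    exact lt_of_le_of_lt (Valuation.map_sub _ _ _) (max_lt h1 hr)
  exact absurd hx h3.ne

/-- congruences multiply -/
theorem tame_mul (v : Pl K) {x y r s : K} (hy : v.valuation K y ≤ 1) (hr : v.valuation K r ≤ 1)
    (h1 : v.valuation K (x - r) < 1) (h2 : v.valuation K (y - s) < 1) :
    v.valuation K (x * y - r * s) < 1 := by
  have : x * y - r * s = (x - r) * y + r * (y - s) := by ring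
  rw [this]
  refine lt_of_le_of_lt (Valuation.map_add _ _ _) (max_lt ?_ ?_)
  · rw [map_mul]
    exact lt_of_le_of_lt (mul_le_of_le_one_right zero_le hy) h1
  · rw [map_mul]
    exact lt_of_le_of_lt (mul_le_of_le_one_left zero_le hr) h2

theorem tame_pow (v : Pl K) {x r : K} (hx : v.valuation K x ≤ 1) (hr : v.valuation K r ≤ 1)
    (h1 : v.valuation K (x - r) < 1) (n : ℕ) : v.valuation K (x ^ n - r ^ n) < 1 := by
  induction n with
  | zero => simp
  | succ n ih =>
    rw [pow_succ, pow_succ]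
    exact tame_mul K v hx (by rw [map_pow]; exact pow_le_one₀ zero_le hr) ih h1

theorem OO_le_span_sup_PP (v : Pl K) (hv : ¬ AboveP p K v) (ξ : KP p K) (hξ : ξ ∈ OO p K v)
    (hξ' : ξ ∉ PP p K v) : OO p K v ≤ Submodule.span (ZMod p) {ξ} ⊔ PP p K v := by
  have hp : p.Prime := Fact.out
  have hp1 : v.valuation K (p : K) = 1 := by
    have : v.valuation K (algebraMap (𝓞 K) K (p : 𝓞 K)) = 1 :=
      v.valuation_eq_one_iff_notMem.mpr hv
    simpa using this
  obtain ⟨a, ha, rfl⟩ := (mem_img p).1 hξ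
  have ha1 : v.valuation K (a : K) = 1 := ha
  obtain ⟨ra, hra, hra'⟩ := tame_exists_int K v a ha1
  haveI := v.isMaximal
  letI := Ideal.Quotient.field v.asIdeal
  haveI : Finite (𝓞 K ⧸ v.asIdeal) := v.asIdeal.finiteQuotientOfFreeOfNeBot v.ne_bot
  have hval1 : ∀ c : 𝓞 K, c ∉ v.asIdeal → v.valuation K (algebraMap (𝓞 K) K c) = 1 :=
    fun c hc => v.valuation_eq_one_iff_notMem.mpr hc
  -- criterion for `PP`
  have hPP : ∀ (x : Kˣ) (c : 𝓞 K), c ∉ v.asIdeal →
      v.valuation K ((x : K) - algebraMap (𝓞 K) K c ^ p) < 1 → cls p x ∈ PP p K v := by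
    intro x c hc h
    rw [cls_mem_PP, hp1, one_pow]
    have hc1 := hval1 c hc
    have hc0 : algebraMap (𝓞 K) K c ≠ 0 := by
      intro h0
      rw [h0, map_zero] at hc1
      exact zero_ne_one hc1
    refine ⟨(Units.mk0 _ hc0)⁻¹, ?_⟩
    have : (x : K) * (((Units.mk0 _ hc0)⁻¹ : Kˣ) : K) ^ p - 1
        = ((x : K) - algebraMap (𝓞 K) K c ^ p) * (algebraMap (𝓞 K) K c ^ p)⁻¹ := by
      rw [Units.val_inv_eq_inv_val, Units.val_mk0, inv_pow, sub_mul,
        mul_inv_cancel₀ (pow_ne_zero p hc0)]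
    rw [this, map_mul, map_inv₀, map_pow, hc1, one_pow, inv_one, mul_one]
    exact h
  have hmk : ∀ r : 𝓞 K, r ∉ v.asIdeal → Ideal.Quotient.mk v.asIdeal r ≠ 0 :=
    fun r hr h => hr (Ideal.Quotient.eq_zero_iff_mem.mp h)
  have hlift : ∀ c : (𝓞 K ⧸ v.asIdeal)ˣ, ∃ c' : 𝓞 K, c' ∉ v.asIdeal ∧
      Ideal.Quotient.mk v.asIdeal c' = (c : 𝓞 K ⧸ v.asIdeal) := by
    intro c
    obtain ⟨c', hc'⟩ := Ideal.Quotient.mk_surjective (c : 𝓞 K ⧸ v.asIdeal)
    refine ⟨c', fun h => ?_, hc'⟩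
    have := Ideal.Quotient.eq_zero_iff_mem.mpr h
    rw [hc'] at this
    exact c.ne_zero this
  have habar : ∀ c : (𝓞 K ⧸ v.asIdeal)ˣ, c ^ p ≠ Units.mk0 _ (hmk ra hra) := by
    intro c hc
    obtain ⟨c', hc'mem, hc'⟩ := hlift c
    apply hξ'
    apply hPP a c' hc'mem
    have h1 : ra - c' ^ p ∈ v.asIdeal := by
      rw [← Ideal.Quotient.eq_zero_iff_mem, map_sub, map_pow, hc', sub_eq_zero]
      have := congrArg Units.val hc
      rw [Units.val_pow_eq_pow_val, Units.val_mk0] at this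
      exact this.symm
    have h2 : v.valuation K (algebraMap (𝓞 K) K (ra - c' ^ p)) < 1 :=
      (v.valuation_lt_one_iff_mem _).mpr h1
    have h3 : (a : K) - algebraMap (𝓞 K) K c' ^ p
        = ((a : K) - algebraMap (𝓞 K) K ra) + algebraMap (𝓞 K) K (ra - c' ^ p) := by
      rw [map_sub, map_pow]
      ring
    rw [h3]
    exact lt_of_le_of_lt (Valuation.map_add _ _ _) (max_lt hra' h2)
  intro η hη
  obtain ⟨x, hx, rfl⟩ := (mem_img p).1 hη
  have hx1 : v.valuation K (x : K) = 1 := hx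
  obtain ⟨rx, hrx, hrx'⟩ := tame_exists_int K v x hx1
  obtain ⟨m, c, hmc⟩ := tame_group p hp _ habar (Units.mk0 _ (hmk rx hrx))
  obtain ⟨c', hc'mem, hc'⟩ := hlift c
  have hdecomp : cls p x = (m : ZMod p) • cls p a + cls p (x / a ^ m) := by
    rw [zmod_smul_cls, cls_div]
    abel
  rw [hdecomp]
  refine Submodule.add_mem_sup
    (Submodule.smul_mem _ _ (Submodule.mem_span_singleton_self _)) ?_
  apply hPP _ c' hc'mem
  have h1 : rx - ra ^ m * c' ^ p ∈ v.asIdeal := by
    rw [← Ideal.Quotient.eq_zero_iff_mem, map_sub, map_mul, map_pow, map_pow, hc', sub_eq_zero]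
    have := congrArg Units.val hmc
    rw [Units.val_mul, Units.val_pow_eq_pow_val, Units.val_pow_eq_pow_val, Units.val_mk0,
      Units.val_mk0] at this
    exact this
  have h2 : v.valuation K (algebraMap (𝓞 K) K (rx - ra ^ m * c' ^ p)) < 1 :=
    (v.valuation_lt_one_iff_mem _).mpr h1
  have h3 : v.valuation K ((a : K) ^ m - algebraMap (𝓞 K) K ra ^ m) < 1 :=
    tame_pow K v ha1.le (hval1 ra hra).le hra' m
  have h4 : v.valuation K ((x : K) - (a : K) ^ m * algebraMap (𝓞 K) K c' ^ p) < 1 := by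
    have : (x : K) - (a : K) ^ m * algebraMap (𝓞 K) K c' ^ p
        = ((x : K) - algebraMap (𝓞 K) K rx) + (algebraMap (𝓞 K) K (rx - ra ^ m * c' ^ p)
          - ((a : K) ^ m - algebraMap (𝓞 K) K ra ^ m) * algebraMap (𝓞 K) K c' ^ p) := by
      rw [map_sub, map_mul, map_pow, map_pow]
      ring
    rw [this]
    refine lt_of_le_of_lt (Valuation.map_add _ _ _) (max_lt hrx' ?_)
    refine lt_of_le_of_lt (Valuation.map_sub _ _ _) (max_lt h2 ?_)
    rw [map_mul, map_pow, hval1 c' hc'mem, one_pow, mul_one]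
    exact h3
  have ha0 : (a : K) ≠ 0 := a.ne_zero
  have : ((x / a ^ m : Kˣ) : K) - algebraMap (𝓞 K) K c' ^ p
      = ((x : K) - (a : K) ^ m * algebraMap (𝓞 K) K c' ^ p) * ((a : K) ^ m)⁻¹ := by
    rw [Units.val_div_eq_div_val, Units.val_pow_eq_pow_val]
    field_simp
  rw [this, map_mul, map_inv₀, map_pow, ha1, one_pow, inv_one, mul_one]
  exact h4

end

end Fermat.Agent.S55.G
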