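import Fermat.Agent.S55.G.Defs
import Fermat.Agent.S55.G.ValTame
import Fermat.Agent.S55.G.KummerNorm
import Fermat.Agent.S55.G.Split

open IsDedekindDomain NumberField Module

namespace Fermat.Agent.S55.G

noncomputable section

set_option linter.unusedSectionVars false
set_option linter.style.haveILetI false

/-! # S55/G-UnramNorm : (H3) at `v ∤ p` with `p ∣ ord_v a`, all classes of `OO v` are local norms. -/

variable {p : ℕ} [Fact p.Prime] {K : Type} [Field K] [NumberField K]
variable {L : Type} [Field L] [NumberField L] [Algebra K L]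

theorem IsKummer.OO_le_Nrm (hodd : p ≠ 2) {a : Kˣ} {α : Lˣ} (h : IsKummer p K L a α) (v : Pl K)
    (hv : ¬ AboveP p K v) (ha : cls p a ∈ OO p K v) : OO p K v ≤ Nrm p K L v := by
  by_cases hav : cls p a ∈ PP p K v
  · rw [h.Nrm_eq_top hodd v hav]; exact le_top
  · refine (OO_le_span_sup_PP p K v hv (cls p a) ha hav).trans (sup_le_sup ?_ le_rfl)
    rw [Submodule.span_singleton_le_iff_mem]
    exact h.cls_mem_NN hodd

end

end Fermat.Agent.S55.G
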