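import Fermat.Agent.S55.G.Defs
import Fermat.Agent.S55.G.ValOrd

open IsDedekindDomain NumberField Module Polynomial WithZero

namespace Fermat.Agent.S55.G

noncomputable section

set_option linter.unusedSectionVars false
set_option linter.style.haveILetI false

/-! # S55/G-ValWild : the local dimension bound `dim K^×/PP v ≤ 2 + n_v`, `p^(n_v) = #(𝓞 K/v^e)`,
`e = ord_v p`  (this is `[K_v^× : K_v^×p] = p^2 #(O/p)` without local fields).

Plan. `dim KP/OO v = 1` (`finrank_quot_OO`), so it is enough to show `#(OO v/PP v) ≤ p #(𝓞 K/v^e)`.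
Let `m = 2e+1`, `Γ = (𝓞 K / v^m)ˣ` (finite abelian).
(1) every class in `OO v` is `cls r` with `r ∈ 𝓞 K`, `r ∉ v` (`x = r/s = r s^(p-1)/s^p`, with `s ∉ v`).
(2) if `r ≡ r' mod v^m`, both prime to `v`, then `|r/r' - 1| ≤ exp(-m) < |p|^2 = exp(-2e)`, so
 `cls r - cls r' ∈ PP v`.  So `Γ → OO v/PP v` is a surjective homomorphism onto a group of exponent `p`:
 `#(OO v/PP v) ≤ #(Γ/Γ^p) = #Γ[p]`.
(3) `#Γ[p] ≤ p #(𝓞 K/v^e)`: let `u ∈ 𝓞 K`, `u^p ≡ 1 mod v^m`. `∏_{i<p} (u - ζ^i) = u^p - 1`.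
 `ord_v (ζ^i - ζ^j) = e₁` for `i ≠ j`, `(p-1) e₁ = e` (`∏_{i=1}^{p-1}(1-ζ^i) = p`, the factors are
 associated).  If `ord_v (u - ζ^i) ≤ e₁` for all `i` then `ord_v (u^p-1) ≤ p e₁ ≤ 2e < m`: impossible.
 So `ord_v (u - ζ^i) > e₁` for one `i`, hence `= e₁` for the others, and `ord_v (u - ζ^i) ≥ m - e`.
 So `Γ[p] ⊆ ⋃_{i<p} {u : u ≡ ζ^i mod v^(m-e)}`, each of these sets has `#(v^(m-e)/v^m) = #(𝓞 K/v^e)`
 elements.
This task may be split by its owner ((1)+(2) / (3)). -/

namespace ValWild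

theorem card_quot_range_pow (G : Type*) [CommGroup G] [Finite G] (n : ℕ) :
    Nat.card (G ⧸ (powMonoidHom n : G →* G).range) = Nat.card (powMonoidHom n : G →* G).ker := by
  set f : G →* G := powMonoidHom n
  have h1 := Subgroup.card_mul_index f.range
  have h2 := Subgroup.card_mul_index f.ker
  rw [Subgroup.index_ker] at h2
  have h3 : 0 < Nat.card f.range := Nat.card_pos
  have h4 : Nat.card f.range * f.range.index = Nat.card f.range * Nat.card f.ker := by
    rw [h1, ← h2, mul_comm]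
  exact Nat.eq_of_mul_eq_mul_left h3 h4

section general
variable {K : Type} [Field K]

open scoped Classical in
/-- product of the differences of the `p`-th roots of unity -/
theorem prod_erase_sub {p : ℕ} (hp : 0 < p) {ζ : K} (hζ : IsPrimitiveRoot ζ p) {μ₀ : K}
    (hμ₀ : μ₀ ∈ nthRootsFinset p (1 : K)) :
    ∏ μ ∈ (nthRootsFinset p (1 : K)).erase μ₀, (μ₀ - μ) = p * μ₀ ^ (p - 1) := by
  classical
  have h := X_pow_sub_one_eq_prod hp hζ
  rw [← Finset.mul_prod_erase _ _ hμ₀] at h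
  have hμ : μ₀ ^ p = 1 := (mem_nthRootsFinset hp 1).1 hμ₀
  have h2 : (X ^ p - 1 : K[X]) = (X - C μ₀) * ∑ i ∈ Finset.range p, X ^ i * (C μ₀) ^ (p - 1 - i) := by
    rw [mul_comm, geom_sum₂_mul, ← C_pow, hμ, C_1]
  rw [h2] at h
  have h3 := mul_left_cancel₀ (X_sub_C_ne_zero μ₀) h
  have h4 := congrArg (eval μ₀) h3
  rw [eval_prod, eval_finsetSum] at h4
  simp only [eval_mul, eval_pow, eval_X, eval_C, eval_sub] at h4
  rw [← h4]
  have : ∀ i ∈ Finset.range p, μ₀ ^ i * μ₀ ^ (p - 1 - i) = μ₀ ^ (p - 1) := by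
    intro i hi
    rw [← pow_add]
    congr 1
    have := Finset.mem_range.1 hi
    omega
  rw [Finset.sum_congr rfl this]
  simp

theorem exists_root_close {Γ₀ : Type*} [LinearOrderedCommGroupWithZero Γ₀] (w : Valuation K Γ₀)
    {p : ℕ} (hp : 0 < p) {ζ : K} (hζ : IsPrimitiveRoot ζ p) (t : K)
    (ht : w (t ^ p - 1) < w (p : K) ^ 2) :
    ∃ μ ∈ nthRootsFinset p (1 : K), w (t - μ) < w (p : K) := by
  classical
  set S := nthRootsFinset p (1 : K)
  have hne : S.Nonempty := ⟨1, (mem_nthRootsFinset hp 1).2 (one_pow p)⟩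
  obtain ⟨μ₀, hμ₀, hmin⟩ := Finset.exists_min_image S (fun μ => w (t - μ)) hne
  refine ⟨μ₀, hμ₀, ?_⟩
  have hμ : μ₀ ^ p = 1 := (mem_nthRootsFinset hp 1).1 hμ₀
  have hw1 : w μ₀ = 1 := by
    have : (w μ₀) ^ p = 1 := by rw [← map_pow, hμ, map_one]
    exact (pow_eq_one_iff_of_nonneg zero_le hp.ne').1 this
  have h1 : w (p : K) = ∏ μ ∈ S.erase μ₀, w (μ₀ - μ) := by
    rw [← map_prod, prod_erase_sub hp hζ hμ₀, map_mul, map_pow, hw1, one_pow, mul_one]
  have h2 : ∏ μ ∈ S.erase μ₀, w (μ₀ - μ) ≤ ∏ μ ∈ S.erase μ₀, w (t - μ) := by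
    apply Finset.prod_le_prod'
    intro μ hμS
    have hμS' := Finset.mem_of_mem_erase hμS
    have : μ₀ - μ = (t - μ) - (t - μ₀) := by ring
    rw [this]
    exact (w.map_sub _ _).trans (max_le le_rfl (hmin μ hμS'))
  have h3 : w (t ^ p - 1) = w (t - μ₀) * ∏ μ ∈ S.erase μ₀, w (t - μ) := by
    have h := congrArg (eval t) (X_pow_sub_one_eq_prod hp hζ)
    rw [eval_prod] at h
    simp only [eval_sub, eval_pow, eval_X, eval_one, eval_C] at h
    rw [h, ← Finset.mul_prod_erase _ _ hμ₀, map_mul, map_prod]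
  have h4 : w (t - μ₀) * w (p : K) < w (p : K) * w (p : K) := by
    calc w (t - μ₀) * w (p : K) ≤ w (t - μ₀) * ∏ μ ∈ S.erase μ₀, w (t - μ) := by
          gcongr
          exact h1.le.trans h2
      _ = w (t ^ p - 1) := h3.symm
      _ < w (p : K) * w (p : K) := by rw [← sq]; exact ht
  exact lt_of_mul_lt_mul_right' h4


end general

variable (K : Type) [Field K] [NumberField K] (v : Pl K)

theorem exists_approx (n : ℕ) (x : K) (hx : v.valuation K x ≤ 1) :
    ∃ a : 𝓞 K, v.valuation K (algebraMap (𝓞 K) K a - x) ≤ exp (-(n : ℤ)) := by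
  obtain ⟨a, ha⟩ := v.exists_valuation_sub_lt_of_integer hx (Units.mk0 (exp (-(n : ℤ))) exp_ne_zero)
  exact ⟨a, ha.le⟩

/-- the class modulo `v^n` of an approximation of `x`. -/
def apx (n : ℕ) (x : K) : 𝓞 K ⧸ v.asIdeal ^ n :=
  if hx : v.valuation K x ≤ 1 then Ideal.Quotient.mk _ (Classical.choose (exists_approx K v n x hx))
  else 0

theorem val_sub_le_of_apx_eq (n : ℕ) {x y : K} (hx : v.valuation K x ≤ 1)
    (hy : v.valuation K y ≤ 1) (h : apx K v n x = apx K v n y) :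
    v.valuation K (x - y) ≤ exp (-(n : ℤ)) := by
  unfold apx at h
  rw [dif_pos hx, dif_pos hy, Ideal.Quotient.eq, ← v.intValuation_le_pow_iff_mem,
    ← v.valuation_of_algebraMap (K := K)] at h
  have h1 := Classical.choose_spec (exists_approx K v n x hx)
  have h2 := Classical.choose_spec (exists_approx K v n y hy)
  set a := Classical.choose (exists_approx K v n x hx)
  set b := Classical.choose (exists_approx K v n y hy)
  have : x - y = (algebraMap (𝓞 K) K (a - b)) - (algebraMap (𝓞 K) K a - x)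
      + (algebraMap (𝓞 K) K b - y) := by
    rw [map_sub]; ring
  rw [this]
  refine (Valuation.map_add _ _ _).trans (max_le ((Valuation.map_sub _ _ _).trans (max_le h h1)) h2)

theorem finite_quot_pow (n : ℕ) : Finite (𝓞 K ⧸ v.asIdeal ^ n) :=
  Ideal.finiteQuotientOfFreeOfNeBot _ (pow_ne_zero n v.ne_bot)

variable (p : ℕ) [Fact p.Prime]

/-- `e = ord_v p`. -/
abbrev ee : ℕ := (Associates.mk v.asIdeal).count (Associates.mk (Ideal.span {(p : 𝓞 K)})).factors

theorem val_p_eq : v.valuation K (p : K) = exp (-(ee K v p : ℤ)) := by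
  have h0 : (p : 𝓞 K) ≠ 0 := Nat.cast_ne_zero.2 (Fact.out : p.Prime).ne_zero
  have := v.valuation_of_algebraMap (K := K) (p : 𝓞 K)
  rw [v.intValuation_if_neg h0] at this
  rw [← this]
  simp

theorem val_p_sq_eq : v.valuation K (p : K) ^ 2 = exp (-(2 * ee K v p : ℤ)) := by
  rw [val_p_eq, ← exp_nsmul]
  congr 1
  simp


/-- the `v`-units. -/
abbrev UU : Type := ↥(Uv K v)

/-- the congruence subgroup inside the `v`-units. -/
abbrev CC : Subgroup (UU K v) := (Uc p K v).subgroupOf (Uv K v)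

/-- `(O_v/v^(2e+1))^×`. -/
abbrev QQ : Type := UU K v ⧸ CC K v p

theorem val_UU (a : UU K v) : v.valuation K ((a : Kˣ) : K) = 1 := a.2

theorem mk_eq_of_val (a b : UU K v)
    (h : v.valuation K (((a : Kˣ) : K) - ((b : Kˣ) : K)) < v.valuation K (p : K) ^ 2) :
    (QuotientGroup.mk a : QQ K v p) = QuotientGroup.mk b := by
  rw [QuotientGroup.eq, Subgroup.mem_subgroupOf, mem_Uc]
  have ha : ((a : Kˣ) : K) ≠ 0 := (a : Kˣ).ne_zero
  have : (((a⁻¹ * b : UU K v) : Kˣ) : K) - 1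
      = -((((a : Kˣ) : K) - ((b : Kˣ) : K)) * ((a : Kˣ) : K)⁻¹) := by
    push_cast
    field_simp
    ring
  rw [this, Valuation.map_neg, map_mul, map_inv₀, val_UU, inv_one, mul_one]
  exact h

theorem finite_QQ : Finite (QQ K v p) := by
  have := finite_quot_pow K v (2 * ee K v p + 1)
  refine Finite.of_injective
    (fun q : QQ K v p => apx K v (2 * ee K v p + 1) (((Quotient.out q : UU K v) : Kˣ) : K)) ?_
  intro q q' h
  have h1 := val_sub_le_of_apx_eq K v _ (val_UU K v _).le (val_UU K v _).le h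
  rw [← QuotientGroup.out_eq' q, ← QuotientGroup.out_eq' q']
  apply mk_eq_of_val
  refine lt_of_le_of_lt h1 ?_
  rw [val_p_sq_eq, exp_lt_exp]
  push_cast
  omega

theorem val_pow_sub_one_of_pow_eq_one (q : QQ K v p) (hq : q ^ p = 1) :
    v.valuation K ((((Quotient.out q : UU K v) : Kˣ) : K) ^ p - 1) < v.valuation K (p : K) ^ 2 := by
  rw [← QuotientGroup.out_eq' q, ← QuotientGroup.mk_pow, QuotientGroup.eq_one_iff,
    Subgroup.mem_subgroupOf, mem_Uc] at hq
  simpa using hq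

theorem val_root_eq_one {μ : K} (hμ : μ ∈ nthRootsFinset p (1 : K)) : v.valuation K μ = 1 := by
  have hp : 0 < p := (Fact.out : p.Prime).pos
  have h1 : μ ^ p = 1 := (mem_nthRootsFinset hp 1).1 hμ
  have : (v.valuation K μ) ^ p = 1 := by rw [← map_pow, h1, map_one]
  exact (pow_eq_one_iff_of_nonneg zero_le hp.ne').1 this

theorem card_ker_le {ζ : K} (hζ : IsPrimitiveRoot ζ p) :
    Nat.card (powMonoidHom (α := QQ K v p) p).ker
      ≤ p * Nat.card (𝓞 K ⧸ v.asIdeal ^ ee K v p) := by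
  classical
  have hp : 0 < p := (Fact.out : p.Prime).pos
  set e := ee K v p with he
  set S := nthRootsFinset p (1 : K) with hS
  have key : ∀ q : (powMonoidHom (α := QQ K v p) p).ker, ∃ μ ∈ S,
      v.valuation K ((((Quotient.out q.1 : UU K v) : Kˣ) : K) - μ) < v.valuation K (p : K) :=
    fun q => exists_root_close (v.valuation K) hp hζ _
      (val_pow_sub_one_of_pow_eq_one K v p q.1 q.2)
  choose μ hμS hμ using key
  obtain ⟨π, hπ⟩ := v.valuation_exists_uniformizer K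
  have hπ0 : π ≠ 0 := by
    intro h; rw [h, map_zero] at hπ; exact exp_ne_zero hπ.symm
  have hπe : v.valuation K (π ^ (e + 1)) = exp (-((e : ℤ) + 1)) := by
    rw [map_pow, hπ, ← exp_nsmul]; congr 1; simp
  have hμ0 : ∀ q, μ q ≠ 0 := fun q h => by
    have := val_root_eq_one K v p (hμS q); rw [h, map_zero] at this; exact zero_ne_one this
  let xx : (powMonoidHom (α := QQ K v p) p).ker → K := fun q =>
    ((((Quotient.out q.1 : UU K v) : Kˣ) : K) - μ q) / (μ q * π ^ (e + 1))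
  have hX : ∀ q, v.valuation K (xx q) ≤ 1 := by
    intro q
    have h1 : v.valuation K ((((Quotient.out q.1 : UU K v) : Kˣ) : K) - μ q)
        ≤ exp (-((e : ℤ) + 1)) := by
      rw [← lt_mul_exp_iff_le exp_ne_zero, ← exp_add]
      have := hμ q
      rw [val_p_eq] at this
      convert this using 2
      ring
    simp only [xx]
    rw [map_div₀, map_mul, val_root_eq_one K v p (hμS q), one_mul, hπe]
    exact div_le_one_of_le₀ h1 zero_le
  have := finite_quot_pow K v e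
  let F : (powMonoidHom (α := QQ K v p) p).ker → ↥S × (𝓞 K ⧸ v.asIdeal ^ e) :=
    fun q => (⟨μ q, hμS q⟩, apx K v e (xx q))
  have hF : Function.Injective F := by
    intro q q' h
    have h1 : μ q = μ q' := congrArg (fun z => (z.1 : K)) h
    have h2 : apx K v e (xx q) = apx K v e (xx q') := congrArg Prod.snd h
    have h3 := val_sub_le_of_apx_eq K v e (hX q) (hX q') h2
    have h4 : xx q - xx q' = ((((Quotient.out q.1 : UU K v) : Kˣ) : K)
        - (((Quotient.out q'.1 : UU K v) : Kˣ) : K)) / (μ q * π ^ (e + 1)) := by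
      simp only [xx]
      rw [← h1]
      ring
    rw [h4, map_div₀, map_mul, val_root_eq_one K v p (hμS q), one_mul, hπe,
      div_le_iff₀ (zero_lt_iff.2 exp_ne_zero), ← exp_add] at h3
    apply Subtype.ext
    rw [← QuotientGroup.out_eq' q.1, ← QuotientGroup.out_eq' q'.1]
    apply mk_eq_of_val
    refine lt_of_le_of_lt h3 ?_
    rw [val_p_sq_eq, exp_lt_exp]
    omega
  calc Nat.card (powMonoidHom (α := QQ K v p) p).ker
      ≤ Nat.card (↥S × (𝓞 K ⧸ v.asIdeal ^ e)) := Nat.card_le_card_of_injective F hF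
    _ = p * Nat.card (𝓞 K ⧸ v.asIdeal ^ e) := by
        rw [Nat.card_prod, Nat.card_eq_fintype_card, Fintype.card_coe, hζ.card_nthRootsFinset]

/-- `Γ/Γ^p`. -/
abbrev QB : Type := QQ K v p ⧸ (powMonoidHom (α := QQ K v p) p).range

theorem exists_decomp (πu : Kˣ) (hπ : v.valuation K (πu : K) = exp (-1 : ℤ)) (x : Kˣ) :
    ∃ (i : Fin p) (b : QB K v p),
      cls p x - cls p (πu ^ (i : ℕ) * ((Quotient.out (Quotient.out b) : UU K v) : Kˣ))
        ∈ PP p K v := by
  have hp : 0 < p := (Fact.out : p.Prime).pos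
  have hx0 : v.valuation K (x : K) ≠ 0 := (Valuation.ne_zero_iff _).2 x.ne_zero
  set k : ℤ := - log (v.valuation K (x : K)) with hk
  have hxk : v.valuation K (x : K) = exp (-k) := by rw [hk, neg_neg, exp_log hx0]
  have ht' : x * πu ^ (-k) ∈ Uv K v := by
    rw [mem_Uv]
    push_cast
    rw [map_mul, map_zpow₀, hπ, hxk, ← exp_zsmul, ← exp_add]
    simp
  let u' : UU K v := ⟨x * πu ^ (-k), ht'⟩
  let b : QB K v p := QuotientGroup.mk (QuotientGroup.mk u')
  have hi : (k % p).toNat < p := by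
    have h1 := Int.emod_nonneg k (by exact_mod_cast hp.ne' : (p : ℤ) ≠ 0)
    have h2 := Int.emod_lt_of_pos k (by exact_mod_cast hp : (0 : ℤ) < p)
    omega
  refine ⟨⟨(k % p).toNat, hi⟩, b, ?_⟩
  have h1 : (QuotientGroup.mk (Quotient.out b) : QB K v p) = QuotientGroup.mk (QuotientGroup.mk u') :=
    QuotientGroup.out_eq' b
  rw [QuotientGroup.eq] at h1
  obtain ⟨r, hr⟩ := h1
  set t'' : UU K v := Quotient.out (Quotient.out b) with ht''
  have h2 : (QuotientGroup.mk t'' : QQ K v p) = Quotient.out b := QuotientGroup.out_eq' _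
  set s : UU K v := Quotient.out r with hs
  have h3 : (QuotientGroup.mk s : QQ K v p) = r := QuotientGroup.out_eq' _
  rw [powMonoidHom_apply, ← h3, ← h2, ← QuotientGroup.mk_pow, ← QuotientGroup.mk_inv,
    ← QuotientGroup.mk_mul, QuotientGroup.eq, Subgroup.mem_subgroupOf] at hr
  set c : Kˣ := (((s ^ p)⁻¹ * (t''⁻¹ * u') : UU K v) : Kˣ) with hc
  have hxc : x = (πu ^ ((k % p).toNat) * (t'' : Kˣ)) * c * ((s : Kˣ) * πu ^ (k / p)) ^ p := by
    have hk2 : k = (((k % p).toNat : ℕ) : ℤ) + (k / p) * p := by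
      have h1 := Int.emod_nonneg k (by exact_mod_cast hp.ne' : (p : ℤ) ≠ 0)
      rw [Int.toNat_of_nonneg h1]
      have := Int.emod_add_mul_ediv k p
      linarith
    have hc' : c = ((s : Kˣ) ^ p)⁻¹ * ((t'' : Kˣ)⁻¹ * (x * πu ^ (-k))) := by
      rw [hc]; simp [u']
    rw [hc', mul_pow, ← zpow_natCast (πu ^ (k / p)) p, ← zpow_mul, ← zpow_natCast πu (k % p).toNat]
    have : πu ^ (-k) = (πu ^ (((k % p).toNat : ℕ) : ℤ))⁻¹ * (πu ^ (k / p * p))⁻¹ := by
      rw [← mul_inv, ← zpow_add, ← hk2, zpow_neg]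
    rw [this]
    have gen : ∀ (A T S B x : Kˣ), x = A * T * (S⁻¹ * (T⁻¹ * (x * (A⁻¹ * B⁻¹)))) * (S * B) := by
      intro A T S B x
      apply Units.ext
      push_cast
      field_simp
    exact gen _ _ _ _ _
  have : cls p x - cls p (πu ^ ((k % p).toNat) * (t'' : Kˣ)) = cls p c := by
    conv_lhs => rw [hxc]
    rw [cls_mul, cls_mul, cls_pow, KP_nsmul]
    abel
  show cls p x - cls p (πu ^ ((k % p).toNat) * (t'' : Kˣ)) ∈ PP p K v
  rw [this]
  exact (mem_img p).2 ⟨c, hr, rfl⟩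

theorem finite_and_card_le {ζ : K} (hζ : IsPrimitiveRoot ζ p) :
    Finite (KP p K ⧸ PP p K v) ∧
      Nat.card (KP p K ⧸ PP p K v) ≤ p ^ 2 * Nat.card (𝓞 K ⧸ v.asIdeal ^ ee K v p) := by
  have hp : 0 < p := (Fact.out : p.Prime).pos
  obtain ⟨π, hπ⟩ := v.valuation_exists_uniformizer K
  have hπ0 : π ≠ 0 := by
    intro h; rw [h, map_zero] at hπ; exact exp_ne_zero hπ.symm
  let πu : Kˣ := Units.mk0 π hπ0
  have := finite_QQ K v p
  let f : Fin p × QB K v p → KP p K ⧸ PP p K v := fun z =>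
    Submodule.Quotient.mk
      (cls p (πu ^ (z.1 : ℕ) * ((Quotient.out (Quotient.out z.2) : UU K v) : Kˣ)))
  have hf : Function.Surjective f := by
    intro ξ
    obtain ⟨η, rfl⟩ := Submodule.Quotient.mk_surjective _ ξ
    obtain ⟨x, rfl⟩ := cls_surjective p η
    obtain ⟨i, b, h⟩ := exists_decomp K v p πu hπ x
    refine ⟨(i, b), ?_⟩
    exact ((Submodule.Quotient.eq _).2 h).symm
  refine ⟨Finite.of_surjective f hf, ?_⟩
  calc Nat.card (KP p K ⧸ PP p K v) ≤ Nat.card (Fin p × QB K v p) :=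
        Nat.card_le_card_of_surjective f hf
    _ = p * Nat.card (powMonoidHom (α := QQ K v p) p).ker := by
        rw [Nat.card_prod, Nat.card_fin, card_quot_range_pow]
    _ ≤ p * (p * Nat.card (𝓞 K ⧸ v.asIdeal ^ ee K v p)) :=
        Nat.mul_le_mul_left _ (card_ker_le K v p hζ)
    _ = p ^ 2 * Nat.card (𝓞 K ⧸ v.asIdeal ^ ee K v p) := by ring

end ValWild

variable (p : ℕ) [Fact p.Prime] (K : Type) [Field K] [NumberField K]

theorem card_quot_PP_le (hodd : p ≠ 2) (hζ : ∃ ζ : K, IsPrimitiveRoot ζ p) (v : Pl K) :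
    FiniteDimensional (ZMod p) (KP p K ⧸ PP p K v) ∧
    p ^ finrank (ZMod p) (KP p K ⧸ PP p K v) ≤
      p ^ 2 * Nat.card (𝓞 K ⧸ v.asIdeal ^ ((Associates.mk v.asIdeal).count
        (Associates.mk (Ideal.span {(p : 𝓞 K)})).factors)) := by
  obtain ⟨ζ, hζ⟩ := hζ
  obtain ⟨h1, h2⟩ := ValWild.finite_and_card_le K v p hζ
  have h3 : FiniteDimensional (ZMod p) (KP p K ⧸ PP p K v) := Module.Finite.of_finite
  refine ⟨h3, ?_⟩
  rw [Module.natCard_eq_pow_finrank (K := ZMod p), Nat.card_zmod] at h2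
  exact h2

end

end Fermat.Agent.S55.G
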