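import Fermat.Agent.S55.G.Defs
import Fermat.Agent.S55.G.LinAlgB
import Fermat.Agent.S55.G.ValWild

open IsDedekindDomain NumberField Module

namespace Fermat.Agent.S55.G

noncomputable section

set_option linter.unusedSectionVars false
set_option linter.style.haveILetI false

/-! # S55/G-ValSum : the sum of the local dimensions.
`finrank (KP/⨅_{v ∈ S} PP v) ≤ ∑_{v ∈ S} finrank (KP/PP v)` (`la_finrank_iInf_le`), and by
`card_quot_PP_le`: `p^(∑ finrank) ≤ p^(2 #S) ∏_{v ∈ S} #(𝓞 K/v^(e_v))`, where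
`∏_{v ∈ S} #(𝓞 K / v^(e_v)) = #(𝓞 K/(p)) = p^[K:ℚ]`: `(p) = ∏_v v^(e_v)`
(`Ideal.finprod_heightOneSpectrum_factorization`; the factors with `v ∤ p` are trivial, `S ⊇ {v ∣ p}`),
`Ideal.absNorm` is multiplicative, `Ideal.absNorm_span_natCast`/`Algebra.norm_algebraMap`. -/

variable (p : ℕ) [Fact p.Prime] (K : Type) [Field K] [NumberField K]

/-- `∏_{v ∈ s} #(𝓞 K / v^(e_v)) = p^[K:ℚ]` if `s` contains the places above `p`. -/
theorem ValSum.prod_card_quot (s : Finset (Pl K)) (hp : ∀ v : Pl K, AboveP p K v → v ∈ s) :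
    ∏ v ∈ s, Nat.card (𝓞 K ⧸ v.asIdeal ^ ((Associates.mk v.asIdeal).count
        (Associates.mk (Ideal.span {(p : 𝓞 K)})).factors)) = p ^ finrank ℚ K := by
  have hp0 : (p : 𝓞 K) ≠ 0 := Nat.cast_ne_zero.2 (Fact.out : p.Prime).ne_zero
  have hI : Ideal.span {(p : 𝓞 K)} ≠ 0 := by
    simpa [Ideal.zero_eq_bot, Ideal.span_singleton_eq_bot] using hp0
  have h1 : ∀ v : Pl K, Nat.card (𝓞 K ⧸ v.asIdeal ^ ((Associates.mk v.asIdeal).count
        (Associates.mk (Ideal.span {(p : 𝓞 K)})).factors)) =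
      Ideal.absNorm (v.maxPowDividing (Ideal.span {(p : 𝓞 K)})) := by
    intro v
    rw [Ideal.absNorm_apply, Submodule.cardQuot_apply]
    rfl
  simp only [h1]
  rw [← map_prod]
  have h2 : ∏ v ∈ s, v.maxPowDividing (Ideal.span {(p : 𝓞 K)}) = Ideal.span {(p : 𝓞 K)} := by
    rw [← finprod_eq_prod_of_mulSupport_subset, Ideal.finprod_heightOneSpectrum_factorization hI]
    intro v hv
    rw [Function.mem_mulSupport] at hv
    refine Finset.mem_coe.2 (hp v ?_)
    by_contra hnv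
    apply hv
    have h3 : (Associates.mk v.asIdeal).count (Associates.mk (Ideal.span {(p : 𝓞 K)})).factors = 0 := by
      by_contra h4
      have h6 := (Associates.count_ne_zero_iff_dvd hI v.irreducible).1 h4
      rw [Ideal.dvd_span_singleton] at h6
      exact hnv h6
    rw [HeightOneSpectrum.maxPowDividing, h3, pow_zero]
  rw [h2, Ideal.absNorm_span_singleton]
  have h5 : (p : 𝓞 K) = algebraMap ℤ (𝓞 K) (p : ℤ) := by simp
  rw [h5, Algebra.norm_algebraMap, RingOfIntegers.rank, Int.natAbs_pow, Int.natAbs_natCast]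

theorem finrank_quot_iInf_PP_le (hodd : p ≠ 2) (hζ : ∃ ζ : K, IsPrimitiveRoot ζ p)
    (S : Set (Pl K)) (hS : S.Finite) (hp : ∀ v : Pl K, AboveP p K v → v ∈ S) :
    FiniteDimensional (ZMod p) (KP p K ⧸ ⨅ v ∈ S, PP p K v) ∧
    finrank (ZMod p) (KP p K ⧸ ⨅ v ∈ S, PP p K v) ≤ 2 * S.ncard + finrank ℚ K := by
  have hloc := card_quot_PP_le p K hodd hζ
  refine ⟨la_finite_iInf (PP p K) S hS (fun v _ => (hloc v).1), ?_⟩
  have hS' : (⨅ v ∈ S, PP p K v) = ⨅ v ∈ hS.toFinset, PP p K v := by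
    simp only [Set.Finite.mem_toFinset]
  rw [hS']
  refine (la_finrank_iInf_le (PP p K) hS.toFinset (fun v _ => (hloc v).1)).trans ?_
  have hp1 : 1 < p := (Fact.out : p.Prime).one_lt
  rw [← Nat.pow_le_pow_iff_right hp1, ← Finset.prod_pow_eq_pow_sum, pow_add,
    ← ValSum.prod_card_quot p K hS.toFinset (fun v hv => hS.mem_toFinset.2 (hp v hv)),
    Set.ncard_eq_toFinset_card S hS, pow_mul, ← Finset.prod_const, ← Finset.prod_mul_distrib]
  exact Finset.prod_le_prod' (fun v _ => (hloc v).2)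

end

end Fermat.Agent.S55.G
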