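import Fermat.Agent.S55.G.Defs
import Fermat.Agent.S55.G.LinAlgB

open IsDedekindDomain NumberField Module

namespace Fermat.Agent.S55.G

noncomputable section

set_option linter.unusedSectionVars false
set_option linter.style.haveILetI false

/-! # S55/G-WeakApprox : weak approximation for `K^× → ∏_{v ∈ S} K^×/PP v`.
Given `x_v ∈ K^×` (`v ∈ S` finite) find `x ∈ K^×` with `|x/x_v - 1|_v < |p|_v^2` for all `v ∈ S`.
Common denominator: `x_v = r_v/s`, `r_v, s ∈ 𝓞 K` nonzero.  CRT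
(`IsDedekindDomain.exists_forall_sub_mem_ideal`): `r ∈ 𝓞 K` with `r ≡ r_v mod v^M`, `M` large
(`exp(-M) < |r_v|_v |p|_v^2`).  Then `|r/r_v - 1|_v = |r - r_v|_v/|r_v|_v` is small; `r ≠ 0` (if `S = ∅`
take `x = 1`).  `x = r/s`. -/

variable (p : ℕ) [Fact p.Prime] (K : Type) [Field K] [NumberField K]

/-- below every nonzero element of the value group there is some `exp (-n)`. -/
theorem wa_exists_exp_lt (γ : WithZero (Multiplicative ℤ)) (hγ : γ ≠ 0) :
    ∃ n : ℕ, WithZero.exp (-(n : ℤ)) < γ := by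
  obtain ⟨m, rfl⟩ : ∃ m : ℤ, γ = WithZero.exp m := ⟨WithZero.log γ, (WithZero.exp_log hγ).symm⟩
  refine ⟨m.natAbs + 1, ?_⟩
  rw [WithZero.exp_lt_exp]
  have := neg_abs_le m
  push_cast
  omega

/-- weak approximation in `K^×`, with arbitrary precision `ε v ≠ 0`. -/
theorem wa_exists_units (S : Finset (Pl K)) (x : Pl K → Kˣ)
    (ε : Pl K → WithZero (Multiplicative ℤ)) (hε : ∀ v, ε v ≠ 0) (hε1 : ∀ v, ε v ≤ 1) :
    ∃ y : Kˣ, ∀ v ∈ S, v.valuation K ((y / x v : Kˣ) - 1 : K) < ε v := by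
  classical
  rcases S.eq_empty_or_nonempty with rfl | hne
  · exact ⟨1, by simp⟩
  obtain ⟨b, hb⟩ := IsLocalization.exist_integer_multiples (nonZeroDivisors (𝓞 K)) S
    (fun v => ((x v : Kˣ) : K))
  have hb0 : algebraMap (𝓞 K) K (b : 𝓞 K) ≠ 0 := by
    have := nonZeroDivisors.ne_zero b.2
    simp [this]
  choose! r hr using hb
  -- `r v = b * x v`
  have hr' : ∀ v ∈ S, algebraMap (𝓞 K) K (r v) = algebraMap (𝓞 K) K (b : 𝓞 K) * (x v : K) := by
    intro v hv
    rw [hr v hv, Algebra.smul_def]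
  have hr0 : ∀ v ∈ S, algebraMap (𝓞 K) K (r v) ≠ 0 := by
    intro v hv
    rw [hr' v hv]
    exact mul_ne_zero hb0 (x v).ne_zero
  have hγ : ∀ v : Pl K, ∃ n : ℕ, v ∈ S →
      WithZero.exp (-(n : ℤ)) < v.valuation K (algebraMap (𝓞 K) K (r v)) * ε v := by
    intro v
    by_cases hv : v ∈ S
    · obtain ⟨n, hn⟩ := wa_exists_exp_lt (v.valuation K (algebraMap (𝓞 K) K (r v)) * ε v)
        (mul_ne_zero ((Valuation.ne_zero_iff _).2 (hr0 v hv)) (hε v))
      exact ⟨n, fun _ => hn⟩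
    · exact ⟨0, fun h => absurd h hv⟩
  choose n hn using hγ
  obtain ⟨t, ht⟩ := IsDedekindDomain.exists_forall_sub_mem_ideal (s := S)
    (fun v : Pl K => v.asIdeal) n (fun v _ => v.prime)
    (fun v _ w _ hvw h => hvw (HeightOneSpectrum.ext h)) (fun v => r v)
  have hlt : ∀ v ∈ S, v.valuation K (algebraMap (𝓞 K) K t - algebraMap (𝓞 K) K (r v)) <
      v.valuation K (algebraMap (𝓞 K) K (r v)) * ε v := by
    intro v hv
    refine lt_of_le_of_lt ?_ (hn v hv)
    rw [← map_sub, HeightOneSpectrum.valuation_of_algebraMap,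
      HeightOneSpectrum.intValuation_le_pow_iff_mem]
    exact ht v hv
  have ht0 : algebraMap (𝓞 K) K t ≠ 0 := by
    obtain ⟨v, hv⟩ := hne
    intro h0
    have := hlt v hv
    rw [h0, zero_sub, Valuation.map_neg] at this
    exact absurd this (not_lt.2 (mul_le_of_le_one_right' (hε1 v)))
  refine ⟨Units.mk0 (algebraMap (𝓞 K) K t / algebraMap (𝓞 K) K (b : 𝓞 K))
    (div_ne_zero ht0 hb0), fun v hv => ?_⟩
  have hx0 : ((x v : Kˣ) : K) ≠ 0 := (x v).ne_zero
  have e : ((Units.mk0 (algebraMap (𝓞 K) K t / algebraMap (𝓞 K) K (b : 𝓞 K))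
      (div_ne_zero ht0 hb0) / x v : Kˣ) - 1 : K) =
      (algebraMap (𝓞 K) K t - algebraMap (𝓞 K) K (r v)) / algebraMap (𝓞 K) K (r v) := by
    rw [Units.val_div_eq_div_val, Units.val_mk0, hr' v hv]
    field_simp
  rw [e, map_div₀]
  have hpos : 0 < v.valuation K (algebraMap (𝓞 K) K (r v)) :=
    zero_lt_iff.2 ((Valuation.ne_zero_iff _).2 (hr0 v hv))
  rw [div_lt_iff₀ hpos, mul_comm]
  exact hlt v hv

theorem weak_approx (S : Set (Pl K)) (hS : S.Finite) : LAIndep (PP p K) S := by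
  intro ξ
  choose x hx using fun v => cls_surjective p (ξ v)
  obtain ⟨y, hy⟩ := wa_exists_units K hS.toFinset x (fun v => (v.valuation K (p : K)) ^ 2)
    (fun v => pow_ne_zero 2 (val_p_ne_zero p K v)) (fun v => val_p_sq_le_one p K v)
  refine ⟨cls p y, fun v hv => ?_⟩
  rw [← hx v, ← cls_div]
  exact (mem_img p).2 ⟨y / x v, (mem_Uc p K).2 (hy v (hS.mem_toFinset.2 hv)), rfl⟩

end

end Fermat.Agent.S55.G
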