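import Fermat.Agent.S55.G.Defs
import Fermat.Agent.S55.G.LinAlgA
import Fermat.Agent.S55.G.LinAlgB
import Fermat.Agent.S55.G.LinAlgC
import Fermat.Agent.S55.G.ValOrd
import Fermat.Agent.S55.G.ValWild
import Fermat.Agent.S55.G.ValSum
import Fermat.Agent.S55.G.WeakApprox
import Fermat.Agent.S55.G.Units
import Fermat.Agent.S55.G.Good
import Fermat.Agent.S55.G.KummerExt
import Fermat.Agent.S55.G.KummerKer
import Fermat.Agent.S55.G.KummerNorm
import Fermat.Agent.S55.G.Split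
import Fermat.Agent.S55.G.UnramNorm
import Fermat.Agent.S55.G.PlacesAbove
import Fermat.Agent.S55.G.KummerUnram
import Fermat.Agent.S55.G.H1Units
import Fermat.Agent.S55.G.HerbrandUnits

open IsDedekindDomain NumberField Module

namespace Fermat.Agent.S55.G

noncomputable section

set_option linter.unusedSectionVars false
set_option linter.style.haveILetI false

variable (p : ℕ) [Fact p.Prime] (K : Type) [Field K] [NumberField K]
variable (L : Type) [Field L] [NumberField L] [Algebra K L]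

theorem finiteDimensional_quot_Nrm (hodd : p ≠ 2) (hζ : ∃ ζ : K, IsPrimitiveRoot ζ p) (v : Pl K) :
    FiniteDimensional (ZMod p) (KP p K ⧸ Nrm p K L v) :=
  haveI := (card_quot_PP_le p K hodd hζ v).1
  (la_finrank_quot_mono _ _ (PP_le_Nrm p K L v)).1

theorem finiteDimensional_quot_iInf_Nrm (hodd : p ≠ 2) (hζ : ∃ ζ : K, IsPrimitiveRoot ζ p)
    (S : Set (Pl K)) (hS : S.Finite) :
    FiniteDimensional (ZMod p) (KP p K ⧸ ⨅ v ∈ S, Nrm p K L v) :=
  la_finite_iInf _ S hS (fun v _ => finiteDimensional_quot_Nrm p K L hodd hζ v)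

theorem ncard_nonsplit_le (hloc : LocalNormHyp p) (hodd : p ≠ 2)
    (hζ : ∃ ζ : K, IsPrimitiveRoot ζ p) [IsGalois K L] (hdeg : finrank K L = p)
    (S : Set (Pl K)) (hS : S.Finite) :
    {v ∈ S | Nonsplit K L v}.ncard ≤ finrank (ZMod p) (KP p K ⧸ ⨅ v ∈ S, Nrm p K L v) := by
  calc {v ∈ S | Nonsplit K L v}.ncard ≤ {v ∈ S | Nrm p K L v ≠ ⊤}.ncard := by
        apply Set.ncard_le_ncard
        · rintro v ⟨hv, hns⟩
          exact ⟨hv, hloc K L hζ hdeg v hns⟩
        · exact hS.subset (fun v hv => hv.1)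
    _ ≤ _ := la_card_le_finrank_iInf (PP p K) (Nrm p K L) S hS (weak_approx p K S hS)
        (fun v _ => PP_le_Nrm p K L v) (fun v _ => (card_quot_PP_le p K hodd hζ v).1)

theorem NNS_le_inf [IsGalois K L] (S : Set (Pl K)) :
    NNS p K L S ≤ EE p K S ⊓ ⨅ v ∈ S, Nrm p K L v :=
  le_inf (NNS_le_EE p K L S)
    (le_iInf₂ fun v _ => (NNS_le_NN p K L S).trans (NN_le_Nrm p K L v))

/-- G2 : the first inequality. -/
theorem first_inequality (hloc : LocalNormHyp p) (hodd : p ≠ 2)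
    (hζ : ∃ ζ : K, IsPrimitiveRoot ζ p) [IsGalois K L] (hdeg : finrank K L = p)
    (S : Set (Pl K)) (hS : S.Finite) (hgood : IsGood p K S) (hunr : ∀ v ∉ S, Unram K L v) :
    EE p K S ⊔ ⨅ v ∈ S, Nrm p K L v ≠ ⊤ := by
  haveI := (finrank_EE p K hodd hζ S hS).1
  haveI := finiteDimensional_quot_iInf_Nrm p K L hodd hζ S hS
  exact la_first (EE p K S) (⨅ v ∈ S, Nrm p K L v) (NNS p K L S)
    ({v ∈ S | Nonsplit K L v}.ncard) (NNS_le_inf p K L S)
    (finrank_NNS p K L hodd hζ hdeg S hS hgood hunr).ge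
    (ncard_nonsplit_le p K L hloc hodd hζ hdeg S hS)

variable {p K L}

theorem cls_mem_EE {S : Set (Pl K)} {x : Kˣ} (hx : x ∈ S.unit K) : cls p x ∈ EE p K S :=
  (mem_img p).2 ⟨x, hx, rfl⟩

theorem mem_unit_of_support {S : Set (Pl K)} {x : Kˣ}
    (h : {v : Pl K | v.valuation K (x : K) ≠ 1} ⊆ S) : x ∈ S.unit K := by
  intro v hv
  by_contra hx
  exact hv (h hx)

theorem IsKummer.unram_outside (hζ : ∃ ζ : K, IsPrimitiveRoot ζ p) {a : Kˣ} {α : Lˣ}
    (h : IsKummer p K L a α) {S : Set (Pl K)} (hgood : IsGood p K S) (haS : a ∈ S.unit K) :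
    ∀ v ∉ S, Unram K L v := fun v hv =>
  h.unram hζ v (fun hp => hv (hgood.1 v hp)) (EE_le_OO p K hv (cls_mem_EE haS))

/-- G3 : nonsplit places exist outside any finite set. -/
theorem IsKummer.exists_nonsplit (hloc : LocalNormHyp p) (hodd : p ≠ 2)
    (hζ : ∃ ζ : K, IsPrimitiveRoot ζ p) {a : Kˣ} {α : Lˣ} (h : IsKummer p K L a α)
    (S₀ : Set (Pl K)) (hS₀ : S₀.Finite) : ∃ v ∉ S₀, cls p a ∉ PP p K v := by
  by_contra hcon
  push Not at hcon
  haveI := h.galois
  haveI : FiniteDimensional (ZMod p) (KP p K ⧸ ⨅ v ∈ S₀, PP p K v) :=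
    la_finite_iInf _ S₀ hS₀ (fun v _ => (card_quot_PP_le p K hodd hζ v).1)
  obtain ⟨s, hs⟩ := la_exists_finite_span (F := ZMod p) (⨅ v ∈ S₀, PP p K v)
  choose rep hrep using cls_surjective p (K := K)
  set S₁ : Set (Pl K) := S₀ ∪ {v : Pl K | v.valuation K (a : K) ≠ 1} ∪
    ⋃ ξ ∈ s, {v : Pl K | v.valuation K (rep ξ : K) ≠ 1} with hS₁
  have hS₁fin : S₁.Finite :=
    (hS₀.union (finite_support K a)).union
      (Set.Finite.biUnion s.finite_toSet (fun ξ _ => finite_support K (rep ξ)))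
  obtain ⟨S, hS₁S, hSfin, hgood⟩ := exists_good p K S₁ hS₁fin
  have haS : a ∈ S.unit K := mem_unit_of_support (fun v hv => hS₁S (Or.inl (Or.inr hv)))
  refine first_inequality p K L hloc hodd hζ h.deg S hSfin hgood
    (h.unram_outside hζ hgood haS) ?_
  rw [eq_top_iff, ← hs]
  refine sup_le_sup ?_ ?_
  · rw [Submodule.span_le]
    intro ξ hξ
    rw [← hrep ξ]
    refine cls_mem_EE (mem_unit_of_support (fun v hv => hS₁S (Or.inr ?_)))
    exact Set.mem_biUnion hξ hv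
  · refine le_iInf₂ fun v _ => ?_
    by_cases hv : v ∈ S₀
    · exact (iInf₂_le v hv).trans (PP_le_Nrm p K L v)
    · rw [h.Nrm_eq_top hodd v (hcon v hv)]; exact le_top

end

end Fermat.Agent.S55.G
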